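import Fermat.Agent.Corollaries.HCF.Defs

set_option autoImplicit false

/-!
# From the existence theorem to the full Hilbert class field

`K` totally complex; the existence theorem `Ex p k` for all `p`, `k` is a hypothesis here.

* `Art.unique`: the character of a ray character is unique;
* `exists_art`: every character of the class group gives a character of `G_K`;
* `exists_artinMap`: the Artin map `G_K → Cl(K)`: a continuous surjection which maps all Frobenius
  elements at all places `v` to the class of `v`;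
* `exists_field_of_artinMap`, `finalStmt`: the Hilbert class field.
-/

namespace Fermat.Agent.Cor.HCF

open IsDedekindDomain NumberField
open Fermat.Agent.Frob Fermat.Agent.FrobDensity Fermat.Agent.Minkowski
open Fermat.Agent.LT Fermat.Agent.LT.Tower.Fr
open Fermat.Agent.Cor.Diff (GK FrobAt exists_nat_mem)
open Fermat.Agent.Cor.CFTP (C Lev cl classOf_single restrHom restrHom_apply restrHom_eq_one_iff
  exists_frob exists_frobAt_all exists_frobAt_over isFrobeniusAt_inertia_mul
  exists_field_of_surjective edeg_eq_one_of_inertia fdeg_eq_one_iff eq_of_isArithFrobAt)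
open Fermat.Agent.LT.NV (edeg fdeg)
open Fermat.Agent.CFT.SUnits (ord div idealOf classOf classOf_surjective classOf_eq_one_iff)

section Class

variable {K : Type*} [Field K] [NumberField K]

/-- a character of the class group as a function on the places -/
noncomputable def etaU (χ : ClassGroup (𝓞 K) →* U) (v : HeightOneSpectrum (𝓞 K)) : Additive U :=
  Additive.ofMul (χ (cl v))

theorem toMul_divVal (χ : ClassGroup (𝓞 K) →* U) (D : HeightOneSpectrum (𝓞 K) →₀ ℤ) :
    (divVal ∅ (etaU χ) D).toMul = χ (classOf (Multiplicative.ofAdd D)) := by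
  induction D using Finsupp.induction_linear with
  | zero => rw [map_zero, toMul_zero, ofAdd_zero, map_one, map_one]
  | add D E hD hE => rw [map_add, toMul_add, hD, hE, ofAdd_add, map_mul, map_mul]
  | single v m =>
    rw [divVal_single ∅ (etaU χ) (Finset.notMem_empty v) m, classOf_single, map_zpow, toMul_zsmul]
    rfl

/-- A character of the class group is a ray character of modulus one. -/
theorem isRay_etaU (χ : ClassGroup (𝓞 K) →* U) : IsRay ∅ 0 (etaU χ) := by
  intro x _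
  have h : classOf (Multiplicative.ofAdd (div (R := 𝓞 K) x)) = 1 :=
    (classOf_eq_one_iff _).mpr ⟨x, rfl⟩
  have h1 := toMul_divVal χ (div (R := 𝓞 K) x)
  rw [h, map_one] at h1
  rw [rayVal_apply]
  exact toAdd_eq_zero.mp (toMul_eq_one.mp h1)

/-- The class group is generated by the classes of the places. -/
theorem mem_of_forall_cl (H : Subgroup (ClassGroup (𝓞 K))) (h : ∀ v, cl v ∈ H)
    (c : ClassGroup (𝓞 K)) : c ∈ H := by
  obtain ⟨D, rfl⟩ := classOf_surjective c
  suffices key : ∀ D : HeightOneSpectrum (𝓞 K) →₀ ℤ, classOf (Multiplicative.ofAdd D) ∈ H from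
    key D.toAdd
  intro D
  induction D using Finsupp.induction_linear with
  | zero =>
    rw [ofAdd_zero, map_one]
    exact H.one_mem
  | add D E hD hE =>
    rw [ofAdd_add, map_mul]
    exact H.mul_mem hD hE
  | single v m =>
    rw [classOf_single]
    exact H.zpow_mem (h v) m

lemma cl_eq_one_iff (v : HeightOneSpectrum (𝓞 K)) : cl v = 1 ↔ v.asIdeal.IsPrincipal :=
  ClassGroup.mk0_eq_one_iff _

end Class

section Art

variable {K : Type*} [Field K] [NumberField K] {i : K →+* AlgebraicClosure ℚ}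
  {S : Finset (HeightOneSpectrum (𝓞 K))} {η η' : HeightOneSpectrum (𝓞 K) → Additive U}
  {ψ ψ' : GK i →* U}

theorem Art.mul (h : Art i S η ψ) (h' : Art i S η' ψ') : Art i S (η + η') (ψ * ψ') := by
  refine ⟨h.1.mul h'.1, fun v hv g hg => ?_⟩
  rw [MonoidHom.mul_apply, h.2 v hv g hg, h'.2 v hv g hg]
  rfl

/-- **Uniqueness**: a ray character has at most one Galois character. -/
theorem Art.unique (h : Art i S η ψ) (h' : Art i S η ψ') : ψ = ψ' := by
  obtain ⟨L, hL, hl⟩ := h.1
  obtain ⟨L', hL', hl'⟩ := h'.1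
  obtain ⟨D, hD, hDS⟩ := exists_nat_mem (↑S : Set (HeightOneSpectrum (𝓞 K))) S.finite_toSet
  have hfd : FiniteDimensional ℚ ↥(L ⊔ L') := IntermediateField.finiteDimensional_sup L L'
  ext1 g
  obtain ⟨v, φ, k, k', hv, hφ, -, hall⟩ := exists_frob g (L ⊔ L') hD
  have hvS : v ∉ S := fun hvS => hv (hDS v hvS)
  have h1 := (hall ψ fun g hg => hl g fun x hx => hg x ((le_sup_left : L ≤ L ⊔ L') hx)).2
  have h1' := (hall ψ' fun g hg => hl' g fun x hx => hg x ((le_sup_right : L' ≤ L ⊔ L') hx)).2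
  rw [h1, h1', h.2 v hvS φ hφ, h'.2 v hvS φ hφ]

end Art

/-- Every character of the class group gives a character of `G_K`. -/
theorem exists_art (hEx : ∀ (p k : ℕ) [Fact p.Prime], Ex p k) {K : Type} [Field K] [NumberField K]
    [IsTotallyComplex K] (i : K →+* AlgebraicClosure ℚ) (χ : ClassGroup (𝓞 K) →* U) :
    ∃ ψ : GK i →* U, Art i ∅ (etaU χ) ψ := by
  suffices key : ∀ N : ℕ, N ≠ 0 → ∀ χ : ClassGroup (𝓞 K) →* U, (∀ c, χ c ^ N = 1) →
      ∃ ψ : GK i →* U, Art i ∅ (etaU χ) ψ by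
    refine key (Nat.card (ClassGroup (𝓞 K))) Nat.card_pos.ne' χ fun c => ?_
    rw [← map_pow, pow_card_eq_one', map_one]
  intro N
  induction N using Nat.recOnPrimeCoprime with
  | zero => exact fun h => absurd rfl h
  | prime_pow p k hp =>
    intro _ χ hχ
    have : Fact p.Prime := ⟨hp⟩
    refine hEx p k K i ∅ 0 (etaU χ) (isRay_etaU χ) fun v _ => ?_
    apply Additive.toMul.injective
    rw [toMul_nsmul, toMul_zero]
    exact hχ (cl v)
  | coprime a b ha hb hab iha ihb =>
    intro _ χ hχ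
    obtain ⟨r, s, hrs⟩ := Nat.isCoprime_iff_coprime.mpr hab
    have hp : ∀ (c : ClassGroup (𝓞 K)) (m : ℤ), χ c ^ (((a * b : ℕ) : ℤ) * m) = 1 := by
      intro c m
      rw [zpow_mul, zpow_natCast, hχ, one_zpow]
    obtain ⟨ψ₁, h₁⟩ := iha (by omega) ((zpowGroupHom (s * b)).comp χ) (fun c => by
      change (χ c ^ (s * b)) ^ a = 1
      rw [← zpow_natCast, ← zpow_mul, ← hp c s]
      congr 1
      push_cast
      ring)
    obtain ⟨ψ₂, h₂⟩ := ihb (by omega) ((zpowGroupHom (r * a)).comp χ) (fun c => by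
      change (χ c ^ (r * a)) ^ b = 1
      rw [← zpow_natCast, ← zpow_mul, ← hp c r]
      congr 1
      push_cast
      ring)
    refine ⟨ψ₂ * ψ₁, ?_⟩
    have h3 : etaU χ = etaU ((zpowGroupHom (r * a)).comp χ) +
        etaU ((zpowGroupHom (s * b)).comp χ) := by
      funext v
      change Additive.ofMul (χ (cl v)) =
        Additive.ofMul (χ (cl v) ^ (r * a)) + Additive.ofMul (χ (cl v) ^ (s * b))
      rw [← ofMul_mul, ← zpow_add, hrs, zpow_one]
    rw [h3]
    exact h₂.mul h₁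

/-- **The Artin map** `G_K → Cl(K)`: a continuous surjection which maps all Frobenius elements at
all places `v` to the class of `v`. -/
theorem exists_artinMap (hEx : ∀ (p k : ℕ) [Fact p.Prime], Ex p k) {K : Type} [Field K]
    [NumberField K] [IsTotallyComplex K] (i : K →+* AlgebraicClosure ℚ) :
    ∃ Ψ : GK i →* ClassGroup (𝓞 K), Lev Ψ ∧ Function.Surjective Ψ ∧
      ∀ (v : HeightOneSpectrum (𝓞 K)) (g : GK i), FrobAt g v → Ψ g = cl v := by
  choose ψ hψ using fun χ : ClassGroup (𝓞 K) →* U => exists_art hEx i χ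
  have hmul : ∀ χ χ', ψ (χ * χ') = ψ χ * ψ χ' := fun χ χ' =>
    (hψ (χ * χ')).unique ((hψ χ).mul (hψ χ'))
  have hone : ψ 1 = 1 := by
    have h := hmul 1 1
    have h0 : (1 * 1 : ClassGroup (𝓞 K) →* U) = 1 := MonoidHom.ext fun c => one_mul _
    rw [h0] at h
    ext1 g
    have h1 : ψ 1 g = ψ 1 g * ψ 1 g := DFunLike.congr_fun h g
    exact mul_eq_left.mp h1.symm
  let Φ : GK i →* ((ClassGroup (𝓞 K) →* U) →* U) :=
    { toFun := fun g =>
        { toFun := fun χ => ψ χ g
          map_one' := by rw [hone]; rfl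
          map_mul' := fun χ χ' => by rw [hmul]; rfl }
      map_one' := by
        ext1 χ
        exact map_one (ψ χ)
      map_mul' := fun g h => by
        ext1 χ
        exact map_mul (ψ χ) g h }
  let Ψ : GK i →* ClassGroup (𝓞 K) :=
    (CommGroup.monoidHomMonoidHomEquiv (ClassGroup (𝓞 K)) (AlgebraicClosure ℚ)).toMonoidHom.comp Φ
  have hΨ : ∀ g χ, χ (Ψ g) = ψ χ g := fun g χ =>
    CommGroup.apply_monoidHomMonoidHomEquiv (AlgebraicClosure ℚ) χ (Φ g)
  have hfrob : ∀ (v : HeightOneSpectrum (𝓞 K)) (g : GK i), FrobAt g v → Ψ g = cl v := by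
    intro v g hg
    rw [← CommGroup.forall_apply_eq_apply_iff (G := ClassGroup (𝓞 K)) (M := AlgebraicClosure ℚ)]
    intro χ
    rw [hΨ, (hψ χ).2 v (Finset.notMem_empty v) g hg]
    rfl
  refine ⟨Ψ, ?_, ?_, hfrob⟩
  · choose L hL h using fun χ => (hψ χ).1
    have hc : Nat.card (ClassGroup (𝓞 K) →* U) = Nat.card (ClassGroup (𝓞 K)) :=
      CommGroup.card_monoidHom_of_hasEnoughRootsOfUnity _ (AlgebraicClosure ℚ)
    have hfin : Finite (ClassGroup (𝓞 K) →* U) := Nat.finite_of_card_ne_zero (by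
      rw [hc]
      exact Nat.card_pos.ne')
    refine ⟨⨆ χ, L χ, IntermediateField.finiteDimensional_iSup_of_finite, fun g hg => ?_⟩
    rw [← CommGroup.forall_apply_eq_apply_iff (G := ClassGroup (𝓞 K)) (M := AlgebraicClosure ℚ)]
    intro χ
    rw [hΨ, map_one]
    exact h χ g fun x hx => hg x ((le_iSup L χ : L χ ≤ ⨆ χ, L χ) hx)
  · rw [← MonoidHom.range_eq_top, eq_top_iff]
    intro c _
    refine mem_of_forall_cl _ (fun v => ?_) c
    obtain ⟨g, hg⟩ := exists_frobAt_all i v
    exact ⟨g, hfrob v g hg⟩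

/-- **The field of the Artin map.** -/
theorem exists_field_of_artinMap {K : Type} [Field K] [NumberField K]
    {i : K →+* AlgebraicClosure ℚ} {Ψ : GK i →* ClassGroup (𝓞 K)} (lΨ : Lev Ψ)
    (sΨ : Function.Surjective Ψ)
    (hfrob : ∀ (v : HeightOneSpectrum (𝓞 K)) (g : GK i), FrobAt g v → Ψ g = cl v) :
    ∃ (L : Type) (_ : Field L) (_ : NumberField L) (_ : Algebra K L) (_ : IsGalois K L)
      (j : L →+* AlgebraicClosure ℚ) (e : (L ≃ₐ[K] L) ≃* ClassGroup (𝓞 K)),
      j.comp (algebraMap K L) = i ∧ (∀ g : GK i, g.1 ∈ GK j ↔ Ψ g = 1) ∧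
      (∀ w : HeightOneSpectrum (𝓞 L), (w.under (𝓞 K)).asIdeal.ramificationIdx' w.asIdeal = 1) ∧
      (∀ (w : HeightOneSpectrum (𝓞 L)) (σ : L ≃ₐ[K] L), IsArithFrobAt (𝓞 K) σ w.asIdeal →
        e σ = cl (w.under (𝓞 K))) ∧
      ∀ w : HeightOneSpectrum (𝓞 L), (w.under (𝓞 K)).asIdeal.inertiaDeg' w.asIdeal = 1 ↔
        (w.under (𝓞 K)).asIdeal.IsPrincipal := by
  obtain ⟨L, fL, nL, aL, gL, j, e, hj, he⟩ := exists_field_of_surjective i Ψ lΨ sΨ
  subst hj
  have hres : ∀ g : GK (j.comp (algebraMap K L)), e (restrHom j g) = Ψ g := by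
    intro g
    have h1 : e.symm (Ψ g) = restrHom j g := by
      ext x
      apply j.injective
      rw [he, restrHom_apply]
    rw [← h1, MulEquiv.apply_symm_apply]
  have hfix : ∀ g : GK (j.comp (algebraMap K L)), g.1 ∈ GK j ↔ Ψ g = 1 := by
    intro g
    rw [← restrHom_eq_one_iff, ← e.map_eq_one_iff, hres]
  have hin : ∀ (w : HeightOneSpectrum (𝓞 L)) (A : ValuationSubring (AlgebraicClosure ℚ)),
      Over j A w → ∀ τ ∈ A.inertiaSubgroupIn ℚ,
        (∀ x : K, τ (j (algebraMap K L x)) = j (algebraMap K L x)) →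
          ∀ x : L, τ (j x) = j x := by
    intro w A hA τ hτ hτK
    obtain ⟨φ, hφ⟩ := exists_frobAt_over (hA.under (F := K))
    have h1 := hfrob _ φ ⟨A, hA.under, hφ⟩
    have h2 := hfrob _ (⟨τ, hτK⟩ * φ) ⟨A, hA.under, isFrobeniusAt_inertia_mul hτ hφ⟩
    rw [map_mul, h1] at h2
    exact (hfix ⟨τ, hτK⟩).mpr (mul_eq_right.mp h2)
  have hunr : ∀ w : HeightOneSpectrum (𝓞 L), edeg K w = 1 := by
    intro w
    obtain ⟨q, A, hq, hAq, hA⟩ := exists_over j w
    exact edeg_eq_one_of_inertia hA (hin w A hA)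
  refine ⟨L, fL, nL, aL, gL, j, e, rfl, hfix, hunr, fun w σ hσ => ?_, fun w => ?_⟩
  · obtain ⟨q, A, hq, hAq, hA⟩ := exists_over j w
    obtain ⟨g, hg⟩ := exists_frobAt_over (hA.under (F := K))
    rw [← eq_of_isArithFrobAt hA (hunr w) hσ hg, hres]
    exact hfrob _ g ⟨A, hA.under, hg⟩
  · obtain ⟨q, A, hq, hAq, hA⟩ := exists_over j w
    obtain ⟨g, hg⟩ := exists_frobAt_over (hA.under (F := K))
    have h1 := fdeg_eq_one_iff hA (hin w A hA) (g := g.1) g.2 hg
    change fdeg K w = 1 ↔ _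
    rw [h1]
    change g.1 ∈ GK j ↔ _
    rw [hfix, hfrob _ g ⟨A, hA.under, hg⟩, cl_eq_one_iff]

/-- (I) -/
theorem finalStmt : FinalStmt := by
  intro hEx K _ _ _
  have i₀ : K →ₐ[ℚ] AlgebraicClosure ℚ := IsAlgClosed.lift
  obtain ⟨Ψ, lΨ, sΨ, hΨ⟩ := exists_artinMap hEx (i₀ : K →+* AlgebraicClosure ℚ)
  obtain ⟨L, fL, nL, aL, gL, j, e, -, -, h1, h2, h3⟩ := exists_field_of_artinMap lΨ sΨ hΨ
  exact ⟨L, fL, nL, aL, gL, e, h1, h2, h3⟩

end Fermat.Agent.Cor.HCF
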