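import Fermat.Agent.Corollaries.HCF.Defs
import Fermat.Agent.Corollaries.CFTP.Scale

/-!
# Fresh auxiliary characters of prime power order
-/

set_option autoImplicit false

namespace Fermat.Agent.Cor.HCF

open IsDedekindDomain NumberField
open Fermat.Agent.Frob Fermat.Agent.FrobDensity Fermat.Agent.Minkowski
open Fermat.Agent.LT Fermat.Agent.LT.Tower.Fr
open Fermat.Agent.Cor.Diff (GK FrobAt finite_natCast_mem exists_frobAt)
open Fermat.Agent.Cor.CFTP (C Lev)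

/-- For every `m ≠ 0` there is an element of order `m` in `U`. -/
theorem exists_unit_orderOf {m : ℕ} (hm : m ≠ 0) : ∃ u : U, orderOf u = m := by
  have : NeZero m := ⟨hm⟩
  obtain ⟨ζ, hζ⟩ := HasEnoughRootsOfUnity.exists_primitiveRoot (AlgebraicClosure ℚ) m
  exact ⟨(hζ.isUnit hm).unit, (hζ.isUnit_unit hm).eq_orderOf.symm⟩

/-- A character of order `m` of a finite cyclic group whose order is divisible by `m`, with
values in `U`. -/
theorem exists_char_of_dvd {G : Type*} [Group G] [Finite G] [IsCyclic G] {m : ℕ}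
    (hm : m ∣ Nat.card G) : ∃ (F : G →* U) (g : G), (∀ x, F x ^ m = 1) ∧ orderOf (F g) = m := by
  obtain ⟨g, hg⟩ := IsCyclic.exists_generator (α := G)
  have hm0 : m ≠ 0 := by
    rintro rfl
    exact Nat.card_pos.ne' (Nat.eq_zero_of_zero_dvd hm)
  obtain ⟨u, hu⟩ := exists_unit_orderOf hm0
  have hdvd : orderOf u ∣ orderOf g := by
    rw [hu, orderOf_eq_card_of_forall_mem_zpowers hg]
    exact hm
  refine ⟨monoidHomOfForallMemZpowers hg hdvd, g, fun x => ?_, ?_⟩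
  · obtain ⟨j, rfl⟩ := Subgroup.mem_zpowers_iff.mp (hg x)
    rw [map_zpow, monoidHomOfForallMemZpowers_apply_gen, ← zpow_natCast, ← zpow_mul, mul_comm,
      zpow_mul, zpow_natCast, ← hu, pow_orderOf_eq_one, one_zpow]
  · rw [monoidHomOfForallMemZpowers_apply_gen, hu]

/-- **(C) Fresh auxiliary characters** of order `p ^ (k + 1)`. -/
theorem auxStmt : AuxStmt := by
  classical
  intro p k hp K _ _ _ i M _ B
  let L₁ : IntermediateField ℚ (AlgebraicClosure ℚ) := i.toRatAlgHom.fieldRange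
  have hL₁ : FiniteDimensional ℚ L₁ :=
    LinearEquiv.finiteDimensional (AlgEquiv.ofInjectiveField i.toRatAlgHom).toLinearEquiv
  let N : IntermediateField ℚ (AlgebraicClosure ℚ) := L₁ ⊔ M
  have hN : FiniteDimensional ℚ N := IntermediateField.finiteDimensional_sup _ _
  have hNF : NumberField N := ⟨⟩
  obtain ⟨D, hD, hgood⟩ := exists_good N
  obtain ⟨ℓ, hℓ, hBℓ, hmod⟩ := Nat.exists_prime_gt_modEq_one (k := p ^ (k + 1)) (B + D)
    (pow_ne_zero _ hp.out.ne_zero)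
  have : Fact ℓ.Prime := ⟨hℓ⟩
  have hℓD : ¬ ℓ ∣ D := fun h => by
    have := Nat.le_of_dvd (Nat.pos_of_ne_zero hD) h
    omega
  have hG : Good N ℓ := hgood ℓ hℓ hℓD
  have hdvd : p ^ (k + 1) ∣ Nat.card (ZMod ℓ)ˣ := by
    rw [Nat.card_eq_fintype_card, ZMod.card_units]
    exact (Nat.modEq_iff_dvd' hℓ.one_le).mp hmod.symm
  obtain ⟨F, u, hF, hu⟩ := exists_char_of_dvd (G := (ZMod ℓ)ˣ) hdvd
  let f : (ZMod ℓ)ˣ →* Multiplicative (Additive U) :=
    (MulEquiv.multiplicativeAdditive U).symm.toMonoidHom.comp F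
  have hfF (x : (ZMod ℓ)ˣ) : (f x).toAdd.toMul = F x := rfl
  have hS (v : HeightOneSpectrum (𝓞 K)) :
      v ∈ (finite_natCast_mem (K := K) hℓ.ne_zero).toFinset ↔ (ℓ : 𝓞 K) ∈ v.asIdeal := by
    rw [Set.Finite.mem_toFinset, Set.mem_ofPred_eq]
  have hθ : ∀ v ∉ (finite_natCast_mem (K := K) hℓ.ne_zero).toFinset, ∀ u : (ZMod ℓ)ˣ,
      (u : ZMod ℓ) = (Ideal.absNorm v.asIdeal : ZMod ℓ) →
        (f (Recip.nres ℓ v)).toAdd = (f u).toAdd := by
    intro v hv u hu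
    have : u = Recip.nres ℓ v := by
      apply Units.ext
      rw [hu, Recip.nres_coe fun h => hv ((hS v).mpr h)]
    rw [this]
  obtain ⟨n, hn⟩ := Recip.exists_isRay_norm f _ (fun v => (hS v).mpr) _ hθ
  refine ⟨ℓ, F.comp (KW.Kap.kap ℓ), fun v => (f (Recip.nres ℓ v)).toAdd, _, n, hℓ, by omega, hS, hn,
    (KW.Kap.lev_kap ℓ).comp F, fun g => hF _, ?_, ?_⟩
  · intro v hv g hg
    rw [MonoidHom.comp_apply, CFTP.kap_frobAt (fun h => hv ((hS v).mpr h)) hg, hfF]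
  · obtain ⟨g, hg⟩ := CFTP.exists_kap_eq (algebraMap N (AlgebraicClosure ℚ)) hG u
    refine ⟨⟨g.1, fun x => g.2 ⟨i x, (le_sup_left : L₁ ≤ N) ⟨x, rfl⟩⟩⟩,
      fun x hx => g.2 ⟨x, (le_sup_right : M ≤ N) hx⟩, ?_⟩
    rw [MonoidHom.comp_apply, hg]
    intro h
    have h1 := orderOf_dvd_of_pow_eq_one h
    rw [hu] at h1
    exact absurd (Nat.le_of_dvd (pow_pos hp.out.pos k) h1)
      (not_le.mpr (Nat.pow_lt_pow_right hp.out.one_lt (Nat.lt_succ_self k)))

end Fermat.Agent.Cor.HCF
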