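import Fermat.Agent.Corollaries.HCF.Defs
import Fermat.Agent.Corollaries.CFTP.Split
import Fermat.Agent.Corollaries.CFTP.Final

/-!
# The existence theorem for characters of order `p`, with values in `U`
-/

set_option autoImplicit false

namespace Fermat.Agent.Cor.HCF

open IsDedekindDomain NumberField
open Fermat.Agent.Frob Fermat.Agent.FrobDensity Fermat.Agent.Minkowski
open Fermat.Agent.LT Fermat.Agent.LT.Tower.Fr
open Fermat.Agent.Cor.Diff (GK FrobAt)
open Fermat.Agent.Cor.CFTP (C Lev)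

/-- **(B)** The `p`-torsion of `U` is cyclic of order `p`. -/
theorem torStmt : TorStmt := by
  intro p hp
  have hp0 : p ≠ 0 := hp.out.ne_zero
  obtain ⟨ζ, hζ⟩ := HasEnoughRootsOfUnity.exists_primitiveRoot (AlgebraicClosure ℚ) p
  set u : U := (hζ.isUnit hp0).unit with hu'
  have hu : IsPrimitiveRoot u p := hζ.isUnit_unit hp0
  have hu1 : ((zmultiplesHom (Additive U) (Additive.ofMul u)) (p : ℤ)) = 0 := by
    rw [zmultiplesHom_apply, natCast_zsmul, ← ofMul_pow, hu.pow_eq_one, ofMul_one]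
  let e : ZMod p →+ Additive U := ZMod.lift p ⟨zmultiplesHom (Additive U) (Additive.ofMul u), hu1⟩
  have he (c : ℕ) : e (c : ZMod p) = Additive.ofMul (u ^ c) := by
    have h := ZMod.lift_coe p ⟨zmultiplesHom (Additive U) (Additive.ofMul u), hu1⟩ (c : ℤ)
    rw [Int.cast_natCast] at h
    rw [ofMul_pow]
    refine h.trans ?_
    rw [zmultiplesHom_apply, natCast_zsmul]
  refine ⟨e, ?_, ?_⟩
  · rw [injective_iff_map_eq_zero]
    intro z hz
    obtain ⟨c, rfl⟩ := CFTP.C.exists_natCast z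
    rw [he, ofMul_eq_zero] at hz
    exact (ZMod.natCast_eq_zero_iff _ _).mpr ((hu.pow_eq_one_iff_dvd c).mp hz)
  · intro x hx
    have hx1 : (x.toMul : AlgebraicClosure ℚ) ^ p = 1 := by
      have h1 : x.toMul ^ p = 1 := by
        rw [← toMul_nsmul, hx, toMul_zero]
      have h2 := congrArg (fun y : U => (y : AlgebraicClosure ℚ)) h1
      simpa using h2
    have : NeZero p := ⟨hp0⟩
    obtain ⟨c, -, hc⟩ := hζ.eq_pow_of_pow_eq_one hx1
    refine ⟨(c : ZMod p), ?_⟩
    rw [he]
    apply Additive.toMul.injective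
    rw [toMul_ofMul]
    apply Units.ext
    rw [Units.val_pow_eq_pow_val, ← hc, hu', IsUnit.unit_spec]

/-- **(B')** The case `k = 1` of the existence theorem. -/
theorem baseStmt : BaseStmt := by
  classical
  intro p hp K _ _ _ i S n η hη hp1
  obtain ⟨e, he, hsurj⟩ := torStmt p
  have hex : ∀ v, ∃ z : ZMod p, v ∉ S → e z = η v := by
    intro v
    by_cases hv : v ∈ S
    · exact ⟨0, fun h => absurd hv h⟩
    · have h1 := hp1 v hv
      rw [pow_one] at h1
      obtain ⟨z, hz⟩ := hsurj _ h1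
      exact ⟨z, fun _ => hz⟩
  choose η' hη' using hex
  have h1 : IsRay S n (fun v => e (η' v)) := hη.congr fun v hv => (hη' v hv).symm
  have h2 : IsRay S n η' := CFTP.Split.isRay_of_comp he h1
  obtain ⟨ψ, ⟨L, hL, lψ⟩, -, hψ⟩ := CFTP.artin_existence (Or.inr inferInstance) i h2
  refine ⟨(MulEquiv.multiplicativeAdditive U).toMonoidHom.comp
    ((AddMonoidHom.toMultiplicative e).comp ψ), ⟨L, hL, fun g hg => ?_⟩, fun v hv g hg => ?_⟩
  · rw [MonoidHom.comp_apply, MonoidHom.comp_apply, lψ g hg, map_one, map_one]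
  · rw [MonoidHom.comp_apply, MonoidHom.comp_apply, hψ v hv g hg, ← hη' v hv]
    rfl

end Fermat.Agent.Cor.HCF
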