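import Fermat.Agent.Corollaries.HCF.Defs

set_option autoImplicit false

/-!
# Extension of an invariant character from a normal subgroup of index `p`

`extStmt`: a homomorphism `f : ker χ → ℚ̄ˣ`, `χ : G → ℤ/p` non-trivial, which is invariant under
conjugation by `G`, extends to `G`.
-/

namespace Fermat.Agent.Cor.HCF

open Fermat.Agent.Cor.CFTP (C)

section Ext

variable {p : ℕ} {G : Type*} [Group G] {χ : G →* C p} {f : χ.ker →* U} {σ : G} {t : U}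

/-- The value `t ^ k f(σ ^ (-k) g)`. -/
private noncomputable def evl (χ : G →* C p) (f : χ.ker →* U) (σ : G) (t : U) (g : G) (k : ℤ)
    (h : σ ^ (-k) * g ∈ χ.ker) : U :=
  t ^ k * f ⟨σ ^ (-k) * g, h⟩

private theorem evl_eq (hσ : χ σ = Multiplicative.ofAdd 1) (hp : σ ^ p ∈ χ.ker)
    (ht : t ^ p = f ⟨σ ^ p, hp⟩) (g : G) (k l : ℤ) (hk : σ ^ (-k) * g ∈ χ.ker)
    (hl : σ ^ (-l) * g ∈ χ.ker) : evl χ f σ t g k hk = evl χ f σ t g l hl := by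
  have h1 : σ ^ (-k) * g * (σ ^ (-l) * g)⁻¹ ∈ χ.ker := mul_mem hk (inv_mem hl)
  have h2 : σ ^ (-k) * g * (σ ^ (-l) * g)⁻¹ = σ ^ (l - k) := by
    rw [mul_inv_rev, mul_assoc, mul_inv_cancel_left, zpow_neg, zpow_neg, inv_inv, sub_eq_neg_add,
      zpow_add, zpow_neg]
  rw [h2, MonoidHom.mem_ker, map_zpow, hσ, ← ofAdd_zsmul, zsmul_one, ofAdd_eq_one,
    ZMod.intCast_zmod_eq_zero_iff_dvd] at h1
  obtain ⟨j, hj⟩ := h1
  obtain rfl : l = k + p * j := by omega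
  rw [evl, evl]
  have h3 : (⟨σ ^ (-k) * g, hk⟩ : χ.ker) =
      ⟨σ ^ p, hp⟩ ^ j * ⟨σ ^ (-(k + p * j)) * g, hl⟩ := by
    apply Subtype.ext
    change σ ^ (-k) * g = (σ ^ p) ^ j * (σ ^ (-(k + p * j)) * g)
    rw [← mul_assoc, ← zpow_natCast, ← zpow_mul, ← zpow_add]
    congr 2
    ring
  rw [h3, map_mul, map_zpow, ← ht, ← mul_assoc, ← zpow_natCast, ← zpow_mul, ← zpow_add]

end Ext

/-- (A) -/
theorem extStmt : ExtStmt := by
  intro p hpf G _ χ hχ f hf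
  obtain ⟨g₀, hg₀⟩ := hχ
  -- an element with value `1`
  obtain ⟨σ, hσ⟩ : ∃ σ, χ σ = Multiplicative.ofAdd 1 := by
    have h0 : (χ g₀).toAdd ≠ 0 := fun h => hg₀ (toAdd_eq_zero.mp h)
    refine ⟨g₀ ^ ((χ g₀).toAdd⁻¹).val, ?_⟩
    apply Multiplicative.toAdd.injective
    rw [map_pow, toAdd_pow, toAdd_ofAdd, nsmul_eq_mul, ZMod.natCast_val, ZMod.cast_id',
      id, inv_mul_cancel₀ h0]
  have hp : σ ^ p ∈ χ.ker := by
    rw [MonoidHom.mem_ker, map_pow, hσ, ← ofAdd_nsmul, nsmul_eq_mul, CharP.cast_eq_zero, zero_mul,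
      ofAdd_zero]
  obtain ⟨t₀, ht₀⟩ := IsAlgClosed.exists_pow_nat_eq ((f ⟨σ ^ p, hp⟩ : U) : AlgebraicClosure ℚ)
    hpf.out.pos
  have ht0 : t₀ ≠ 0 := by
    rintro rfl
    rw [zero_pow hpf.out.ne_zero] at ht₀
    exact (f ⟨σ ^ p, hp⟩).ne_zero ht₀.symm
  set t : U := Units.mk0 t₀ ht0 with htdef
  have ht : t ^ p = f ⟨σ ^ p, hp⟩ := Units.ext (by rw [Units.val_pow_eq_pow_val]; exact ht₀)
  -- the exponent
  have hm : ∀ g : G, σ ^ (-(((χ g).toAdd.val : ℕ) : ℤ)) * g ∈ χ.ker := by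
    intro g
    rw [MonoidHom.mem_ker, map_mul, map_zpow, hσ]
    apply Multiplicative.toAdd.injective
    rw [toAdd_mul, toAdd_zpow, toAdd_ofAdd, toAdd_one, zsmul_one]
    push_cast
    rw [ZMod.natCast_val, ZMod.cast_id', id, neg_add_cancel]
  have key := fun g k l hk hl => evl_eq (f := f) hσ hp ht g k l hk hl
  refine ⟨⟨⟨fun g => evl χ f σ t g (((χ g).toAdd.val : ℕ) : ℤ) (hm g), ?_⟩, fun g h => ?_⟩,
    fun n => ?_⟩
  · have h1 : σ ^ (-(0 : ℤ)) * (1 : G) ∈ χ.ker := by simp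
    change evl χ f σ t 1 _ (hm 1) = 1
    rw [key 1 _ 0 (hm 1) h1, evl, zpow_zero, one_mul]
    have h2 : (⟨σ ^ (-(0 : ℤ)) * (1 : G), h1⟩ : χ.ker) = 1 := Subtype.ext (by simp)
    rw [h2, map_one]
  · change evl χ f σ t (g * h) _ (hm (g * h)) = evl χ f σ t g _ (hm g) * evl χ f σ t h _ (hm h)
    set k : ℤ := (((χ g).toAdd.val : ℕ) : ℤ) with hk
    set l : ℤ := (((χ h).toAdd.val : ℕ) : ℤ) with hl
    have e1 : σ ^ (-(k + l)) * (g * h) =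
        (σ ^ (-l) * (σ ^ (-k) * g) * (σ ^ (-l))⁻¹) * (σ ^ (-l) * h) := by
      rw [mul_assoc, inv_mul_cancel_left, neg_add, add_comm, zpow_add]
      group
    have hc : σ ^ (-l) * (σ ^ (-k) * g) * (σ ^ (-l))⁻¹ ∈ χ.ker :=
      (MonoidHom.normal_ker χ).conj_mem _ (hm g) _
    have h1 : σ ^ (-(k + l)) * (g * h) ∈ χ.ker := by
      rw [e1]
      exact mul_mem hc (hm h)
    rw [key (g * h) _ (k + l) (hm (g * h)) h1, evl, evl, evl]
    have h2 : (⟨σ ^ (-(k + l)) * (g * h), h1⟩ : χ.ker) =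
        ⟨σ ^ (-l) * (σ ^ (-k) * g) * (σ ^ (-l))⁻¹, hc⟩ * ⟨σ ^ (-l) * h, hm h⟩ :=
      Subtype.ext e1
    rw [h2, map_mul, hf (σ ^ (-l)) ⟨σ ^ (-k) * g, hm g⟩ hc, zpow_add]
    exact mul_mul_mul_comm _ _ _ _
  · have h1 : σ ^ (-(0 : ℤ)) * (n : G) ∈ χ.ker := by
      rw [neg_zero, zpow_zero, one_mul]
      exact n.2
    change evl χ f σ t n _ (hm n) = f n
    rw [key n _ 0 (hm n) h1, evl, zpow_zero, one_mul]
    congr 1
    exact Subtype.ext (by simp)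

end Fermat.Agent.Cor.HCF
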