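import Fermat.Agent.Corollaries.HCF.Defs

/-!
# Auxiliary primes: the order of `N` modulo `ℓ` is divisible by a given prime power
-/

set_option autoImplicit false

namespace Fermat.Agent.Cor.HCF

open Finset

/-- For every prime `p`, every `N > 1` and every `a` there is a prime `ℓ`, prime to `N`, such that
the order of `N` modulo `ℓ` is exactly `p ^ (a + 2)`. -/
theorem exists_prime_orderOf_eq {p : ℕ} (hp : p.Prime) {N : ℕ} (hN : 1 < N) (a : ℕ) :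
    ∃ ℓ : ℕ, ℓ.Prime ∧ p ^ (a + 2) < ℓ ∧ ¬ ℓ ∣ N ∧ orderOf (N : ZMod ℓ) = p ^ (a + 2) := by
  have : Fact p.Prime := ⟨hp⟩
  set x : ℕ := N ^ p ^ (a + 1) with hx
  have hx1 : 1 < x := Nat.one_lt_pow (pow_ne_zero _ hp.ne_zero) hN
  set Φ : ℕ := ∑ i ∈ range p, x ^ i with hΦ
  have hΦp : p < Φ := by
    calc p = ∑ i ∈ range p, 1 := by simp
      _ < Φ := by
        refine Finset.sum_lt_sum (fun i _ => Nat.one_le_pow _ _ (by omega)) ⟨1, ?_, ?_⟩
        · exact mem_range.mpr hp.one_lt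
        · simpa using hx1
  have hnsq : ¬ p ^ 2 ∣ Φ := by
    have := CFTP.not_sq_dvd_geom hp (N ^ p ^ a)
    rwa [← pow_mul, ← pow_succ] at this
  obtain ⟨ℓ, hℓ, hℓΦ, hℓp⟩ : ∃ ℓ : ℕ, ℓ.Prime ∧ ℓ ∣ Φ ∧ ℓ ≠ p := by
    by_contra hcon
    push Not at hcon
    have h1 := Nat.eq_prime_pow_of_unique_prime_dvd (n := Φ) (p := p) (by omega)
      (fun {d} hd hdΦ => hcon d hd hdΦ)
    set m := Φ.primeFactorsList.length
    have h2 : 2 ≤ m := by
      by_contra hm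
      have hm' : m ≤ 1 := by omega
      have : p ^ m ≤ p ^ 1 := Nat.pow_le_pow_right hp.pos hm'
      rw [pow_one] at this
      omega
    exact hnsq (h1 ▸ pow_dvd_pow p h2)
  have : Fact ℓ.Prime := ⟨hℓ⟩
  have hΦ0 : (∑ i ∈ range p, (x : ZMod ℓ) ^ i) = 0 := by
    have := (ZMod.natCast_eq_zero_iff Φ ℓ).mpr hℓΦ
    rw [hΦ] at this
    push_cast at this
    exact this
  have hxp : (x : ZMod ℓ) ^ p = 1 := by
    have := geom_sum_mul (x : ZMod ℓ) p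
    rw [hΦ0, zero_mul] at this
    exact (sub_eq_zero.mp this.symm)
  have hx1' : (x : ZMod ℓ) ≠ 1 := by
    intro h
    rw [h] at hΦ0
    simp only [one_pow, sum_const, card_range, nsmul_eq_mul, mul_one] at hΦ0
    rw [ZMod.natCast_eq_zero_iff] at hΦ0
    exact hℓp ((Nat.prime_dvd_prime_iff_eq hℓ hp).mp hΦ0)
  have hxN : (x : ZMod ℓ) = (N : ZMod ℓ) ^ p ^ (a + 1) := by rw [hx]; push_cast; rfl
  have hord : orderOf (N : ZMod ℓ) = p ^ (a + 1 + 1) := by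
    apply orderOf_eq_prime_pow
    · rw [← hxN]; exact hx1'
    · rw [pow_succ, pow_mul, ← hxN, hxp]
  have hNℓ : ¬ ℓ ∣ N := by
    intro h
    have h0 : (N : ZMod ℓ) = 0 := (ZMod.natCast_eq_zero_iff _ _).mpr h
    have : (N : ZMod ℓ) ^ p ^ (a + 1 + 1) = 1 := hord ▸ pow_orderOf_eq_one _
    rw [h0, zero_pow (pow_ne_zero _ hp.ne_zero)] at this
    exact zero_ne_one this
  refine ⟨ℓ, hℓ, ?_, hNℓ, hord⟩
  have hN0 : (N : ZMod ℓ) ≠ 0 := fun h => hNℓ ((ZMod.natCast_eq_zero_iff _ _).mp h)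
  have h1 : orderOf (N : ZMod ℓ) ∣ ℓ - 1 := by
    rw [orderOf_dvd_iff_pow_eq_one]
    exact ZMod.pow_card_sub_one_eq_one hN0
  have h2 : p ^ (a + 1 + 1) ≤ ℓ - 1 := by
    rw [← hord]
    exact Nat.le_of_dvd (Nat.sub_pos_of_lt hℓ.one_lt) h1
  have h3 : 0 < p ^ (a + 1 + 1) := pow_pos hp.pos _
  show p ^ (a + 1 + 1) < ℓ
  omega

/-- **(E)** For `N > 1` there are arbitrarily large primes `ℓ`, prime to `N`, such that `p ^ k`
divides the order of `N` modulo `ℓ`. -/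
theorem primeStmt : PrimeStmt := by
  intro p k hp N hN B
  obtain ⟨ℓ, hℓ, hlt, hNℓ, hord⟩ := exists_prime_orderOf_eq hp hN (B + k)
  refine ⟨ℓ, hℓ, ?_, hNℓ, ?_⟩
  · have h3 : B + k + 2 < p ^ (B + k + 2) := Nat.lt_pow_self hp.one_lt
    omega
  · rw [hord]
    exact pow_dvd_pow p (by omega)

end Fermat.Agent.Cor.HCF
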