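import Fermat.Agent.Corollaries.HCF.AuxFresh
import Fermat.Agent.Corollaries.CFTP.Split

/-!
# The decomposition field of `v₀` in `K(μ_ℓ)`: characters of order `p ^ (k + 1)`

The construction of `CFTP/Split` (helper82) with a character of `⟨N v₀⟩ ⊆ (ℤ/ℓ)ˣ` whose value at
`N v₀` has order `p ^ (k + 1)`.
-/

set_option autoImplicit false

namespace Fermat.Agent.Cor.HCF

open IsDedekindDomain NumberField
open Fermat.Agent.Frob Fermat.Agent.FrobDensity Fermat.Agent.Minkowski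
open Fermat.Agent.LT Fermat.Agent.LT.Tower.Fr
open Fermat.Agent.Cor.Diff (GK FrobAt finite_natCast_mem)
open Fermat.Agent.Cor.CFTP
open Fermat.Agent.LT.NV (fdeg)

/-- **(D) The decomposition field of `v₀` in `K(μ_ℓ)`.** -/
theorem splitStmt : SplitStmt := by
  classical
  intro p k hp K _ _ _ i ℓ hℓF v₀ hv₀ hord
  have hℓ : ℓ.Prime := Fact.out
  -- the group
  set u₀ := Recip.nres ℓ v₀ with hu₀
  let C' : Subgroup (ZMod ℓ)ˣ := Subgroup.zpowers u₀
  have hcard : p ^ (k + 1) ∣ Nat.card C' := by rwa [Nat.card_zpowers]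
  obtain ⟨lam, ⟨x, hx⟩, hlamp, hlam⟩ := exists_char_of_dvd (G := C') hcard
  have hlam₀ : ∀ h : u₀ ∈ C', lam ⟨u₀, h⟩ ^ p ^ k ≠ 1 := by
    intro h0 hcon
    obtain ⟨m, hm⟩ := Subgroup.mem_zpowers_iff.mp hx
    have h2 : (⟨x, hx⟩ : C') = ⟨u₀, h0⟩ ^ m := Subtype.ext (by
      rw [SubgroupClass.coe_zpow]
      exact hm.symm)
    have h3 : lam ⟨x, hx⟩ ^ p ^ k = 1 := by
      rw [h2, map_zpow, ← zpow_natCast, ← zpow_mul, mul_comm, zpow_mul, zpow_natCast, hcon,
        one_zpow]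
    have h4 := orderOf_dvd_of_pow_eq_one h3
    rw [hlam] at h4
    exact absurd (Nat.le_of_dvd (pow_pos hp.out.pos k) h4)
      (not_le.mpr (Nat.pow_lt_pow_right hp.out.one_lt (Nat.lt_succ_self k)))
  -- the fields
  let E := CyclotomicField ℓ K
  have hζ : IsPrimitiveRoot (IsCyclotomicExtension.zeta ℓ K E) ℓ :=
    IsCyclotomicExtension.zeta_spec ℓ K E
  have hG : IsGalois K E := IsCyclotomicExtension.isGalois {ℓ} K E
  let H : Subgroup (E ≃ₐ[K] E) := C'.comap (hζ.autToPow K)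
  have hHn : H.Normal := Subgroup.Normal.comap inferInstance _
  let K₂ : IntermediateField K E := IntermediateField.fixedField H
  have hG₂ : IsGalois K K₂ := IsGalois.of_fixedField_normal_subgroup H
  have hTC : IsTotallyComplex K₂ := isTotallyComplex_of_algebra K K₂
  -- the embeddings
  let _ : Algebra K (AlgebraicClosure ℚ) := i.toAlgebra
  obtain ⟨j⟩ : Nonempty (E →ₐ[K] AlgebraicClosure ℚ) := ⟨IsAlgClosed.lift⟩
  have hj : (j : E →+* AlgebraicClosure ℚ).comp (algebraMap K E) = i :=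
    RingHom.ext fun x => j.commutes x
  let i₂ : K₂ →+* AlgebraicClosure ℚ := (j : E →+* AlgebraicClosure ℚ).comp (algebraMap K₂ E)
  have hi₂ : i₂.comp (algebraMap K K₂) = i := by
    rw [← hj]
    rfl
  -- restriction to `E`
  have hgal : ∀ g : GQ, g ∈ GK i → ∃ τ : E ≃ₐ[K] E, (∀ x, g (j x) = j (τ x)) ∧
      hζ.autToPow K τ = KW.Kap.kap ℓ g := by
    intro g hg
    rw [← hj] at hg
    obtain ⟨τ, hτ⟩ := exists_gal (K := K) (j : E →+* AlgebraicClosure ℚ) hg
    refine ⟨τ, hτ, ?_⟩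
    have hjζ : IsPrimitiveRoot (j (IsCyclotomicExtension.zeta ℓ K E)) ℓ :=
      hζ.map_of_injective j.injective
    have h1 := KW.Kap.kap_spec ℓ g _ hjζ.pow_eq_one
    have h2 := hζ.autToPow_spec K τ
    have h3 : g (j (IsCyclotomicExtension.zeta ℓ K E)) =
        j (τ (IsCyclotomicExtension.zeta ℓ K E)) := hτ _
    rw [← h2, map_pow, h1] at h3
    have h4 := hjζ.pow_inj (ZMod.val_lt _) (ZMod.val_lt _) h3
    exact Units.ext (ZMod.val_injective ℓ h4.symm)
  have hmem : ∀ g : GQ, g ∈ GK i → (g ∈ GK i₂ ↔ KW.Kap.kap ℓ g ∈ C') := by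
    intro g hg
    obtain ⟨τ, hτ, hτk⟩ := hgal g hg
    have h1 : g ∈ GK i₂ ↔ τ ∈ H := by
      rw [← IntermediateField.fixingSubgroup_fixedField H,
        IntermediateField.mem_fixingSubgroup_iff]
      constructor
      · intro h x hx
        have h2 : g (j x) = j x := h ⟨x, hx⟩
        rw [hτ] at h2
        exact j.injective h2
      · intro h x
        change g (j x) = j x
        rw [hτ, h _ x.2]
    rw [h1, ← hτk]
    rfl
  have hle : ∀ g : GQ, g ∈ GK i₂ → g ∈ GK i := by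
    intro g hg
    rw [← hi₂]
    exact fun x => hg (algebraMap K K₂ x)
  have hkap : ∀ g : GK i₂, KW.Kap.kap ℓ g.1 ∈ C' := fun g => (hmem g.1 (hle g.1 g.2)).mp g.2
  let κ : GK i₂ →* U := lam.comp
    (((KW.Kap.kap ℓ).comp (GK i₂).subtype).codRestrict C' hkap)
  have hκ : ∀ g : GK i₂, κ g = lam ⟨KW.Kap.kap ℓ g.1, hkap g⟩ := fun g => rfl
  -- the residues are in `C'`
  have hres : ∀ w : HeightOneSpectrum (𝓞 K₂), Recip.nres ℓ w ∈ C' := by
    intro w
    by_cases hw : (ℓ : 𝓞 K₂) ∈ w.asIdeal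
    · have h1 : Recip.nres ℓ w = 1 := by
        rw [Recip.nres, dif_neg]
        obtain ⟨f, hf, hf'⟩ := exists_absNorm_eq_pow hℓ hw
        rw [hf', Nat.cast_pow, ZMod.natCast_self, zero_pow hf.ne']
        exact not_isUnit_zero
      rw [h1]
      exact C'.one_mem
    · obtain ⟨q, A, hq, hA, hO⟩ := exists_over i₂ w
      obtain ⟨g, hg⟩ := Split.exists_frob hO hq hA
      rw [← kap_frobAt hw (g := g) ⟨A, hO, hg⟩]
      exact hkap g
  have hSfin := finite_natCast_mem (K := K₂) hℓ.ne_zero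
  have hS (w : HeightOneSpectrum (𝓞 K₂)) : w ∈ hSfin.toFinset ↔ (ℓ : 𝓞 K₂) ∈ w.asIdeal := by
    rw [Set.Finite.mem_toFinset, Set.mem_ofPred_eq]
  -- the ray property
  obtain ⟨n, hn⟩ := Recip.exists_isRay_norm (ℓ := ℓ) (K := K₂)
    (MulEquiv.multiplicativeAdditive (ZMod ℓ)ˣ).symm.toMonoidHom hSfin.toFinset
    (fun w => (hS w).mpr) (fun w => Additive.ofMul (Recip.nres ℓ w)) (by
      intro w hw u hu
      have h1 : Recip.nres ℓ w = u := by
        apply Units.ext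
        rw [hu, Recip.nres_coe fun h => hw ((hS w).mpr h)]
      rw [h1]
      rfl)
  let inc : Additive C' →+ Additive (ZMod ℓ)ˣ := MonoidHom.toAdditive C'.subtype
  have hinc : Function.Injective inc := fun a b h => Subtype.ext h
  have hn2 : IsRay hSfin.toFinset n
      (fun w => (Additive.ofMul (⟨Recip.nres ℓ w, hres w⟩ : C') : Additive C')) :=
    Split.isRay_of_comp hinc hn
  let lamA : Additive C' →+ Additive U := MonoidHom.toAdditive lam
  have hn3 : IsRay hSfin.toFinset n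
      (fun w => Additive.ofMul (lam ⟨Recip.nres ℓ w, hres w⟩)) := hn2.comp lamA
  refine ⟨K₂, inferInstance, inferInstance, inferInstance, hG₂, hTC, i₂, κ,
    fun w => Additive.ofMul (lam ⟨Recip.nres ℓ w, hres w⟩), hSfin.toFinset, n, hi₂, ?_, hS, hn3,
    fun g => ?_, ?_, ?_, ?_, ?_⟩
  · obtain ⟨L, hL, h⟩ := KW.Kap.lev_kap ℓ
    refine ⟨L, hL, fun g hg => ?_⟩
    rw [hκ]
    have h1 : (⟨KW.Kap.kap ℓ g.1, hkap g⟩ : C') = 1 := Subtype.ext (h g.1 hg)
    rw [h1, map_one]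
  · rw [hκ]
    exact hlamp _
  · intro w hw g hg
    rw [hκ, toMul_ofMul]
    congr 1
    exact Subtype.ext (kap_frobAt (fun h => hw ((hS w).mpr h)) hg)
  · intro w hw
    obtain ⟨q, A, hq, hA, hO⟩ := exists_over i₂ w
    have hO' : Over i A v₀ := by
      have h1 := hO.under (F := K)
      rwa [hi₂, hw] at h1
    obtain ⟨g, hg⟩ := Split.exists_frob hO' hq hA
    have hk : KW.Kap.kap ℓ g.1 = u₀ := kap_frobAt hv₀ ⟨A, hO', hg⟩
    have hg₂ : g.1 ∈ GK i₂ := (hmem g.1 g.2).mpr (by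
      rw [hk]
      exact Subgroup.mem_zpowers u₀)
    have hN2 : 2 ≤ Ideal.absNorm v₀.asIdeal := by
      have h1 : Ideal.absNorm v₀.asIdeal ≠ 1 := by
        rw [Ne, Ideal.absNorm_eq_one_iff]
        exact v₀.isPrime.ne_top
      have h2 : Ideal.absNorm v₀.asIdeal ≠ 0 := by
        rw [Ne, Ideal.absNorm_eq_zero_iff]
        exact v₀.ne_bot
      omega
    have hle' := Split.absNorm_le (K := K) hO hN2 hg hg₂
    have hpow := absNorm_eq_pow_fdeg (K := K) w
    rw [hw] at hpow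
    have hw1 : Ideal.absNorm w.asIdeal ≠ 1 := by
      rw [Ne, Ideal.absNorm_eq_one_iff]
      exact w.isPrime.ne_top
    have hf : fdeg K w = 1 := by
      rcases Nat.lt_trichotomy (fdeg K w) 1 with h | h | h
      · exfalso
        apply hw1
        rw [hpow, Nat.lt_one_iff.mp h, pow_zero]
      · exact h
      · exfalso
        have h1 : Ideal.absNorm v₀.asIdeal ^ 1 < Ideal.absNorm v₀.asIdeal ^ fdeg K w :=
          Nat.pow_lt_pow_right (by omega) h
        rw [pow_one, ← hpow] at h1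
        omega
    refine ⟨?_, hf⟩
    rw [hf, pow_one] at hpow
    have hw' : (ℓ : 𝓞 K₂) ∉ w.asIdeal := by
      intro h
      apply hv₀
      rw [← hw]
      change algebraMap (𝓞 K) (𝓞 K₂) (ℓ : 𝓞 K) ∈ w.asIdeal
      rwa [map_natCast]
    have hnr : Recip.nres ℓ w = u₀ := by
      apply Units.ext
      rw [Recip.nres_coe hw', hpow, hu₀, Recip.nres_coe hv₀]
    intro h
    apply hlam₀ (Subgroup.mem_zpowers u₀)
    have h1 : (⟨Recip.nres ℓ w, hres w⟩ : C') = ⟨u₀, Subgroup.mem_zpowers u₀⟩ := Subtype.ext hnr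
    rw [← h1]
    exact h
  · intro g hg
    rw [hmem g.1 g.2, hg]
    exact C'.one_mem
  · intro g hg
    have hg₂ : g.1 ∈ GK i₂ := (hmem g.1 g.2).mpr (by
      rw [hg]
      exact Subgroup.mem_zpowers u₀)
    refine ⟨hg₂, ?_⟩
    rw [hκ]
    have h1 : (⟨KW.Kap.kap ℓ g.1, hkap ⟨g.1, hg₂⟩⟩ : C') = ⟨u₀, Subgroup.mem_zpowers u₀⟩ :=
      Subtype.ext hg
    intro h
    apply hlam₀ (Subgroup.mem_zpowers u₀)
    rw [← h1]
    exact h

end Fermat.Agent.Cor.HCF
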