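import Fermat.Agent.Corollaries.HCF.Exact
import Fermat.Agent.Corollaries.HCF.Ext
import Fermat.Agent.Corollaries.HCF.Base
import Fermat.Agent.Corollaries.HCF.AuxFresh
import Fermat.Agent.Corollaries.HCF.Prime
import Fermat.Agent.Corollaries.HCF.Split

set_option autoImplicit false

/-!
# The existence theorem of class field theory for characters of finite order

`K` any totally complex number field.

* `ex`: every ray class character `η` of `K` of order `p ^ k` (values in `U = ℚ̄ˣ`) with modulus on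
  `S` is given by a continuous character `ψ : G_K → U` with `ψ (Frob_v) = η v` for ALL `v ∉ S` and
  all Frobenius elements;
* `artin_existence_all`: the same for every finite order.
-/

namespace Fermat.Agent.Cor.HCF

open IsDedekindDomain NumberField
open Fermat.Agent.LT Fermat.Agent.LT.Tower.Fr
open Fermat.Agent.Cor.Diff (GK FrobAt)
open Fermat.Agent.Cor.CFTP (C Lev)

/-- **The existence theorem for order `p ^ k`.** -/
theorem ex (p k : ℕ) [Fact p.Prime] : Ex p k :=
  ex_of extStmt torStmt auxStmt splitStmt primeStmt k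

/-- **The existence theorem of class field theory** for all ray class characters of finite order of
a totally complex number field: `η` with modulus on `S`, `m • η v = 0` for `v ∉ S`, some `m ≠ 0`;
there is a continuous `ψ : G_K → ℚ̄ˣ`, trivial on all inertia groups at all `v ∉ S`, with
`ψ (Frob_v) = η v` for ALL `v ∉ S` and all Frobenius elements. -/
theorem artin_existence_all {K : Type} [Field K] [NumberField K] [IsTotallyComplex K]
    (i : K →+* AlgebraicClosure ℚ) {S : Finset (HeightOneSpectrum (𝓞 K))} {n : ℕ}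
    {η : HeightOneSpectrum (𝓞 K) → Additive U} (hη : IsRay S n η) {m : ℕ} (hm : m ≠ 0)
    (hmη : ∀ v, v ∉ S → m • η v = 0) :
    ∃ ψ : GK i →* U, Lev ψ ∧
      (∀ v, v ∉ S → ∀ A : ValuationSubring (AlgebraicClosure ℚ), Over i A v → ∀ g : GK i,
        g.1 ∈ A.inertiaSubgroupIn ℚ → ψ g = 1) ∧
      ∀ v, v ∉ S → ∀ g : GK i, FrobAt g v → ψ g = (η v).toMul := by
  suffices h : ∀ m : ℕ, m ≠ 0 → ∀ η : HeightOneSpectrum (𝓞 K) → Additive U, IsRay S n η →
      (∀ v, v ∉ S → m • η v = 0) → ∃ ψ : GK i →* U, Art i S η ψ by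
    obtain ⟨ψ, hψ⟩ := h m hm η hη hmη
    exact ⟨ψ, hψ.1, fun v hv A hA g hg => hψ.unr hv hA hg, hψ.2⟩
  intro m
  induction m using Nat.recOnPosPrimePosCoprime with
  | zero => exact fun h => absurd rfl h
  | one =>
    intro _ η hη h1
    refine ⟨1, ⟨⊥, inferInstance, fun _ _ => rfl⟩, fun v hv g _ => ?_⟩
    have h2 := h1 v hv
    rw [one_smul] at h2
    rw [h2]
    rfl
  | prime_pow p k hp hk =>
    intro _ η hη h1
    have : Fact p.Prime := ⟨hp⟩
    exact ex p k K i S n η hη h1
  | coprime a b ha hb hab iha ihb =>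
    intro _ η hη h1
    -- `η = u a η + v b η` with `u a + v b = 1`
    obtain ⟨x, y, hxy⟩ := Nat.isCoprime_iff_coprime.mpr hab
    let f : ℤ → (Additive U →+ Additive U) := fun z =>
      { toFun := fun t => z • t
        map_zero' := zsmul_zero z
        map_add' := fun s t => zsmul_add s t z }
    have hf : ∀ z t, f z t = z • t := fun _ _ => rfl
    have hr : ∀ z, IsRay S n (fun v => f z (η v)) := fun z => hη.comp (f z)
    obtain ⟨ψ₁, hψ₁⟩ := ihb (by omega) (fun v => f (x * a) (η v)) (hr _) (fun v hv => by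
      rw [hf, ← natCast_zsmul, ← mul_zsmul, show ((b : ℕ) : ℤ) * (x * a) = x * ((a * b : ℕ) : ℤ) by
        push_cast; ring, mul_zsmul, natCast_zsmul, h1 v hv, zsmul_zero])
    obtain ⟨ψ₂, hψ₂⟩ := iha (by omega) (fun v => f (y * b) (η v)) (hr _) (fun v hv => by
      rw [hf, ← natCast_zsmul, ← mul_zsmul, show ((a : ℕ) : ℤ) * (y * b) = y * ((a * b : ℕ) : ℤ) by
        push_cast; ring, mul_zsmul, natCast_zsmul, h1 v hv, zsmul_zero])
    refine ⟨ψ₁ * ψ₂, hψ₁.1.mul hψ₂.1, fun v hv g hg => ?_⟩
    rw [MonoidHom.mul_apply, hψ₁.2 v hv g hg, hψ₂.2 v hv g hg]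
    change ((x * (a : ℤ)) • η v).toMul * ((y * (b : ℤ)) • η v).toMul = (η v).toMul
    rw [← toMul_add, ← add_zsmul, hxy, one_zsmul]

end Fermat.Agent.Cor.HCF
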