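import Fermat.Agent.Corollaries.HCF.Defs2
import Fermat.Agent.Corollaries.CFTP.HilbertAll

set_option autoImplicit false

/-!
# (M) Descent of a ray character from `K(ζ_p)` to `K`
-/

namespace Fermat.Agent.Cor.HCF

open IsDedekindDomain NumberField
open Fermat.Agent.Frob Fermat.Agent.FrobDensity Fermat.Agent.Minkowski
open Fermat.Agent.LT Fermat.Agent.LT.Tower.Fr
open Fermat.Agent.Cor.Diff (GK FrobAt)
open Fermat.Agent.Cor.CFTP
open Fermat.Agent.CFT.Global (above mem_above)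
open Fermat.Agent.LT.NV (fdeg edeg edeg_fdeg_eq)
open Fermat.Agent.LT.Psi (finite_under resF)
open scoped Pointwise

/-- An inverse of `m` modulo `N`. -/
theorem exists_nsmul_inv {m N : ℕ} (hcop : m.Coprime N) (A : Type*) [AddCommGroup A] :
    ∃ m' : ℕ, ∀ x : A, N • x = 0 → m' • m • x = x := by
  rcases Nat.eq_zero_or_pos N with hN0 | hN0
  · rw [hN0, Nat.coprime_zero_right] at hcop
    exact ⟨1, fun x _ => by rw [hcop, one_smul, one_smul]⟩
  · obtain ⟨m', -, hm'⟩ := Nat.exists_mul_mod_eq_of_coprime 1 hcop hN0.ne'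
    refine ⟨m', fun x hx => ?_⟩
    have h1 : addOrderOf x ∣ N := addOrderOf_dvd_of_nsmul_eq_zero hx
    rw [← mul_smul, mul_comm]
    have h2 : m * m' ≡ 1 [MOD N] := by
      rw [Nat.ModEq]
      exact hm'
    have h3 : (m * m') • x = 1 • x := by
      rw [nsmul_eq_nsmul_iff_modEq]
      exact h2.of_dvd h1
    rw [h3, one_smul]

set_option maxHeartbeats 1000000 in
/-- **Descent**: the values of `ψ` at the Frobenius elements of `K'` determine those of `K`; `N` is
an exponent of the values of `ψ`, prime to `[K' : K]`. -/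
theorem descend {K K' : Type} [Field K] [NumberField K] [Field K'] [NumberField K'] [Algebra K K']
    [IsGalois K K'] {i' : K' →+* AlgebraicClosure ℚ} {N : ℕ}
    (hcop : (Nat.card (K' ≃ₐ[K] K')).Coprime N)
    {ψ : GK (i'.comp (algebraMap K K')) →* U} (lψ : Lev ψ) (hN : ∀ g, ψ g ^ N = 1)
    {S : Finset (HeightOneSpectrum (𝓞 K))}
    (hu : ∀ v, v ∉ S → ∀ A : ValuationSubring (AlgebraicClosure ℚ),
      Over (i'.comp (algebraMap K K')) A v → ∀ g : GK (i'.comp (algebraMap K K')),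
        g.1 ∈ A.inertiaSubgroupIn ℚ → ψ g = 1) {n : ℕ}
    {η' : HeightOneSpectrum (𝓞 K') → Additive U} (hη' : IsRay (above K' S) n η')
    (hex : ∀ w, w ∉ above K' S → ∀ g : GK i', FrobAt g w → ψ (res K i' g) = (η' w).toMul) :
    ∃ η : HeightOneSpectrum (𝓞 K) → Additive U, IsRay S n η ∧
      Art (i'.comp (algebraMap K K')) S η ψ := by
  classical
  set m := Nat.card (K' ≃ₐ[K] K') with hm
  obtain ⟨m', hm'⟩ := exists_nsmul_inv hcop (Additive U)
  obtain ⟨f, hf⟩ : ∃ f : Additive U →+ Additive U, ∀ x, f x = m' • x :=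
    ⟨nsmulAddMonoidHom m', fun x => rfl⟩
  have hray := Fermat.Agent.LT.Psi.IsRay.res (K := K) hη'
  refine ⟨fun v => f (resF (K := K) η' v), hray.comp f, lψ, fun v hv g hg => ?_⟩
  obtain ⟨A, hA, hF⟩ := hg
  obtain ⟨q, hq, hqv⟩ := exists_prime_mem v
  have hAq : A.LiesOverPrime q := hA.natCast_mem_iff.mp hqv
  obtain ⟨w₁, hw₁⟩ := exists_over_of_liesOver i' hq hAq
  have hwv : w₁.under (𝓞 K) = v := hw₁.under.unique hA
  subst hwv
  obtain ⟨φ, hφ⟩ := exists_frobAt_over hw₁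
  have h0 : A.IsFrobeniusAt (g ^ fdeg K w₁).1 (Ideal.absNorm w₁.asIdeal) := by
    rw [absNorm_eq_pow_fdeg (K := K) w₁]
    exact isFrobeniusAt_pow hF _
  have hφψ : ψ (res K i' φ) = ψ g ^ fdeg K w₁ := by
    rw [← map_pow]
    exact frob_unique_of_unr ψ (hu _ hv A hA) (g := res K i' φ) hφ h0
  -- the value of `η'` at all `w ∣ v`
  have key : ∀ w : HeightOneSpectrum (𝓞 K'), w.under (𝓞 K) = w₁.under (𝓞 K) →
      η' w = fdeg K w • Additive.ofMul (ψ g) := by
    intro w hw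
    obtain ⟨τ, hτ⟩ := Fermat.Agent.LT.Psi.exists_conj_eq hw.symm
    obtain ⟨σ, hσ⟩ := Fermat.Agent.LT.Tower.Fr.exists_extend i' (i'.comp (τ : K' →+* K'))
    have hσ' : ∀ x, σ (i' x) = i' (τ x) := fun x => RingHom.congr_fun hσ x
    have hσK : σ ∈ GK (i'.comp (algebraMap K K')) := by
      intro x
      change σ (i' (algebraMap K K' x)) = _
      rw [hσ', τ.commutes]
      rfl
    have h1 : FrobAt (conjHom i' hσK φ) w := by
      refine ⟨σ • A, ?_, ?_⟩
      · rw [← hτ]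
        exact Fermat.Agent.LT.Tower.Fr.Over.conj hw₁ τ hσ'
      · rw [absNorm_eq_of_under_eq hw]
        exact isFrobeniusAt_conj hφ
    have h2 := hex w (by rwa [mem_above, hw]) _ h1
    have h3 : ψ (res K i' (conjHom i' hσK φ)) = ψ g ^ fdeg K w₁ := by
      have h4 : res K i' (conjHom i' hσK φ) = ⟨σ, hσK⟩ * res K i' φ * ⟨σ, hσK⟩⁻¹ := rfl
      rw [h4, map_mul, map_mul, map_inv, mul_comm (ψ ⟨σ, hσK⟩), mul_inv_cancel_right, hφψ]
    rw [h3] at h2
    have h5 := congrArg Additive.ofMul h2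
    rw [ofMul_pow, ofMul_toMul] at h5
    rw [← h5, (edeg_fdeg_eq hw).2]
  have hsum : resF (K := K) η' (w₁.under (𝓞 K)) = m • Additive.ofMul (ψ g) := by
    rw [hm, ← sum_edeg_mul_fdeg w₁, Finset.sum_smul, resF]
    refine Finset.sum_congr rfl fun w hw => ?_
    rw [Set.Finite.mem_toFinset, Set.mem_ofPred_eq] at hw
    rw [key w hw, mul_smul, edeg, hw]
  have hx : N • Additive.ofMul (ψ g) = 0 := by
    rw [← ofMul_pow, hN g, ofMul_one]
  apply Additive.ofMul.injective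
  rw [ofMul_toMul]
  change Additive.ofMul (ψ g) = f (resF (K := K) η' (w₁.under (𝓞 K)))
  rw [hsum, hf, hm' _ hx]

/-- (M) -/
theorem descentStmt : DescentStmt := by
  intro p k hp hRe K _ _ hK i S ψ lψ hψ hu
  obtain ⟨K', _, _, _, _, _, ζ, i', hζ, hi, -, hcard⟩ := exists_tower (p := p) (Or.inr hK) i
  subst hi
  obtain ⟨n, η', hη', hArt⟩ := hRe K' ζ hζ i' (above K' S) (ψ.comp (res K i')) lψ.res
    (fun g => hψ _) (fun w hw A hA g hg => hu _ (fun h => hw ((mem_above K').2 h)) A hA.under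
      (res K i' g) hg)
  have hcop : (Nat.card (K' ≃ₐ[K] K')).Coprime (p ^ k) := by
    refine Nat.Coprime.pow_right k (Nat.Coprime.symm ?_)
    rw [hp.out.coprime_iff_not_dvd]
    intro h
    have h1 := Nat.le_of_dvd Nat.card_pos h
    omega
  obtain ⟨η, hη, h⟩ := descend hcop lψ hψ hu hη' hArt.2
  exact ⟨n, η, hη, h⟩

end Fermat.Agent.Cor.HCF
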