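import Fermat.Agent.Corollaries.HCF.Defs2
import Fermat.Agent.CFT.Global2.Unramified

/-!
# Approximate Hilbert 90
-/

set_option autoImplicit false
set_option linter.unusedSectionVars false

namespace Fermat.Agent.Cor.HCF

open IsDedekindDomain NumberField WithZero
open Fermat.Agent.CFT.Places (conj valuation_conj below_conj exists_below_eq)
open Fermat.Agent.CFT.Global (cong above mem_cong mem_above)

open scoped Classical

section Delta

variable (K L : Type*) [Field K] [Field L] [Algebra K L] [FiniteDimensional K L]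

/-- elements with `∑ c_x τ(x) = δ_{τ, 1}` (independence of characters) -/
theorem exists_delta : ∃ (s : Finset L) (c : L → L),
    ∀ τ : L ≃ₐ[K] L, ∑ x ∈ s, c x * τ x = if τ = 1 then 1 else 0 := by
  let e : L → ((L ≃ₐ[K] L) → L) := fun x τ => τ x
  have htop : Submodule.span L (Set.range e) = ⊤ := by
    by_contra hne
    obtain ⟨f, hf0, hf⟩ := Submodule.exists_le_ker_of_lt_top _ (lt_top_iff_ne_top.mpr hne)
    apply hf0
    have h1 : ∀ x : L, ∑ τ : L ≃ₐ[K] L, τ x * f (fun j => if τ = j then 1 else 0) = 0 := by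
      intro x
      have h2 : f (e x) = 0 := hf (Submodule.subset_span ⟨x, rfl⟩)
      rw [LinearMap.pi_apply_eq_sum_univ] at h2
      exact h2
    have hinj : Function.Injective fun τ : L ≃ₐ[K] L => (τ : L →* L) := by
      intro τ τ' h
      ext x
      exact DFunLike.congr_fun h x
    have hli := (linearIndependent_monoidHom L L).comp _ hinj
    have h3 := Fintype.linearIndependent_iff.mp hli
      (fun τ => f (fun j => if τ = j then 1 else 0)) (by
        funext x
        rw [Finset.sum_apply]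
        refine Eq.trans (Finset.sum_congr rfl fun τ _ => ?_) (h1 x)
        change f (fun j => if τ = j then 1 else 0) * τ x = _
        rw [mul_comm])
    refine LinearMap.ext fun v => ?_
    rw [LinearMap.pi_apply_eq_sum_univ]
    refine (Finset.sum_eq_zero fun τ _ => ?_).trans (LinearMap.zero_apply v).symm
    rw [h3 τ, smul_zero]
  have hmem : (fun τ : L ≃ₐ[K] L => if τ = 1 then (1 : L) else 0) ∈
      Submodule.span L (Set.range e) := by
    rw [htop]
    trivial
  obtain ⟨c, hc⟩ := Finsupp.mem_span_range_iff_exists_finsupp.mp hmem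
  refine ⟨c.support, c, fun τ => ?_⟩
  have h1 := congrFun hc τ
  rw [Finsupp.sum, Finset.sum_apply] at h1
  exact h1

end Delta

section Cyc

variable {K L : Type*} [Field K] [Field L] [Algebra K L] (σ : L ≃ₐ[K] L)

/-- `β σ(β) ⋯ σ^(i-1)(β)` -/
def bb (β : L) (i : ℕ) : L := ∏ l ∈ Finset.range i, (σ ^ l) β

theorem bb_zero (β : L) : bb σ β 0 = 1 := by rw [bb, Finset.range_zero, Finset.prod_empty]

theorem bb_succ (β : L) (i : ℕ) : bb σ β (i + 1) = bb σ β i * (σ ^ i) β := by
  rw [bb, Finset.prod_range_succ]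
  rfl

theorem bb_succ' (β : L) (i : ℕ) : bb σ β (i + 1) = β * σ (bb σ β i) := by
  rw [bb, Finset.prod_range_succ', bb, map_prod, mul_comm, pow_zero, AlgEquiv.one_apply]
  congr 1
  refine Finset.prod_congr rfl fun l _ => ?_
  rw [pow_succ', AlgEquiv.mul_apply]

/-- the resolvent -/
def gg (m : ℕ) (β θ : L) : L := ∑ i ∈ Finset.range m, bb σ β i * (σ ^ i) θ

theorem gg_add (m : ℕ) (β θ θ' : L) : gg σ m β (θ + θ') = gg σ m β θ + gg σ m β θ' := by
  unfold gg
  rw [← Finset.sum_add_distrib]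
  exact Finset.sum_congr rfl fun i _ => by rw [map_add, mul_add]

theorem gg_smul (m : ℕ) (β θ : L) (k : K) :
    gg σ m β (algebraMap K L k * θ) = algebraMap K L k * gg σ m β θ := by
  unfold gg
  rw [Finset.mul_sum]
  refine Finset.sum_congr rfl fun i _ => ?_
  rw [map_mul, AlgEquiv.commutes]
  ring

theorem gg_sum (m : ℕ) (β : L) {ι : Type*} (s : Finset ι) (k : ι → K) (x : ι → L) :
    gg σ m β (∑ j ∈ s, algebraMap K L (k j) * x j) =
      ∑ j ∈ s, algebraMap K L (k j) * gg σ m β (x j) := by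
  induction s using Finset.induction_on with
  | empty =>
    rw [Finset.sum_empty, Finset.sum_empty, gg]
    exact Finset.sum_eq_zero fun i _ => by rw [map_zero, mul_zero]
  | insert j s hj ih => rw [Finset.sum_insert hj, Finset.sum_insert hj, gg_add, gg_smul, ih]

/-- `β σ(γ) = γ + (Nβ - 1) θ` -/
theorem mul_map_gg {m : ℕ} (hm : σ ^ m = 1) (β θ : L) :
    β * σ (gg σ m β θ) = gg σ m β θ + (bb σ β m - 1) * θ := by
  have h1 : β * σ (gg σ m β θ) = ∑ i ∈ Finset.range m, bb σ β (i + 1) * (σ ^ (i + 1)) θ := by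
    rw [gg, map_sum, Finset.mul_sum]
    refine Finset.sum_congr rfl fun i _ => ?_
    rw [map_mul, bb_succ', pow_succ', AlgEquiv.mul_apply]
    ring
  have h2 := Finset.sum_range_succ' (fun i => bb σ β i * (σ ^ i) θ) m
  have h3 := Finset.sum_range_succ (fun i => bb σ β i * (σ ^ i) θ) m
  rw [h1]
  rw [h3, hm, pow_zero, AlgEquiv.one_apply, bb_zero] at h2
  rw [gg]
  linear_combination -h2

theorem bb_mul_gg {m : ℕ} (hm : σ ^ m = 1) (β θ : L) {k : K} (hk : bb σ β m = algebraMap K L k)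
    (i : ℕ) : bb σ β i * (σ ^ i) (gg σ m β θ) =
      gg σ m β θ + (bb σ β m - 1) * ∑ l ∈ Finset.range i, bb σ β l * (σ ^ l) θ := by
  induction i with
  | zero =>
    rw [bb_zero, pow_zero, AlgEquiv.one_apply, Finset.range_zero, Finset.sum_empty]
    ring
  | succ i ih =>
    have h1 : bb σ β (i + 1) * (σ ^ (i + 1)) (gg σ m β θ) =
        bb σ β i * (σ ^ i) (β * σ (gg σ m β θ)) := by
      rw [bb_succ, pow_succ, AlgEquiv.mul_apply, map_mul]
      ring
    rw [h1, mul_map_gg σ hm, map_add, map_mul, map_sub, hk, AlgEquiv.commutes, map_one, mul_add,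
      ih, hk, Finset.sum_range_succ]
    ring

end Cyc

section Cyc2

variable {K L : Type*} [Field K] [Field L] [Algebra K L] [FiniteDimensional K L] [IsGalois K L]
  {σ : L ≃ₐ[K] L}

theorem bb_orderOf (hσ : ∀ τ : L ≃ₐ[K] L, τ ∈ Subgroup.zpowers σ) (β : L) :
    bb σ β (orderOf σ) = algebraMap K L (Algebra.norm K β) := by
  have himg : (Finset.range (orderOf σ)).image (fun i => σ ^ i) = Finset.univ := by
    ext τ
    simp only [Finset.mem_univ, iff_true]
    exact mem_zpowers_iff_mem_range_orderOf.mp (hσ τ)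
  rw [Algebra.norm_eq_prod_automorphisms, bb, ← himg, Finset.prod_image]
  intro i hi j hj h
  exact pow_injOn_Iio_orderOf (Finset.mem_coe.mp hi |> Finset.mem_range.mp)
    (Finset.mem_coe.mp hj |> Finset.mem_range.mp) h

theorem sum_gg_mul {s : Finset L} {c : L → L}
    (hδ : ∀ τ : L ≃ₐ[K] L, ∑ x ∈ s, c x * τ x = if τ = 1 then 1 else 0) (β : L) {i : ℕ}
    (hi : i < orderOf σ) :
    ∑ x ∈ s, gg σ (orderOf σ) β x * (σ ^ i) (c x) = bb σ β i := by
  have h1 : ∀ x ∈ s, gg σ (orderOf σ) β x * (σ ^ i) (c x) =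
      ∑ l ∈ Finset.range (orderOf σ), bb σ β l * (σ ^ i) (c x * ((σ ^ i)⁻¹ * σ ^ l) x) := by
    intro x _
    rw [gg, Finset.sum_mul]
    refine Finset.sum_congr rfl fun l _ => ?_
    have h2 : (σ ^ i) (((σ ^ i)⁻¹ * σ ^ l) x) = (σ ^ l) x := by
      rw [← AlgEquiv.mul_apply, mul_inv_cancel_left]
    rw [map_mul, h2]
    ring
  rw [Finset.sum_congr rfl h1, Finset.sum_comm]
  have h2 : ∀ l ∈ Finset.range (orderOf σ),
      ∑ x ∈ s, bb σ β l * (σ ^ i) (c x * ((σ ^ i)⁻¹ * σ ^ l) x) =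
        if l = i then bb σ β l else 0 := by
    intro l hl
    rw [← Finset.mul_sum, ← map_sum, hδ]
    by_cases h : l = i
    · rw [if_pos h, h, inv_mul_cancel, if_pos rfl, map_one, mul_one]
    · have h3 : (σ ^ i)⁻¹ * σ ^ l ≠ 1 := by
        intro h4
        exact h (pow_injOn_Iio_orderOf (Finset.mem_range.mp hl) hi (inv_mul_eq_one.mp h4).symm)
      rw [if_neg h3, map_zero, mul_zero, if_neg h]
  rw [Finset.sum_congr rfl h2, Finset.sum_ite_eq', if_pos (Finset.mem_range.mpr hi)]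

end Cyc2

/-! ### Bounds in `ℤᵐ⁰` -/

theorem exists_exp_ge (a : ℤᵐ⁰) : ∃ k : ℕ, a ≤ exp (k : ℤ) := by
  by_cases ha : a = 0
  · exact ⟨0, by rw [ha]; exact zero_le⟩
  · refine ⟨(log a).toNat, ?_⟩
    conv_lhs => rw [← exp_log ha]
    rw [exp_le_exp]
    exact Int.self_le_toNat _

theorem exists_bound {ι : Type*} [Finite ι] (f : ι → ℤᵐ⁰) : ∃ E : ℕ, ∀ i, f i ≤ exp (E : ℤ) := by
  obtain ⟨M, hM⟩ := (Set.finite_range f).bddAbove
  obtain ⟨E, hE⟩ := exists_exp_ge M
  exact ⟨E, fun i => (hM ⟨i, rfl⟩).trans hE⟩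

section Places

variable {K L : Type*} [Field K] [NumberField K] [Field L] [NumberField L] [Algebra K L]
  [IsGalois K L] {σ : L ≃ₐ[K] L}

theorem exists_pow_conj (hσ : ∀ τ : L ≃ₐ[K] L, τ ∈ Subgroup.zpowers σ)
    {w₀ w : HeightOneSpectrum (𝓞 L)} (h : w.under (𝓞 K) = w₀.under (𝓞 K)) :
    ∃ i < orderOf σ, ∀ x : L, w.valuation L x = w₀.valuation L ((σ ^ i) x) := by
  have h3 : w₀.asIdeal.LiesOver (w.under (𝓞 K)).asIdeal := by
    rw [h]
    infer_instance
  obtain ⟨τ, hτ⟩ := Ideal.exists_smul_eq_of_isGaloisGroup (w.under (𝓞 K)).asIdeal w₀.asIdeal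
    w.asIdeal Gal(L/K)
  have h4 : conj τ w₀ = w := by
    apply HeightOneSpectrum.ext
    rw [← Fermat.Agent.CFT.Global2.Unr.smul_asIdeal, hτ]
  obtain ⟨i, hi, hiτ⟩ := Finset.mem_image.mp (mem_zpowers_iff_mem_range_orderOf.mp (hσ τ⁻¹))
  refine ⟨i, Finset.mem_range.mp hi, fun x => ?_⟩
  have h5 : (σ ^ i) x = τ⁻¹ x := by
    rw [← hiτ]
  rw [h5, ← h4]
  have h6 := valuation_conj τ w₀ (τ⁻¹ x)
  rw [← AlgEquiv.mul_apply, mul_inv_cancel, AlgEquiv.one_apply] at h6
  exact h6

theorem valuation_algebraMap_le {w : HeightOneSpectrum (𝓞 L)} {k : K} {a : ℤᵐ⁰}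
    (h : (w.under (𝓞 K)).valuation K k ≤ a) (ha : a ≤ 1) :
    w.valuation L (algebraMap K L k) ≤ a := by
  rw [Fermat.Agent.CFT.Places.valuation_algebraMap]
  exact (pow_le_of_le_one zero_le (h.trans ha)
    (Fermat.Agent.CFT.Places.ramificationIdx'_ne_zero w)).trans h

theorem exists_crt (S : Finset (HeightOneSpectrum (𝓞 K))) (R : ℕ) (v' : HeightOneSpectrum (𝓞 K)) :
    ∃ k : K, (∀ v : HeightOneSpectrum (𝓞 K), v.valuation K k ≤ 1) ∧
      (∀ v ∈ S, v ≠ v' → v.valuation K k ≤ exp (-(R : ℤ))) ∧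
      (v' ∈ S → v'.valuation K (k - 1) ≤ exp (-(R : ℤ))) := by
  obtain ⟨y, hy⟩ := IsDedekindDomain.exists_forall_sub_mem_ideal (s := S)
    (fun v : HeightOneSpectrum (𝓞 K) => v.asIdeal) (fun _ => R) (fun v _ => v.prime)
    (fun v _ w _ hvw h => hvw (HeightOneSpectrum.ext h))
    (fun v : S => if (v : HeightOneSpectrum (𝓞 K)) = v' then 1 else 0)
  refine ⟨algebraMap (𝓞 K) K y, fun v => v.valuation_le_one y, fun v hv hne => ?_, fun hv => ?_⟩
  · have h1 := hy v hv
    rw [if_neg hne, sub_zero, ← HeightOneSpectrum.intValuation_le_pow_iff_mem,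
      ← HeightOneSpectrum.valuation_of_algebraMap (K := K)] at h1
    exact h1
  · have h1 := hy v' hv
    rw [if_pos rfl, ← HeightOneSpectrum.intValuation_le_pow_iff_mem,
      ← HeightOneSpectrum.valuation_of_algebraMap (K := K)] at h1
    change v'.valuation K (algebraMap (𝓞 K) K (y - 1)) ≤ _ at h1
    rw [map_sub, map_one] at h1
    exact h1

end Places

/-- (J) **Approximate Hilbert 90.** -/
theorem h90Stmt : H90Stmt := by
  intro K L _ _ _ _ _ _ σ hσ S n'
  obtain ⟨s, c, hδ⟩ := exists_delta K L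
  set m := orderOf σ with hmdef
  have hm : σ ^ m = 1 := pow_orderOf_eq_one σ
  have hm0 : 0 < m := orderOf_pos σ
  -- the bound
  obtain ⟨E, hE⟩ := exists_bound (fun q : (above L S) × s × Fin m × Bool =>
    q.1.1.valuation L ((σ ^ (q.2.2.1 : ℕ)) (if q.2.2.2 then (q.2.1 : L) else c q.2.1)))
  have hEx : ∀ w ∈ above L S, ∀ x ∈ s, ∀ i < m, w.valuation L ((σ ^ i) x) ≤ exp (E : ℤ) :=
    fun w hw x hx i hi => hE (⟨w, hw⟩, ⟨x, hx⟩, ⟨i, hi⟩, true)
  have hEc : ∀ w ∈ above L S, ∀ x ∈ s, ∀ i < m, w.valuation L ((σ ^ i) (c x)) ≤ exp (E : ℤ) :=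
    fun w hw x hx i hi => hE (⟨w, hw⟩, ⟨x, hx⟩, ⟨i, hi⟩, false)
  refine ⟨n' + 2 * E + 1, fun β hβ => ?_⟩
  rcases S.eq_empty_or_nonempty with hS | hS
  · refine ⟨1, fun w hw => ?_⟩
    rw [mem_above, hS] at hw
    exact absurd hw (Finset.notMem_empty _)
  choose w0 hw0 using fun v : HeightOneSpectrum (𝓞 K) => exists_below_eq L v
  have hw0S : ∀ v ∈ S, w0 v ∈ above L S := fun v hv => by rwa [mem_above, hw0]
  -- the maximum of the `b_i`
  have hmax : ∀ v : HeightOneSpectrum (𝓞 K), ∃ i₀ < m, ∀ i < m,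
      (w0 v).valuation L (bb σ (β : L) i) ≤ (w0 v).valuation L (bb σ (β : L) i₀) := by
    intro v
    obtain ⟨i₀, hi₀, h⟩ := Finset.exists_max_image (Finset.range m)
      (fun i => (w0 v).valuation L (bb σ (β : L) i)) ⟨0, Finset.mem_range.mpr hm0⟩
    exact ⟨i₀, Finset.mem_range.mp hi₀, fun i hi => h i (Finset.mem_range.mpr hi)⟩
  choose j hjm hj using hmax
  set B : HeightOneSpectrum (𝓞 K) → ℤᵐ⁰ := fun v => (w0 v).valuation L (bb σ (β : L) (j v)) with hB
  have hBv : ∀ v, (w0 v).valuation L (bb σ (β : L) (j v)) = B v := fun _ => rfl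
  have hB1 : ∀ v, 1 ≤ B v := fun v => by
    have := hj v 0 hm0
    rwa [bb_zero, map_one] at this
  have hB0 : ∀ v, 0 < B v := fun v => lt_of_lt_of_le zero_lt_one (hB1 v)
  -- the local elements
  have hx : ∀ v ∈ S, ∃ x ∈ s, B v ≤ (w0 v).valuation L (gg σ m (β : L) x) * exp (E : ℤ) := by
    intro v hv
    by_contra hcon
    push Not at hcon
    have h1 := sum_gg_mul hδ (β : L) (hjm v)
    have h2 : (w0 v).valuation L (∑ x ∈ s, gg σ m (β : L) x * (σ ^ (j v)) (c x)) < B v := by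
      refine Valuation.map_sum_lt _ (hB0 v).ne' fun x hx => ?_
      rw [map_mul]
      exact lt_of_le_of_lt (mul_le_mul' le_rfl (hEc _ (hw0S v hv) x hx _ (hjm v))) (hcon x hx)
    rw [h1] at h2
    exact lt_irrefl _ h2
  choose! x hxs hxB using hx
  choose κ hκ1 hκ2 hκ3 using fun v' : HeightOneSpectrum (𝓞 K) => exists_crt S (2 * E + 1) v'
  set θ : L := ∑ v' ∈ S, algebraMap K L (κ v') * x v' with hθdef
  set γ : L := gg σ m (β : L) θ with hγdef
  have hγsum : γ = ∑ v' ∈ S, algebraMap K L (κ v') * gg σ m (β : L) (x v') :=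
    gg_sum σ m (β : L) S κ x
  have hgg : ∀ v ∈ S, ∀ y ∈ s, (w0 v).valuation L (gg σ m (β : L) y) ≤ B v * exp (E : ℤ) := by
    intro v hv y hy
    refine Valuation.map_sum_le _ fun i hi => ?_
    rw [map_mul]
    exact mul_le_mul' (hj v i (Finset.mem_range.mp hi))
      (hEx _ (hw0S v hv) y hy i (Finset.mem_range.mp hi))
  have hθ : ∀ w ∈ above L S, ∀ i < m, w.valuation L ((σ ^ i) θ) ≤ exp (E : ℤ) := by
    intro w hw i hi
    rw [hθdef, map_sum]
    refine Valuation.map_sum_le _ fun v' hv' => ?_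
    rw [map_mul, AlgEquiv.commutes, map_mul]
    calc _ ≤ 1 * exp (E : ℤ) := mul_le_mul' (valuation_algebraMap_le (hκ1 v' _) le_rfl)
          (hEx w hw _ (hxs v' hv') i hi)
      _ = _ := one_mul _
  have hneg : ∀ k : ℕ, exp (-(k : ℤ)) ≤ (1 : ℤᵐ⁰) := fun k => by
    rw [← exp_zero, exp_le_exp]
    omega
  -- the valuation of `γ` at `w0 v`
  have hγ : ∀ v ∈ S, B v * exp (-(E : ℤ)) ≤ (w0 v).valuation L γ := by
    intro v hv
    have h1 : (w0 v).valuation L (algebraMap K L (κ v)) = 1 := by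
      rw [Fermat.Agent.CFT.Places.valuation_algebraMap_eq_one_iff, hw0 v]
      have h0 : v.valuation K (κ v - 1) < 1 := by
        refine lt_of_le_of_lt (hκ3 v hv) ?_
        rw [← exp_zero, exp_lt_exp]
        push_cast
        omega
      have h2 : κ v = (κ v - 1) + 1 := by ring
      rw [h2, Valuation.map_add_eq_of_lt_right _ (by rwa [map_one]), map_one]
    have h2 : B v * exp (-(E : ℤ)) ≤
        (w0 v).valuation L (algebraMap K L (κ v) * gg σ m (β : L) (x v)) := by
      rw [map_mul, h1, one_mul]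
      calc B v * exp (-(E : ℤ)) ≤ ((w0 v).valuation L (gg σ m (β : L) (x v)) * exp (E : ℤ)) *
            exp (-(E : ℤ)) := mul_le_mul' (hxB v hv) le_rfl
        _ = (w0 v).valuation L (gg σ m (β : L) (x v)) := by
          rw [mul_assoc, ← exp_add, add_neg_cancel, exp_zero, mul_one]
    have h3 : (w0 v).valuation L
        (∑ v' ∈ S.erase v, algebraMap K L (κ v') * gg σ m (β : L) (x v')) <
        B v * exp (-(E : ℤ)) := by
      refine Valuation.map_sum_lt _ (mul_ne_zero (hB0 v).ne' exp_ne_zero) fun v' hv' => ?_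
      rw [map_mul]
      calc _ ≤ exp (-((2 * E + 1 : ℕ) : ℤ)) * (B v * exp (E : ℤ)) := by
            refine mul_le_mul' (valuation_algebraMap_le ?_ (hneg _))
              (hgg v hv _ (hxs v' (Finset.mem_of_mem_erase hv')))
            rw [hw0]
            exact hκ2 v' v hv (Finset.ne_of_mem_erase hv').symm
        _ = B v * exp (-(E : ℤ) - 1) := by
            rw [mul_left_comm, ← exp_add]
            congr 2
            push_cast
            ring
        _ < B v * exp (-(E : ℤ)) :=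
            mul_lt_mul_of_pos_left (exp_lt_exp.mpr (by omega)) (hB0 v)
    rw [hγsum, ← Finset.add_sum_erase _ _ hv,
      Valuation.map_add_eq_of_lt_left _ (lt_of_lt_of_le h3 h2)]
    exact h2
  have hγ0 : γ ≠ 0 := by
    obtain ⟨v, hv⟩ := hS
    intro h0
    have h1 := hγ v hv
    rw [h0, map_zero] at h1
    exact absurd (lt_of_lt_of_le (mul_pos (hB0 v) exp_pos) h1) (lt_irrefl _)
  refine ⟨Units.mk0 γ hγ0, fun w hw => ?_⟩
  set v := w.under (𝓞 K) with hv
  have hvS : v ∈ S := (mem_above L).mp hw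
  have hN : ∀ w' : HeightOneSpectrum (𝓞 L), w'.under (𝓞 K) = v →
      w'.valuation L (bb σ (β : L) m - 1) ≤ exp (-((n' + 2 * E + 1 + 1 : ℕ) : ℤ)) := by
    intro w' hw'
    rw [bb_orderOf hσ, ← map_one (algebraMap K L), ← map_sub]
    refine valuation_algebraMap_le ?_ (hneg _)
    rw [hw']
    have h1 := mem_cong.mp (hβ v hvS)
    rw [Units.coe_map] at h1
    refine h1.trans (le_of_eq ?_)
    congr 1
  obtain ⟨i, hi, hwi⟩ := exists_pow_conj hσ (w₀ := w0 v) (w := w) (by rw [hw0])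
  have hbi : 0 < (w0 v).valuation L (bb σ (β : L) i) := by
    rw [zero_lt_iff, Valuation.ne_zero_iff]
    exact Finset.prod_ne_zero_iff.mpr fun l _ => (map_ne_zero _).mpr β.ne_zero
  -- the valuation of `γ` at `w`
  have h1 : exp (-(E : ℤ)) ≤ w.valuation L γ := by
    have h2 : (w0 v).valuation L (bb σ (β : L) i) * (w0 v).valuation L ((σ ^ i) γ) =
        (w0 v).valuation L γ := by
      rw [← map_mul, hγdef, bb_mul_gg σ hm (β : L) θ (bb_orderOf hσ (β : L)) i, ← hγdef]
      refine Valuation.map_add_eq_of_lt_left _ (lt_of_lt_of_le ?_ (hγ v hvS))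
      rw [map_mul]
      have h3 : (w0 v).valuation L (∑ l ∈ Finset.range i, bb σ (β : L) l * (σ ^ l) θ) ≤
          B v * exp (E : ℤ) := by
        refine Valuation.map_sum_le _ fun l hl => ?_
        have hlm : l < m := (Finset.mem_range.mp hl).trans hi
        rw [map_mul]
        exact mul_le_mul' (hj v l hlm) (hθ _ (hw0S v hvS) l hlm)
      calc _ ≤ exp (-((n' + 2 * E + 1 + 1 : ℕ) : ℤ)) * (B v * exp (E : ℤ)) :=
            mul_le_mul' (hN _ (hw0 v)) h3
        _ = B v * exp (-(E : ℤ) - (n' + 2)) := by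
            rw [mul_left_comm, ← exp_add]
            congr 2
            push_cast
            ring
        _ < B v * exp (-(E : ℤ)) :=
            mul_lt_mul_of_pos_left (exp_lt_exp.mpr (by omega)) (hB0 v)
    have h4 : (w0 v).valuation L (bb σ (β : L) i) * exp (-(E : ℤ)) ≤
        (w0 v).valuation L (bb σ (β : L) i) * (w0 v).valuation L ((σ ^ i) γ) := by
      rw [h2]
      exact (mul_le_mul' (hj v i hi) le_rfl).trans (hγ v hvS)
    rw [hwi]
    exact le_of_mul_le_mul_left h4 hbi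
  rw [mem_cong]
  have h2 : ((β * Units.map (σ : L →* L) (Units.mk0 γ hγ0) / Units.mk0 γ hγ0 : Lˣ) : L) - 1 =
      (bb σ (β : L) m - 1) * θ * γ⁻¹ := by
    have h3 := mul_map_gg σ hm (β : L) θ
    rw [← hγdef] at h3
    have h4 : ((β * Units.map (σ : L →* L) (Units.mk0 γ hγ0) / Units.mk0 γ hγ0 : Lˣ) : L) =
        (β : L) * σ γ / γ := by
      rw [Units.val_div_eq_div_val, Units.val_mul]
      rfl
    rw [h4, h3]
    field_simp
    ring
  rw [h2, map_mul, map_mul, map_inv₀]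
  have h5 := hθ w hw 0 hm0
  rw [pow_zero, AlgEquiv.one_apply] at h5
  have h6 : (w.valuation L γ)⁻¹ ≤ exp (E : ℤ) := by
    have h7 := inv_anti₀ exp_pos h1
    rwa [exp_neg, inv_inv] at h7
  calc _ ≤ exp (-((n' + 2 * E + 1 + 1 : ℕ) : ℤ)) * exp (E : ℤ) * exp (E : ℤ) :=
        mul_le_mul' (mul_le_mul' (hN w rfl) h5) h6
    _ = exp (-((n' : ℤ) + 2)) := by
        rw [← exp_add, ← exp_add]
        congr 1
        push_cast
        ring
    _ ≤ exp (-((n' : ℤ) + 1)) := exp_le_exp.mpr (by omega)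

end Fermat.Agent.Cor.HCF
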