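import Fermat.Agent.Corollaries.HCF.Recip
import Fermat.Agent.Corollaries.HCF.H90
import Fermat.Agent.Corollaries.HCF.Descent

set_option autoImplicit false

/-!
# Class field theory of a totally complex number field, characters of finite order

`K` any totally complex number field, `G_K` the absolute Galois group, `U = ℚ̄ˣ`.

* `artin_reciprocity_all`: every continuous character `ψ : G_K → U` (of finite order) which is
  unramified outside `S` is given by a ray class character `η` with modulus on `S`: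
  `ψ (Frob_v) = η v` for ALL `v ∉ S` and all Frobenius elements;
* `artin_iff`: a function `η` on the places outside `S` is a ray class character of finite order if
  and only if it is given by such a `ψ`;
* `artin_unique`: `ψ` is unique.
-/

namespace Fermat.Agent.Cor.HCF

open IsDedekindDomain NumberField
open Fermat.Agent.LT Fermat.Agent.LT.Tower.Fr
open Fermat.Agent.Cor.Diff (GK FrobAt)
open Fermat.Agent.Cor.CFTP (C Lev)

/-- Reciprocity for order `p ^ k` over the totally complex fields containing `ζ_p`. -/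
theorem re (p k : ℕ) [Fact p.Prime] : Re p k := by
  induction k with
  | zero =>
    intro K _ _ _ ζ _ i S ψ lψ hψ _
    have h1 : ∀ g, ψ g = 1 := fun g => by
      have h2 := hψ g
      rwa [pow_zero, pow_one] at h2
    refine ⟨0, fun _ => 0, fun x _ => ?_, lψ, fun v _ g _ => by rw [h1 g, toMul_zero]⟩
    apply toAdd_eq_zero.mp
    exact toAdd_rayVal_of_ord_eq_zero S _ x fun v _ => smul_zero _
  | succ k ih => exact re_succ h90Stmt ih

/-- A continuous character has finite order. -/
theorem exists_pow_eq_one {K : Type} [Field K] [NumberField K] {i : K →+* AlgebraicClosure ℚ}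
    {M : Type} [Group M] {ψ : GK i →* M} (lψ : Lev ψ) :
    Finite ψ.range ∧ ∃ m : ℕ, m ≠ 0 ∧ ∀ g, ψ g ^ m = 1 := by
  obtain ⟨L, hL, h⟩ := lψ
  choose s hs using fun x : ψ.range => x.2
  let r : ψ.range → (L →ₐ[ℚ] AlgebraicClosure ℚ) := fun x => (s x).1.toAlgHom.comp L.val
  have hr : Function.Injective r := by
    intro x y hxy
    apply Subtype.ext
    rw [← hs x, ← hs y, ← inv_mul_eq_one, ← map_inv, ← map_mul]
    apply h
    intro t ht
    have h1 : (s x).1 t = (s y).1 t := DFunLike.congr_fun hxy ⟨t, ht⟩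
    change (s x).1⁻¹ ((s y).1 t) = t
    rw [← h1]
    exact (s x).1.symm_apply_apply t
  have hfin : Finite ψ.range := Finite.of_injective r hr
  refine ⟨hfin, Nat.card ψ.range, Nat.card_pos.ne', fun g => ?_⟩
  have h1 : (⟨ψ g, g, rfl⟩ : ψ.range) ^ Nat.card ψ.range = 1 := pow_card_eq_one'
  exact congrArg Subtype.val h1

/-- **Artin's reciprocity law** for the characters of a totally complex number field, exponent
form. -/
theorem artin_reciprocity_exp {K : Type} [Field K] [NumberField K] [IsTotallyComplex K]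
    (i : K →+* AlgebraicClosure ℚ) (S : Finset (HeightOneSpectrum (𝓞 K))) (m : ℕ) : m ≠ 0 →
    ∀ ψ : GK i →* U, Lev ψ → (∀ g, ψ g ^ m = 1) →
      (∀ v, v ∉ S → ∀ A : ValuationSubring (AlgebraicClosure ℚ),
        Over i A v → ∀ g : GK i, g.1 ∈ A.inertiaSubgroupIn ℚ → ψ g = 1) →
      ∃ (n : ℕ) (η : HeightOneSpectrum (𝓞 K) → Additive U), IsRay S n η ∧ Art i S η ψ := by
  induction m using Nat.recOnPosPrimePosCoprime with
  | zero => exact fun h => absurd rfl h
  | one =>
    intro _ ψ lψ hψ _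
    have h1 : ∀ g, ψ g = 1 := fun g => by
      have h2 := hψ g
      rwa [pow_one] at h2
    refine ⟨0, fun _ => 0, fun x _ => ?_, lψ, fun v _ g _ => by rw [h1 g, toMul_zero]⟩
    apply toAdd_eq_zero.mp
    exact toAdd_rayVal_of_ord_eq_zero S _ x fun v _ => smul_zero _
  | prime_pow p k hp hk =>
    intro _ ψ lψ hψ hu
    have : Fact p.Prime := ⟨hp⟩
    exact descentStmt p k (re p k) K i S ψ lψ hψ hu
  | coprime a b ha hb hab iha ihb =>
    intro _ ψ lψ hψ hu
    -- `ψ = ψ ^ (x a) ψ ^ (y b)` with `x a + y b = 1`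
    obtain ⟨x, y, hxy⟩ := Nat.isCoprime_iff_coprime.mpr hab
    have key : ∀ z : ℤ, Lev ((zpowGroupHom z).comp ψ) ∧
        (∀ v, v ∉ S → ∀ A : ValuationSubring (AlgebraicClosure ℚ),
          Over i A v → ∀ g : GK i, g.1 ∈ A.inertiaSubgroupIn ℚ →
            ((zpowGroupHom z).comp ψ) g = 1) := by
      intro z
      refine ⟨?_, fun v hv A hA g hg => ?_⟩
      · obtain ⟨M, hM, h⟩ := lψ
        exact ⟨M, hM, fun g hg => by
          change ψ g ^ z = 1
          rw [h g hg, one_zpow]⟩
      · change ψ g ^ z = 1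
        rw [hu v hv A hA g hg, one_zpow]
    obtain ⟨n₁, η₁, hη₁, a₁⟩ := ihb (by omega) _ (key (x * a)).1 (fun g => by
      change (ψ g ^ (x * (a : ℤ))) ^ b = 1
      rw [← zpow_natCast, ← zpow_mul, show x * (a : ℤ) * (b : ℕ) = ((a * b : ℕ) : ℤ) * x by
        push_cast; ring, zpow_mul, zpow_natCast, hψ, one_zpow]) (key (x * a)).2
    obtain ⟨n₂, η₂, hη₂, a₂⟩ := iha (by omega) _ (key (y * b)).1 (fun g => by
      change (ψ g ^ (y * (b : ℤ))) ^ a = 1
      rw [← zpow_natCast, ← zpow_mul, show y * (b : ℤ) * (a : ℕ) = ((a * b : ℕ) : ℤ) * y by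
        push_cast; ring, zpow_mul, zpow_natCast, hψ, one_zpow]) (key (y * b)).2
    refine ⟨max n₁ n₂, fun v => η₁ v + η₂ v, (hη₁.mono (le_max_left _ _)).add
      (hη₂.mono (le_max_right _ _)), lψ, fun v hv g hg => ?_⟩
    have h1 := a₁.2 v hv g hg
    have h2 := a₂.2 v hv g hg
    rw [toMul_add, ← h1, ← h2]
    change ψ g = ψ g ^ (x * (a : ℤ)) * ψ g ^ (y * (b : ℤ))
    rw [← zpow_add, hxy, zpow_one]

/-- **Artin's reciprocity law for all continuous characters of a totally complex number field**: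
`ψ : G_K → ℚ̄ˣ` continuous and unramified outside `S`; there is a ray class character `η` with
modulus on `S` with `ψ (Frob_v) = η v` for ALL `v ∉ S` and all Frobenius elements. -/
theorem artin_reciprocity_all {K : Type} [Field K] [NumberField K] [IsTotallyComplex K]
    {i : K →+* AlgebraicClosure ℚ} {S : Finset (HeightOneSpectrum (𝓞 K))} {ψ : GK i →* U}
    (lψ : Lev ψ) (hu : ∀ v, v ∉ S → ∀ A : ValuationSubring (AlgebraicClosure ℚ),
      Over i A v → ∀ g : GK i, g.1 ∈ A.inertiaSubgroupIn ℚ → ψ g = 1) :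
    ∃ (n : ℕ) (η : HeightOneSpectrum (𝓞 K) → Additive U), IsRay S n η ∧
      ∀ v, v ∉ S → ∀ g : GK i, FrobAt g v → ψ g = (η v).toMul := by
  obtain ⟨-, m, hm, hψ⟩ := exists_pow_eq_one lψ
  obtain ⟨n, η, hη, h⟩ := artin_reciprocity_exp i S m hm ψ lψ hψ hu
  exact ⟨n, η, hη, h.2⟩

/-- **Class field theory of a totally complex number field, characters**: a function `η` on the
places outside `S` is a ray class character of finite order with modulus on `S` if and only if there
is a continuous character `ψ` of `G_K`, unramified outside `S`, with `ψ (Frob_v) = η v` for all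
`v ∉ S`. -/
theorem artin_iff {K : Type} [Field K] [NumberField K] [IsTotallyComplex K]
    (i : K →+* AlgebraicClosure ℚ) (S : Finset (HeightOneSpectrum (𝓞 K)))
    (η : HeightOneSpectrum (𝓞 K) → Additive U) :
    ((∃ n, IsRay S n η) ∧ ∃ m : ℕ, m ≠ 0 ∧ ∀ v, v ∉ S → m • η v = 0) ↔
      ∃ ψ : GK i →* U, Lev ψ ∧
        (∀ v, v ∉ S → ∀ A : ValuationSubring (AlgebraicClosure ℚ), Over i A v → ∀ g : GK i,
          g.1 ∈ A.inertiaSubgroupIn ℚ → ψ g = 1) ∧
        ∀ v, v ∉ S → ∀ g : GK i, FrobAt g v → ψ g = (η v).toMul := by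
  constructor
  · rintro ⟨⟨n, hη⟩, m, hm, hmη⟩
    exact artin_existence_all i hη hm hmη
  · rintro ⟨ψ, lψ, hu, hψ⟩
    have hex : ∀ v, ∃ g : GK i, FrobAt g v := fun v => by
      obtain ⟨q, A, -, -, hA⟩ := exists_over i v
      obtain ⟨g, hg⟩ := Fermat.Agent.Cor.CFTP.exists_frobAt_over hA
      exact ⟨g, A, hA, hg⟩
    obtain ⟨n, η₀, hη₀, h₀⟩ := artin_reciprocity_all lψ hu
    obtain ⟨-, m, hm, hψm⟩ := exists_pow_eq_one lψ
    refine ⟨⟨n, isRay_congr (fun v hv => ?_) hη₀⟩, m, hm, fun v hv => ?_⟩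
    · obtain ⟨g, hg⟩ := hex v
      apply Additive.toMul.injective
      rw [← h₀ v hv g hg, ← hψ v hv g hg]
    · obtain ⟨g, hg⟩ := hex v
      apply Additive.toMul.injective
      rw [toMul_nsmul, ← hψ v hv g hg, hψm, toMul_zero]

/-- The character is unique. -/
theorem artin_unique {K : Type} [Field K] [NumberField K] {i : K →+* AlgebraicClosure ℚ}
    {S : Finset (HeightOneSpectrum (𝓞 K))} {η : HeightOneSpectrum (𝓞 K) → Additive U}
    {ψ ψ' : GK i →* U} (h : Art i S η ψ) (h' : Art i S η ψ') : ψ = ψ' :=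
  MonoidHom.ext fun g => eq_of_frob (T := S) h.1 h'.1 (fun v hv φ hφ => by
    rw [h.2 v hv φ hφ, h'.2 v hv φ hφ]) g

end Fermat.Agent.Cor.HCF
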