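import Fermat.Agent.Corollaries.HCF.Scalar

set_option autoImplicit false

/-!
# One scalar for all auxiliary characters
-/

namespace Fermat.Agent.Cor.HCF

open IsDedekindDomain NumberField
open Fermat.Agent.Frob Fermat.Agent.FrobDensity Fermat.Agent.Minkowski
open Fermat.Agent.LT Fermat.Agent.LT.Tower.Fr
open Fermat.Agent.Cor.Diff (GK FrobAt finite_natCast_mem exists_nat_mem)
open Fermat.Agent.Cor.CFTP
open Fermat.Agent.CFT.Global (above mem_above)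
open Fermat.Agent.LT.NV (fdeg edeg edeg_fdeg_eq pull card_conj_eq)

variable {p : ℕ} [hp : Fact p.Prime] {k : ℕ}

/-- Two scalars are equal. -/
theorem compare {K : Type} [Field K] [NumberField K] {i : K →+* AlgebraicClosure ℚ}
    {S : Finset (HeightOneSpectrum (𝓞 K))} {η : HeightOneSpectrum (𝓞 K) → Additive U}
    {X F : GK i →* U} (d : Dat p k i S η X F) {κ κ' : GK i →* U} (lκ : Lev κ) (lκ' : Lev κ')
    (hκ : ∀ g, κ g ^ p = 1) (hκ' : ∀ g, κ' g ^ p = 1) (hu : ∃ u, X u = 1 ∧ κ u ≠ 1)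
    (hu' : ∃ u, X u = 1 ∧ κ u = 1 ∧ κ' u ≠ 1) {c c' : ℕ}
    {T T' : Finset (HeightOneSpectrum (𝓞 K))}
    (h : ∀ v, v ∉ S → v ∉ T → ∀ φ : GK i, FrobAt φ v → X φ * κ φ = 1 →
      (η v).toMul = F φ * X φ ^ c)
    (h' : ∀ v, v ∉ S → v ∉ T' → ∀ φ : GK i, FrobAt φ v → X φ * κ' φ = 1 →
      (η v).toMul = F φ * X φ ^ c') (g : GK i) : X g ^ c = X g ^ c' := by
  classical
  by_contra hcon
  obtain ⟨u, hXu, hκu⟩ := hu
  obtain ⟨u', hXu', hκu', hκ'u'⟩ := hu'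
  obtain ⟨g₀, hg₀⟩ := d.ne
  obtain ⟨a, ha⟩ := exists_pow_eq_U hκu (hκ u) (y := (X g₀ * κ g₀)⁻¹) (by
    rw [inv_pow, mul_pow, d.Xp, hκ, one_mul, inv_one])
  obtain ⟨b, hb⟩ := exists_pow_eq_U hκ'u' (hκ' u') (y := (X g₀ * κ' (g₀ * u ^ a))⁻¹) (by
    rw [inv_pow, mul_pow, d.Xp, hκ', one_mul, inv_one])
  have hX : X (g₀ * u ^ a * u' ^ b) = X g₀ := by
    rw [map_mul, map_mul, map_pow, map_pow, hXu, hXu', one_pow, one_pow, mul_one, mul_one]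
  apply hg₀
  rw [← hX]
  refine dens (T := S ∪ T ∪ T') (χ := (X * κ).prod (X * κ')) (ω := X) ?_ d.lX ?_ _
    (Prod.ext ?_ ?_)
  · obtain ⟨L₁, hL₁, h₁⟩ := d.lX.mul lκ
    obtain ⟨L₂, hL₂, h₂⟩ := d.lX.mul lκ'
    exact ⟨L₁ ⊔ L₂, IntermediateField.finiteDimensional_sup _ _, fun g hg => Prod.ext
      (h₁ g fun x hx => hg x ((le_sup_left : L₁ ≤ L₁ ⊔ L₂) hx))
      (h₂ g fun x hx => hg x ((le_sup_right : L₂ ≤ L₁ ⊔ L₂) hx))⟩
  · intro v hv _ φ hφ hφ1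
    simp only [Finset.mem_union, not_or] at hv
    have h1 : X φ * κ φ = 1 := congrArg Prod.fst hφ1
    have h2 : X φ * κ' φ = 1 := congrArg Prod.snd hφ1
    have h3 := (h v hv.1.1 hv.1.2 φ hφ h1).symm.trans (h' v hv.1.1 hv.2 φ hφ h2)
    by_contra hX1
    exact hcon (pow_eq_pow_of hX1 (d.Xp φ) (d.Xp g) (mul_left_cancel h3))
  · change X (g₀ * u ^ a * u' ^ b) * κ (g₀ * u ^ a * u' ^ b) = 1
    rw [hX, map_mul, map_mul, map_pow, map_pow, hκu', one_pow, mul_one, ← ha, ← mul_assoc,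
      mul_inv_cancel]
  · change X (g₀ * u ^ a * u' ^ b) * κ' (g₀ * u ^ a * u' ^ b) = 1
    rw [hX, map_mul κ', map_pow, ← hb, ← mul_assoc, mul_inv_cancel]

/-- An auxiliary pair from a Dirichlet character. -/
theorem exists_pair (hAux : AuxStmt) {K : Type} [Field K] [NumberField K] [IsTotallyComplex K]
    (i : K →+* AlgebraicClosure ℚ) (M : IntermediateField ℚ (AlgebraicClosure ℚ))
    [FiniteDimensional ℚ M] : ∃ (T : Finset (HeightOneSpectrum (𝓞 K)))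
      (θ : HeightOneSpectrum (𝓞 K) → Additive U) (κ : GK i →* U), Pair p k i T θ κ ∧
      ∃ u : GK i, (∀ x ∈ M, u.1 x = x) ∧ κ u ^ p ^ k ≠ 1 := by
  obtain ⟨ℓ, κ, θ, T, n, -, -, -, hθ, lκ, hκ, hex, u, hu, hu'⟩ := hAux p k K i M 0
  exact ⟨T, θ, κ.comp (GK i).subtype, ⟨⟨n, hθ⟩, ⟨lev_restrict lκ, hex⟩, fun g => hκ g.1⟩, u, hu,
    hu'⟩

/-- **The normalization**: `G` is exact at all places where some auxiliary character, independent of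
`X`, does not vanish. -/
theorem claim (hExt : ExtStmt) (hTor : TorStmt) (hAux : AuxStmt) (hE : Ex p k) {K : Type} [Field K]
    [NumberField K] [IsTotallyComplex K] {i : K →+* AlgebraicClosure ℚ}
    {S : Finset (HeightOneSpectrum (𝓞 K))} {η : HeightOneSpectrum (𝓞 K) → Additive U}
    {X F : GK i →* U} (d : Dat p k i S η X F) :
    ∃ G : GK i →* U, Lev G ∧
      (∀ v, v ∉ S → ∀ φ : GK i, FrobAt φ v → X φ = 1 → G φ = (η v).toMul) ∧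
      ∀ (T : Finset (HeightOneSpectrum (𝓞 K))) (θ : HeightOneSpectrum (𝓞 K) → Additive U)
        (κ : GK i →* U), Pair p k i T θ κ → (∃ u, X u = 1 ∧ κ u ^ p ^ k ≠ 1) →
        ∀ v, v ∉ S → v ∉ T → ∀ φ : GK i, FrobAt φ v → κ φ ^ p ^ k ≠ 1 →
          G φ = (η v).toMul := by
  classical
  obtain ⟨LX, hLX, hX⟩ := id d.lX
  obtain ⟨T₀, θ₀, κ₀, P₀, u₀, hu₀, hκu₀⟩ := exists_pair (p := p) (k := k) hAux i LX
  have hp1 : ∀ {T θ} {κ : GK i →* U}, Pair p k i T θ κ → ∀ g, (κ ^ p ^ k) g ^ p = 1 := by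
    intro T θ κ P g
    rw [MonoidHom.pow_apply, ← pow_mul, ← pow_succ]
    exact P.tors g
  obtain ⟨c₀, hc₀⟩ := scalar hExt hTor hE d P₀ ⟨u₀, hX u₀ hu₀, hκu₀⟩
  refine ⟨F * X ^ c₀, d.lF.mul (d.lX.pow c₀), fun v hv φ hφ hXφ => ?_,
    fun T θ κ P hu v hvS hvT φ hφ hκφ => ?_⟩
  · rw [MonoidHom.mul_apply, MonoidHom.pow_apply, hXφ, one_pow, mul_one, d.exF v hv φ hφ hXφ]
  by_cases hXφ : X φ = 1
  · rw [MonoidHom.mul_apply, MonoidHom.pow_apply, hXφ, one_pow, mul_one, d.exF v hvS φ hφ hXφ]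
  obtain ⟨u, hXu, hκu⟩ := hu
  -- the multiple of `κ` with `X κ₁ = 1` at `φ`
  obtain ⟨m, hm⟩ := exists_pow_eq_U hκφ (hp1 P φ) (y := (X φ)⁻¹) (by
    rw [inv_pow, d.Xp, inv_one])
  have Pm := P.pow m
  have hm1 : ∀ g, (κ ^ m) g ^ p ^ k = (κ g ^ p ^ k) ^ m := fun g => by
    rw [MonoidHom.pow_apply, ← pow_mul, ← pow_mul, mul_comm]
  have hum : (κ ^ m) u ^ p ^ k ≠ 1 := by
    rw [hm1]
    intro h
    apply hXφ
    have h1 := pow_eq_pow_of (p := p) hκu (hp1 P u) (hp1 P φ) (c := m) (c' := 0) (by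
      rw [h, pow_zero])
    rw [pow_zero] at h1
    have h2 : (X φ)⁻¹ = 1 := hm.trans h1
    exact inv_eq_one.mp h2
  obtain ⟨c, hc⟩ := scalar hExt hTor hE d Pm ⟨u, hXu, hum⟩
  -- the third pair
  obtain ⟨L₀, hL₀, hκ₀⟩ := id P₀.art.1
  obtain ⟨L₁, hL₁, hκ₁⟩ := id Pm.art.1
  have hM1 : FiniteDimensional ℚ (LX ⊔ L₀ : IntermediateField ℚ (AlgebraicClosure ℚ)) :=
    IntermediateField.finiteDimensional_sup _ _
  have hM2 : FiniteDimensional ℚ (LX ⊔ L₀ ⊔ L₁ : IntermediateField ℚ (AlgebraicClosure ℚ)) :=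
    IntermediateField.finiteDimensional_sup _ _
  obtain ⟨T', θ', κ', P', u', hu', hκu'⟩ :=
    exists_pair (p := p) (k := k) hAux i (LX ⊔ L₀ ⊔ L₁)
  have hXu' : X u' = 1 := hX u' fun x hx => hu' x
    ((le_sup_left.trans le_sup_left : LX ≤ LX ⊔ L₀ ⊔ L₁) hx)
  have hκ₀u' : κ₀ u' = 1 := hκ₀ u' fun x hx => hu' x
    ((le_sup_right.trans le_sup_left : L₀ ≤ LX ⊔ L₀ ⊔ L₁) hx)
  have hκ₁u' : (κ ^ m) u' = 1 := hκ₁ u' fun x hx => hu' x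
    ((le_sup_right : L₁ ≤ LX ⊔ L₀ ⊔ L₁) hx)
  obtain ⟨c', hc'⟩ := scalar hExt hTor hE d P' ⟨u', hXu', hκu'⟩
  have e1 := compare d (κ := κ₀ ^ p ^ k) (κ' := κ' ^ p ^ k) (P₀.art.1.pow _) (P'.art.1.pow _)
    (hp1 P₀) (hp1 P') ⟨u₀, hX u₀ hu₀, hκu₀⟩
    ⟨u', hXu', by rw [MonoidHom.pow_apply, hκ₀u', one_pow], hκu'⟩ hc₀ hc' φ
  have e2 := compare d (κ := (κ ^ m) ^ p ^ k) (κ' := κ' ^ p ^ k) (Pm.art.1.pow _)
    (P'.art.1.pow _) (hp1 Pm) (hp1 P') ⟨u, hXu, hum⟩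
    ⟨u', hXu', by rw [MonoidHom.pow_apply, hκ₁u', one_pow], hκu'⟩ hc hc' φ
  rw [MonoidHom.mul_apply, MonoidHom.pow_apply, e1, ← e2]
  refine (hc v hvS hvT φ hφ ?_).symm
  rw [hm1]
  have h3 : (κ φ ^ p ^ k) ^ m = (X φ)⁻¹ := hm.symm
  rw [h3, mul_inv_cancel]

end Fermat.Agent.Cor.HCF
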