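import Fermat.Agent.Corollaries.CFTP.HilbertField

set_option autoImplicit false

/-!
# The existence theorem for characters of prime power order: statements

`U = ℚ̄ˣ` is the group of values (divisible, all roots of unity). `Art i S η ψ`: the continuous
character `ψ : G_K → U` has the value `η v` at all Frobenius elements at all `v ∉ S`.
-/

namespace Fermat.Agent.Cor.HCF

open IsDedekindDomain NumberField
open Fermat.Agent.Frob Fermat.Agent.FrobDensity Fermat.Agent.Minkowski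
open Fermat.Agent.LT Fermat.Agent.LT.Tower.Fr
open Fermat.Agent.Cor.Diff (GK FrobAt)
open Fermat.Agent.Cor.CFTP (C Lev)

/-- the group of values -/
abbrev U : Type := (AlgebraicClosure ℚ)ˣ

variable {K : Type*} [Field K] [NumberField K]

/-- `ψ` is continuous and `ψ (Frob_v) = η v` for all `v ∉ S`. -/
def Art (i : K →+* AlgebraicClosure ℚ) (S : Finset (HeightOneSpectrum (𝓞 K)))
    (η : HeightOneSpectrum (𝓞 K) → Additive U) (ψ : GK i →* U) : Prop :=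
  Lev ψ ∧ ∀ v, v ∉ S → ∀ g : GK i, FrobAt g v → ψ g = (η v).toMul

/-- The existence theorem for order `p ^ k`, all totally complex fields. -/
def Ex (p k : ℕ) : Prop :=
  ∀ (K : Type) [Field K] [NumberField K] [IsTotallyComplex K] (i : K →+* AlgebraicClosure ℚ)
    (S : Finset (HeightOneSpectrum (𝓞 K))) (n : ℕ) (η : HeightOneSpectrum (𝓞 K) → Additive U),
    IsRay S n η → (∀ v, v ∉ S → p ^ k • η v = 0) → ∃ ψ : GK i →* U, Art i S η ψ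

/-- (A) Extension of an invariant character from a normal subgroup of index `p`. -/
def ExtStmt : Prop :=
  ∀ (p : ℕ) [Fact p.Prime] (G : Type) [Group G] (χ : G →* C p), (∃ g, χ g ≠ 1) →
    ∀ f : χ.ker →* U, (∀ (σ : G) (n : χ.ker) (h : σ * n.1 * σ⁻¹ ∈ χ.ker),
      f ⟨σ * n.1 * σ⁻¹, h⟩ = f n) → ∃ F : G →* U, ∀ n : χ.ker, F n.1 = f n

/-- (B) The `p`-torsion of `U`. -/
def TorStmt : Prop :=
  ∀ (p : ℕ) [Fact p.Prime], ∃ e : ZMod p →+ Additive U, Function.Injective e ∧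
    ∀ u : Additive U, p • u = 0 → ∃ z, e z = u

/-- (B') The case `k = 1`. -/
def BaseStmt : Prop := ∀ (p : ℕ) [Fact p.Prime], Ex p 1

/-- (C) Fresh auxiliary characters of order `p ^ (k + 1)`. -/
def AuxStmt : Prop :=
  ∀ (p k : ℕ) [Fact p.Prime] (K : Type) [Field K] [NumberField K] [IsTotallyComplex K]
    (i : K →+* AlgebraicClosure ℚ) (M : IntermediateField ℚ (AlgebraicClosure ℚ))
    [FiniteDimensional ℚ M] (B : ℕ),
    ∃ (ℓ : ℕ) (κ : GQ →* U) (θ : HeightOneSpectrum (𝓞 K) → Additive U)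
      (S : Finset (HeightOneSpectrum (𝓞 K))) (n : ℕ), ℓ.Prime ∧ B < ℓ ∧
      (∀ v, v ∈ S ↔ (ℓ : 𝓞 K) ∈ v.asIdeal) ∧ IsRay S n θ ∧
      Fermat.Agent.Cor.KW.Lev κ ∧ (∀ g, κ g ^ p ^ (k + 1) = 1) ∧
      (∀ v, v ∉ S → ∀ g : GK i, FrobAt g v → κ g.1 = (θ v).toMul) ∧
      ∃ g : GK i, (∀ x ∈ M, g.1 x = x) ∧ κ g.1 ^ p ^ k ≠ 1

/-- (D) The decomposition field of `v₀` in `K(μ_ℓ)`. -/
def SplitStmt : Prop :=
  ∀ (p k : ℕ) [Fact p.Prime] (K : Type) [Field K] [NumberField K] [IsTotallyComplex K]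
    (i : K →+* AlgebraicClosure ℚ) (ℓ : ℕ) [Fact ℓ.Prime] (v₀ : HeightOneSpectrum (𝓞 K)),
    (ℓ : 𝓞 K) ∉ v₀.asIdeal → p ^ (k + 1) ∣ orderOf (Recip.nres ℓ v₀) →
    ∃ (K₂ : Type) (_ : Field K₂) (_ : NumberField K₂) (_ : Algebra K K₂) (_ : IsGalois K K₂)
      (_ : IsTotallyComplex K₂) (i₂ : K₂ →+* AlgebraicClosure ℚ) (κ : GK i₂ →* U)
      (θ : HeightOneSpectrum (𝓞 K₂) → Additive U) (S : Finset (HeightOneSpectrum (𝓞 K₂))) (n : ℕ),
      i₂.comp (algebraMap K K₂) = i ∧ Lev κ ∧ (∀ w, w ∈ S ↔ (ℓ : 𝓞 K₂) ∈ w.asIdeal) ∧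
      IsRay S n θ ∧ (∀ g, κ g ^ p ^ (k + 1) = 1) ∧
      (∀ w, w ∉ S → ∀ g : GK i₂, FrobAt g w → κ g = (θ w).toMul) ∧
      (∀ w, w.under (𝓞 K) = v₀ → p ^ k • θ w ≠ 0 ∧ LT.NV.fdeg K w = 1) ∧
      (∀ g : GK i, KW.Kap.kap ℓ g.1 = 1 → g.1 ∈ GK i₂) ∧
      (∀ g : GK i, KW.Kap.kap ℓ g.1 = Recip.nres ℓ v₀ →
        ∃ h : g.1 ∈ GK i₂, κ ⟨g.1, h⟩ ^ p ^ k ≠ 1)

/-- (E) Auxiliary primes. -/
def PrimeStmt : Prop :=
  ∀ (p k : ℕ), p.Prime → ∀ N : ℕ, 1 < N → ∀ B : ℕ,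
    ∃ ℓ : ℕ, ℓ.Prime ∧ B < ℓ ∧ ¬ ℓ ∣ N ∧ p ^ k ∣ orderOf (N : ZMod ℓ)

/-- (I) The final step: from `Ex p k` for all `p`, `k` to the Hilbert class field. -/
def FinalStmt : Prop :=
  (∀ (p k : ℕ) [Fact p.Prime], Ex p k) →
    ∀ (K : Type) [Field K] [NumberField K] [IsTotallyComplex K],
      ∃ (L : Type) (_ : Field L) (_ : NumberField L) (_ : Algebra K L) (_ : IsGalois K L)
        (e : (L ≃ₐ[K] L) ≃* ClassGroup (𝓞 K)),
        (∀ w : HeightOneSpectrum (𝓞 L),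
          (w.under (𝓞 K)).asIdeal.ramificationIdx' w.asIdeal = 1) ∧
        (∀ (w : HeightOneSpectrum (𝓞 L)) (σ : L ≃ₐ[K] L), IsArithFrobAt (𝓞 K) σ w.asIdeal →
          e σ = CFTP.cl (w.under (𝓞 K))) ∧
        ∀ w : HeightOneSpectrum (𝓞 L),
          (w.under (𝓞 K)).asIdeal.inertiaDeg' w.asIdeal = 1 ↔
            (w.under (𝓞 K)).asIdeal.IsPrincipal

end Fermat.Agent.Cor.HCF
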