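import Fermat.Agent.Corollaries.HCF.Defs

set_option autoImplicit false

/-!
# Reciprocity: statements
-/

namespace Fermat.Agent.Cor.HCF

open IsDedekindDomain NumberField
open Fermat.Agent.LT Fermat.Agent.LT.Tower.Fr
open Fermat.Agent.Cor.Diff (GK FrobAt)
open Fermat.Agent.Cor.CFTP (C Lev)
open Fermat.Agent.CFT.Global (cong above)

/-- (J) Approximate Hilbert 90 at the places above `S`: for every `n'` there is `N` such that every
`β ∈ Lˣ` with norm `≡ 1 mod v^(N+1)`, `v ∈ S`, is `γ / σ γ` times an element `≡ 1 mod w^(n'+1)` at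
all `w` above `S`. -/
def H90Stmt : Prop :=
  ∀ (K L : Type) [Field K] [NumberField K] [Field L] [NumberField L] [Algebra K L] [IsGalois K L]
    (σ : L ≃ₐ[K] L), (∀ τ : L ≃ₐ[K] L, τ ∈ Subgroup.zpowers σ) →
    ∀ (S : Finset (HeightOneSpectrum (𝓞 K))) (n' : ℕ), ∃ N : ℕ, ∀ β : Lˣ,
      (∀ v ∈ S, Units.map (Algebra.norm K : L →* K) β ∈ cong v N) →
      ∃ γ : Lˣ, ∀ w ∈ above L S,
        β * Units.map (σ : L →* L) γ / γ ∈ cong w n'

/-- (K) Extension of homomorphisms to the divisible group `U`. -/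
def DivStmt : Prop :=
  ∀ (A : Type) [AddCommGroup A] (B : AddSubgroup A) (f : B →+ Additive U),
    ∃ F : A →+ Additive U, ∀ b : B, F b = f b

/-- Reciprocity for order `p ^ k` over the totally complex fields containing `ζ_p`. -/
def Re (p k : ℕ) : Prop :=
  ∀ (K : Type) [Field K] [NumberField K] [IsTotallyComplex K] (ζ : K), IsPrimitiveRoot ζ p →
    ∀ (i : K →+* AlgebraicClosure ℚ) (S : Finset (HeightOneSpectrum (𝓞 K))) (ψ : GK i →* U),
    Lev ψ → (∀ g, ψ g ^ p ^ k = 1) → (∀ v, v ∉ S → ∀ A : ValuationSubring (AlgebraicClosure ℚ),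
      Over i A v → ∀ g : GK i, g.1 ∈ A.inertiaSubgroupIn ℚ → ψ g = 1) →
    ∃ (n : ℕ) (η : HeightOneSpectrum (𝓞 K) → Additive U), IsRay S n η ∧ Art i S η ψ

/-- (M) Descent of a ray character from `K' = K(ζ_p)`, of degree `m` prime to `p`. -/
def DescentStmt : Prop :=
  ∀ (p k : ℕ) [Fact p.Prime], Re p k → ∀ (K : Type) [Field K] [NumberField K] [IsTotallyComplex K]
    (i : K →+* AlgebraicClosure ℚ) (S : Finset (HeightOneSpectrum (𝓞 K))) (ψ : GK i →* U),
    Lev ψ → (∀ g, ψ g ^ p ^ k = 1) → (∀ v, v ∉ S → ∀ A : ValuationSubring (AlgebraicClosure ℚ),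
      Over i A v → ∀ g : GK i, g.1 ∈ A.inertiaSubgroupIn ℚ → ψ g = 1) →
    ∃ (n : ℕ) (η : HeightOneSpectrum (𝓞 K) → Additive U), IsRay S n η ∧ Art i S η ψ

end Fermat.Agent.Cor.HCF
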