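import Fermat.Agent.Corollaries.HCF.Defs2
import Fermat.Agent.Corollaries.Ray.Group

set_option autoImplicit false

/-!
# Ray class fields: statements

`RayClass 𝔪`: the ray class group of `K` modulo `𝔪` (`Ray/Group.lean`).
-/

namespace Fermat.Agent.Cor.HCF

open IsDedekindDomain NumberField
open Fermat.Agent.LT Fermat.Agent.LT.Tower.Fr
open Fermat.Agent.Cor.Diff (GK FrobAt)
open Fermat.Agent.Cor.CFTP (C Lev)
open Fermat.Agent.Cor.Ray (RayClass rayCl Cop rayClassCommGroup)

/-- (N) The tautological ray class character with values in the ray class group. -/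
def RayClStmt : Prop :=
  ∀ (K : Type) [Field K] [NumberField K] (m : Ideal (𝓞 K)) (hm : m ≠ ⊥),
    letI := rayClassCommGroup m hm
    ∃ (S : Finset (HeightOneSpectrum (𝓞 K))) (n : ℕ)
      (η : HeightOneSpectrum (𝓞 K) → Additive (RayClass m)),
      (∀ v, v ∈ S ↔ m ≤ v.asIdeal) ∧ IsRay S n η ∧
      (∀ (v : HeightOneSpectrum (𝓞 K)) (I : Cop m), (I.1 : Ideal (𝓞 K)) = v.asIdeal →
        η v = Additive.ofMul (rayCl m I)) ∧
      ∀ H : Subgroup (RayClass m), (∀ v, v ∉ S → (η v).toMul ∈ H) → ∀ x, x ∈ H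

/-- (O) A ray class character with values in `A` factors through a ray class group. -/
def FactorStmt : Prop :=
  ∀ (K : Type) [Field K] [NumberField K] (A : Type) [CommGroup A]
    (S : Finset (HeightOneSpectrum (𝓞 K))) (n : ℕ) (η : HeightOneSpectrum (𝓞 K) → Additive A),
    IsRay S n η → ∃ (m : Ideal (𝓞 K)) (_ : m ≠ ⊥) (f : RayClass m →* A),
      (∀ v : HeightOneSpectrum (𝓞 K), v ∈ S ↔ m ≤ v.asIdeal) ∧
      ∀ (v : HeightOneSpectrum (𝓞 K)) (I : Cop m), (I.1 : Ideal (𝓞 K)) = v.asIdeal →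
        f (rayCl m I) = (η v).toMul

end Fermat.Agent.Cor.HCF
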