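import Fermat.Agent.Corollaries.HCF.Defs2

set_option autoImplicit false

/-!
# Extension of homomorphisms to the divisible group `U = ℚ̄ˣ`
-/

namespace Fermat.Agent.Cor.HCF

/-- (K) -/
theorem divStmt : DivStmt := by
  intro A _ B f
  have : DivisibleBy (Additive U) ℤ := by
    refine divisibleByOfSMulRightSurj (Additive U) ℤ ?_
    intro n hn u
    obtain ⟨m, rfl | rfl⟩ := n.eq_nat_or_neg
    · have hm : 0 < m := Nat.pos_of_ne_zero (by
        rintro rfl
        exact hn rfl)
      obtain ⟨t, ht⟩ := IsAlgClosed.exists_pow_nat_eq ((u.toMul : U) : AlgebraicClosure ℚ) hm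
      have ht0 : t ≠ 0 := by
        rintro rfl
        rw [zero_pow hm.ne'] at ht
        exact (u.toMul : U).ne_zero ht.symm
      refine ⟨Additive.ofMul (Units.mk0 t ht0), ?_⟩
      change ((m : ℤ)) • Additive.ofMul (Units.mk0 t ht0) = u
      rw [natCast_zsmul, ← ofMul_pow]
      apply Additive.toMul.injective
      rw [toMul_ofMul]
      exact Units.ext (by rw [Units.val_pow_eq_pow_val]; exact ht)
    · have hm : 0 < m := Nat.pos_of_ne_zero (by
        rintro rfl
        exact hn rfl)
      obtain ⟨t, ht⟩ := IsAlgClosed.exists_pow_nat_eq (((-u).toMul : U) : AlgebraicClosure ℚ) hm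
      have ht0 : t ≠ 0 := by
        rintro rfl
        rw [zero_pow hm.ne'] at ht
        exact ((-u).toMul : U).ne_zero ht.symm
      refine ⟨Additive.ofMul (Units.mk0 t ht0), ?_⟩
      change (-(m : ℤ)) • Additive.ofMul (Units.mk0 t ht0) = u
      rw [neg_zsmul, natCast_zsmul, ← ofMul_pow, neg_eq_iff_eq_neg]
      apply Additive.toMul.injective
      rw [toMul_ofMul]
      exact Units.ext (by rw [Units.val_pow_eq_pow_val]; exact ht)
  have hb : Module.Baer ℤ (Additive U) := Module.Baer.of_divisible _
  obtain ⟨F, hF⟩ := hb.extension_property_addMonoidHom B.subtype B.subtype_injective f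
  exact ⟨F, fun b => DFunLike.congr_fun hF b⟩

end Fermat.Agent.Cor.HCF
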