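import Fermat.Agent.Corollaries.HCF.Claim

set_option autoImplicit false

/-!
# Exactness at all places, and the induction

`ex_succ`: `Ex p k → Ex p (k + 1)`; `ex_of`: `Ex p k` for all `k`, from the inputs of `Defs`.
-/

namespace Fermat.Agent.Cor.HCF

open IsDedekindDomain NumberField
open Fermat.Agent.Frob Fermat.Agent.FrobDensity Fermat.Agent.Minkowski
open Fermat.Agent.LT Fermat.Agent.LT.Tower.Fr
open Fermat.Agent.Cor.Diff (GK FrobAt finite_natCast_mem exists_nat_mem)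
open Fermat.Agent.Cor.CFTP
open Fermat.Agent.CFT.Global (above mem_above)
open Fermat.Agent.LT.NV (fdeg edeg edeg_fdeg_eq pull card_conj_eq)

variable {p : ℕ} [hp : Fact p.Prime] {k : ℕ}

section Pull

variable {K K' : Type*} [Field K] [NumberField K] [Field K'] [NumberField K'] [Algebra K K']
  {i' : K' →+* AlgebraicClosure ℚ}

/-- The value at a Frobenius element of `K'`, for a character unramified at the place below. -/
theorem frob_res {M : Type*} [Group M] {ψ : GK (i'.comp (algebraMap K K')) →* M}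
    {w : HeightOneSpectrum (𝓞 K')}
    (hu : ∀ A : ValuationSubring (AlgebraicClosure ℚ),
      Over (i'.comp (algebraMap K K')) A (w.under (𝓞 K)) →
      ∀ g : GK (i'.comp (algebraMap K K')), g.1 ∈ A.inertiaSubgroupIn ℚ → ψ g = 1)
    {φ : GK i'} (hφ : FrobAt φ w) : ∃ g : GK (i'.comp (algebraMap K K')),
      FrobAt g (w.under (𝓞 K)) ∧ ψ (res K i' φ) = ψ g ^ fdeg K w := by
  obtain ⟨A, hA, hF⟩ := hφ
  obtain ⟨g, hg⟩ := exists_frobAt_over (hA.under (F := K))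
  refine ⟨g, ⟨A, hA.under, hg⟩, ?_⟩
  have h1 : A.IsFrobeniusAt (g ^ fdeg K w).1 (Ideal.absNorm w.asIdeal) := by
    rw [absNorm_eq_pow_fdeg (K := K) w]
    exact isFrobeniusAt_pow hg _
  rw [← map_pow]
  exact frob_unique_of_unr ψ (hu A hA.under) (g := res K i' φ) hF h1

theorem Art.res {S : Finset (HeightOneSpectrum (𝓞 K))}
    {η : HeightOneSpectrum (𝓞 K) → Additive U} {ψ : GK (i'.comp (algebraMap K K')) →* U}
    (h : Art (i'.comp (algebraMap K K')) S η ψ) :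
    Art i' (above K' S) (pull K' η) (ψ.comp (res K i')) := by
  refine ⟨h.1.res, fun w hw φ hφ => ?_⟩
  rw [mem_above] at hw
  obtain ⟨g, hg, e⟩ := frob_res (ψ := ψ) (fun A hA g hg => h.unr hw hA hg) hφ
  change ψ (CFTP.res K i' φ) = _
  rw [e, h.2 _ hw g hg, pull, toMul_nsmul]

theorem Pair.res [IsGalois K K'] {T : Finset (HeightOneSpectrum (𝓞 K))}
    {θ : HeightOneSpectrum (𝓞 K) → Additive U} {κ : GK (i'.comp (algebraMap K K')) →* U}
    (P : Pair p k (i'.comp (algebraMap K K')) T θ κ) :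
    Pair p k i' (above K' T) (pull K' θ) (κ.comp (res K i')) := by
  obtain ⟨n, hn⟩ := P.ray
  exact ⟨hn.pull (L := K'), P.art.res, fun g => P.tors _⟩

end Pull

/-- **Exactness at all places.** -/
theorem exact_all (hExt : ExtStmt) (hTor : TorStmt) (hAux : AuxStmt) (hSplit : SplitStmt)
    (hPrime : PrimeStmt) (hE : Ex p k) {K : Type} [Field K] [NumberField K] [IsTotallyComplex K]
    {i : K →+* AlgebraicClosure ℚ} {S : Finset (HeightOneSpectrum (𝓞 K))}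
    {η : HeightOneSpectrum (𝓞 K) → Additive U} {X F : GK i →* U} (d : Dat p k i S η X F) :
    ∃ G : GK i →* U, Art i S η G := by
  classical
  obtain ⟨G, lG, hG1, hG⟩ := claim hExt hTor hAux hE d
  refine ⟨G, lG, fun v₀ hv₀S g hg => ?_⟩
  by_cases hXg : X g = 1
  · exact hG1 v₀ hv₀S g hg hXg
  -- the auxiliary prime
  obtain ⟨L, hL, hLX⟩ := id d.lX
  let Li : IntermediateField ℚ (AlgebraicClosure ℚ) := i.toRatAlgHom.fieldRange
  have hLi : FiniteDimensional ℚ Li :=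
    LinearEquiv.finiteDimensional (AlgEquiv.ofInjectiveField i.toRatAlgHom).toLinearEquiv
  let N : IntermediateField ℚ (AlgebraicClosure ℚ) := Li ⊔ L
  have hN : FiniteDimensional ℚ N := IntermediateField.finiteDimensional_sup _ _
  have hNF : NumberField N := ⟨⟩
  obtain ⟨D, hD, hgood⟩ := exists_good N
  have hNv : 1 < Ideal.absNorm v₀.asIdeal := NumberField.HeightOneSpectrum.one_lt_absNorm v₀
  obtain ⟨ℓ, hℓ, hDℓ, hℓN, hord⟩ := hPrime p (k + 1) hp.out _ hNv D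
  have hℓF : Fact ℓ.Prime := ⟨hℓ⟩
  have hGd : Good N ℓ := hgood ℓ hℓ fun h =>
    absurd (Nat.le_of_dvd (Nat.pos_of_ne_zero hD) h) (by omega)
  have hv₀ℓ : (ℓ : 𝓞 K) ∉ v₀.asIdeal := by
    intro h
    obtain ⟨f, hf0, hf⟩ := exists_absNorm_eq_pow hℓ h
    exact hℓN (hf ▸ dvd_pow_self ℓ hf0.ne')
  have hord' : p ^ (k + 1) ∣ orderOf (Recip.nres ℓ v₀) := by
    rw [← orderOf_units, Recip.nres_coe hv₀ℓ]
    exact hord
  obtain ⟨h, hh⟩ := exists_kap_eq (algebraMap N (AlgebraicClosure ℚ)) hGd (Recip.nres ℓ v₀)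
  set hK : GK i := ⟨h.1, fun x => h.2 ⟨i x, (le_sup_left : Li ≤ N) ⟨x, rfl⟩⟩⟩ with hhK
  have hXh : X hK = 1 := hLX _ fun x hx => h.2 ⟨x, (le_sup_right : L ≤ N) hx⟩
  -- the field `K₂`
  obtain ⟨K₂, _, _, _, _, _, i₂, κ', θ', S', n', hi, lκ', hS', hθ', hκ't, hex', hsplit, hmem1,
    hmemN⟩ := hSplit p k K i ℓ v₀ hv₀ℓ hord'
  subst hi
  obtain ⟨n₀, hn₀⟩ := d.ray
  obtain ⟨n₂, hη₂⟩ := hn₀.pull (L := K₂)
  -- the place `w₀`
  have hkg : KW.Kap.kap ℓ g.1 = Recip.nres ℓ v₀ := kap_frobAt hv₀ℓ hg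
  obtain ⟨hmg, hκ'g⟩ := hmemN g hkg
  obtain ⟨A, hA, hF⟩ := id hg
  obtain ⟨q, hq, hqv⟩ := exists_prime_mem v₀
  have hAq : A.LiesOverPrime q := hA.natCast_mem_iff.mp hqv
  obtain ⟨w₀, hw₀⟩ := exists_over_of_liesOver i₂ hq hAq
  have hwv : w₀.under (𝓞 K) = v₀ := hw₀.under.unique hA
  obtain ⟨hθw₀, hfw₀⟩ := hsplit w₀ hwv
  have hFw : FrobAt (⟨g.1, hmg⟩ : GK i₂) w₀ := by
    refine ⟨A, hw₀, ?_⟩
    rw [absNorm_eq_pow_fdeg (K := K) w₀, hfw₀, pow_one, hwv]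
    exact hF
  have hw₀S' : w₀ ∉ S' := by
    rw [hS', ← natCast_mem_under (K := K), hwv]
    exact hv₀ℓ
  have hw₀S : w₀ ∉ above K₂ S := by
    rw [mem_above, hwv]
    exact hv₀S
  have hηw₀ : pull K₂ η w₀ = η v₀ := by rw [pull, hfw₀, one_smul, hwv]
  -- the data over `K₂`
  have htors₂ : ∀ w, w ∉ above K₂ S → p ^ (k + 1) • pull K₂ η w = 0 := by
    intro w hw
    rw [mem_above] at hw
    rw [pull, smul_comm, d.tors _ hw, nsmul_zero]
  have hne₂ : ∃ w, w ∉ above K₂ S ∧ p ^ k • pull K₂ η w ≠ 0 := by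
    refine ⟨w₀, hw₀S, fun h0 => hXg ?_⟩
    rw [hηw₀] at h0
    rw [d.exX v₀ hv₀S g hg, ← toMul_nsmul, h0, toMul_zero]
  obtain ⟨X₂, F₂, d₂⟩ := exists_dat hExt hTor hE i₂ hη₂ htors₂ hne₂
  have hX₂ : ∀ φ : GK i₂, X₂ φ = X (res K i₂ φ) := by
    refine eq_of_frob (ψ' := X.comp (res K i₂)) (T := above K₂ S) d₂.lX d.lX.res
      fun w hw φ hφ => ?_
    have hw' := hw
    rw [mem_above] at hw'
    obtain ⟨g', hg', e⟩ := frob_res (ψ := X) (fun A hA g hg => (d.unr _ hw' A hA g hg).1) hφ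
    change _ = X (CFTP.res K i₂ φ)
    rw [e, d₂.exX w hw φ hφ, d.exX _ hw' g' hg', pull, toMul_nsmul, ← pow_mul, ← pow_mul, mul_comm]
  obtain ⟨G₂, lG₂, hG₂1, hG₂⟩ := claim hExt hTor hAux hE d₂
  -- comparison of `G` and `G₂`
  let Li₂ : IntermediateField ℚ (AlgebraicClosure ℚ) := i₂.toRatAlgHom.fieldRange
  have hLi₂ : FiniteDimensional ℚ Li₂ :=
    LinearEquiv.finiteDimensional (AlgEquiv.ofInjectiveField i₂.toRatAlgHom).toLinearEquiv
  have hM : FiniteDimensional ℚ (L ⊔ Li₂ : IntermediateField ℚ (AlgebraicClosure ℚ)) :=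
    IntermediateField.finiteDimensional_sup _ _
  obtain ⟨T, θ, κ, P, u, hu, hκu⟩ :=
    exists_pair (p := p) (k := k) hAux (i₂.comp (algebraMap K K₂)) (L ⊔ Li₂)
  have hXu : X u = 1 := hLX u fun x hx => hu x ((le_sup_left : L ≤ L ⊔ Li₂) hx)
  have hu₂ : u.1 ∈ GK i₂ := fun x => hu _ ((le_sup_right : Li₂ ≤ L ⊔ Li₂) ⟨x, rfl⟩)
  have hcmp : ∀ φ : GK i₂, G₂ φ = G (res K i₂ φ) := by
    let ω : GK i₂ →* U := G₂ * (G.comp (res K i₂))⁻¹
    have hω : ∀ φ, ω φ = G₂ φ * (G (res K i₂ φ))⁻¹ := fun _ => rfl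
    have lω : Lev ω := by
      refine lG₂.mul ?_
      obtain ⟨L', hL', h⟩ := lG.res (K := K) (i' := i₂)
      exact ⟨L', hL', fun g hg => by rw [MonoidHom.inv_apply, h g hg, inv_one]⟩
    have hκp : ∀ φ : GK i₂, (κ.comp (res K i₂) ^ p ^ k) φ ≠ 1 → ω φ = 1 := by
      refine dens' (T := above K₂ S ∪ above K₂ T) (P.art.1.res.pow _) lω
        fun w hw hprime φ hφ hκφ => ?_
      rw [Finset.mem_union, not_or] at hw
      have h1 := hG₂ _ _ _ P.res ⟨⟨u.1, hu₂⟩, by rw [hX₂]; exact hXu, hκu⟩ w hw.1 hw.2 φ hφ hκφ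
      rw [mem_above, mem_above] at hw
      have hfd : fdeg K w = 1 := by
        rw [absNorm_eq_pow_fdeg (K := K) w] at hprime
        by_contra hf
        rcases Nat.lt_or_gt_of_ne hf with h | h
        · have h0 : fdeg K w = 0 := by omega
          rw [h0, pow_zero] at hprime
          exact Nat.not_prime_one hprime
        · exact Nat.Prime.not_prime_pow h hprime
      have hφK : FrobAt (res K i₂ φ) (w.under (𝓞 K)) := by
        obtain ⟨A, hA, hF⟩ := hφ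
        refine ⟨A, hA.under, ?_⟩
        rw [absNorm_eq_pow_fdeg (K := K) w, hfd, pow_one] at hF
        exact hF
      have h2 := hG T θ κ P ⟨u, hXu, hκu⟩ _ hw.1 hw.2 (res K i₂ φ) hφK hκφ
      rw [hω, h1, h2, pull, hfd, one_smul, mul_inv_cancel]
    intro φ
    have h3 := eq_one_of_off hκp ⟨⟨u.1, hu₂⟩, hκu⟩ φ
    rw [hω, mul_inv_eq_one] at h3
    exact h3
  -- the pair `(θ', κ')` at `w₀`
  have P' : Pair p k i₂ S' θ' κ' := ⟨⟨n', hθ'⟩, ⟨lκ', hex'⟩, hκ't⟩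
  obtain ⟨hhm, hκ'h⟩ := hmemN hK hh
  have h1 := hG₂ S' θ' κ' P' ⟨⟨hK.1, hhm⟩, by rw [hX₂]; exact hXh, hκ'h⟩ w₀ hw₀S hw₀S'
    ⟨g.1, hmg⟩ hFw hκ'g
  rw [hcmp, hηw₀] at h1
  exact h1

/-- **The induction step.** -/
theorem ex_succ (hExt : ExtStmt) (hTor : TorStmt) (hAux : AuxStmt) (hSplit : SplitStmt)
    (hPrime : PrimeStmt) (hE : Ex p k) : Ex p (k + 1) := by
  intro K _ _ _ i S n η hη hpη
  by_cases hne : ∃ v, v ∉ S ∧ p ^ k • η v ≠ 0
  · obtain ⟨X, F, d⟩ := exists_dat hExt hTor hE i hη hpη hne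
    exact exact_all hExt hTor hAux hSplit hPrime hE d
  · push Not at hne
    exact hE K i S n η hη hne

/-- **The existence theorem for characters of order `p ^ k`.** -/
theorem ex_of (hExt : ExtStmt) (hTor : TorStmt) (hAux : AuxStmt) (hSplit : SplitStmt)
    (hPrime : PrimeStmt) (k : ℕ) : Ex p k := by
  induction k with
  | zero =>
    intro K _ _ _ i S n η hη hpη
    refine ⟨1, ⟨⊥, inferInstance, fun _ _ => rfl⟩, fun v hv g _ => ?_⟩
    have h1 := hpη v hv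
    rw [pow_zero, one_smul] at h1
    rw [h1]
    rfl
  | succ k ih => exact ex_succ hExt hTor hAux hSplit hPrime ih

end Fermat.Agent.Cor.HCF
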