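import Fermat.Agent.Corollaries.HCF.Defs3
import Fermat.Agent.Corollaries.Rel.OfRay

/-!
# A ray class character with values in an abelian group factors through a ray class group
-/

set_option autoImplicit false
set_option linter.unusedSectionVars false

noncomputable section

namespace Fermat.Agent.Cor.HCF

open NumberField IsDedekindDomain
open Fermat.Agent.Cor.Rel (divI divI_span divI_pI pI)
open Fermat.Agent.LT (IsRay rayVal divVal divVal_single rayVal_apply)
open Fermat.Agent.CFT.SUnits (ord div)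
open Fermat.Agent.CFT.Global (cong mem_cong)
open Fermat.Agent.Cor.Ray (RayClass rayCl Cop RayEq rayCon isCoprime_span_iff)
open scoped nonZeroDivisors Classical

variable {K : Type} [Field K] [NumberField K]

/-- the value at an integral ideal -/
def valI {A : Type} [CommGroup A] (S : Finset (HeightOneSpectrum (𝓞 K)))
    (η : HeightOneSpectrum (𝓞 K) → Additive A) : (Ideal (𝓞 K))⁰ →* Multiplicative (Additive A) :=
  (AddMonoidHom.toMultiplicative (divVal S η)).comp (divI K)

/-- the modulus `∏_{v ∈ S} v ^ (n + 1)` -/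
def modul (S : Finset (HeightOneSpectrum (𝓞 K))) (n : ℕ) : Ideal (𝓞 K) :=
  ∏ v ∈ S, v.asIdeal ^ (n + 1)

theorem modul_ne_bot (S : Finset (HeightOneSpectrum (𝓞 K))) (n : ℕ) : modul S n ≠ ⊥ :=
  Finset.prod_ne_zero_iff.mpr fun v _ => pow_ne_zero _ v.ne_bot

theorem dvd_modul_iff (S : Finset (HeightOneSpectrum (𝓞 K))) (n : ℕ)
    (v : HeightOneSpectrum (𝓞 K)) : v.asIdeal ∣ modul S n ↔ v ∈ S := by
  constructor
  · intro h
    have hprime : Prime v.asIdeal := v.prime
    obtain ⟨w, hw, hvw⟩ := (Prime.dvd_finsetProd_iff hprime _).mp h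
    have h1 := hprime.dvd_of_dvd_pow hvw
    have h2 : w.asIdeal ≤ v.asIdeal := Ideal.le_of_dvd h1
    have h3 : w.asIdeal = v.asIdeal := w.isMaximal.eq_of_le v.isPrime.ne_top h2
    have h4 : v = w := HeightOneSpectrum.ext h3.symm
    exact h4 ▸ hw
  · intro hv
    exact (dvd_pow_self _ (Nat.succ_ne_zero n)).trans
      (Finset.dvd_prod_of_mem (fun v : HeightOneSpectrum (𝓞 K) => v.asIdeal ^ (n + 1)) hv)

theorem mem_cong_of_rayEq {S : Finset (HeightOneSpectrum (𝓞 K))} {n : ℕ} {a b : 𝓞 K}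
    (hc : IsCoprime (Ideal.span {b}) (modul S n)) (hab : a - b ∈ modul S n) {x : Kˣ}
    (hb : b ≠ 0)
    (hx : (x : K) = algebraMap (𝓞 K) K a / algebraMap (𝓞 K) K b)
    {v : HeightOneSpectrum (𝓞 K)} (hv : v ∈ S) : x ∈ cong v n := by
  have hb0 : algebraMap (𝓞 K) K b ≠ 0 := by
    rw [Ne, map_eq_zero_iff _ (FaithfulSMul.algebraMap_injective (𝓞 K) K)]
    exact hb
  have hbv : b ∉ v.asIdeal := by
    intro h
    obtain ⟨c, hc⟩ := isCoprime_span_iff.1 hc
    have h1 : c * b - 1 ∈ v.asIdeal :=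
      Ideal.le_of_dvd ((dvd_modul_iff S n v).2 hv) hc
    have h2 : (1 : 𝓞 K) ∈ v.asIdeal := by
      have h3 := v.asIdeal.sub_mem (v.asIdeal.mul_mem_left c h) h1
      rwa [sub_sub_cancel] at h3
    exact v.isPrime.ne_top ((Ideal.eq_top_iff_one _).2 h2)
  have hval : v.valuation K (algebraMap (𝓞 K) K b) = 1 := by
    rw [HeightOneSpectrum.valuation_of_algebraMap, HeightOneSpectrum.intValuation_eq_one_iff]
    exact hbv
  have hmem : a - b ∈ v.asIdeal ^ (n + 1) :=
    Ideal.le_of_dvd (Finset.dvd_prod_of_mem (fun v : HeightOneSpectrum (𝓞 K) =>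
      v.asIdeal ^ (n + 1)) hv) hab
  have h2 := (v.intValuation_le_pow_iff_mem (a - b) (n + 1)).mpr hmem
  have h3 : (x : K) - 1 = algebraMap (𝓞 K) K (a - b) / algebraMap (𝓞 K) K b := by
    rw [hx, map_sub, sub_div, div_self hb0]
  rw [mem_cong, h3, map_div₀, hval, div_one, HeightOneSpectrum.valuation_of_algebraMap]
  exact_mod_cast h2

/-- **(O)** A ray class character with values in `A` factors through a ray class group. -/
theorem factorStmt : FactorStmt := by
  intro K _ _ A _ S n η hη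
  have hle : rayCon (modul S n) ≤ Con.ker ((valI S η).comp (Cop (modul S n)).subtype) := by
    intro I J hIJ
    obtain ⟨a, b, ha, hb, hc, hab, he⟩ := (hIJ : RayEq (modul S n) I.1 J.1)
    rw [Con.ker_rel]
    change valI S η I.1 = valI S η J.1
    have hcb : IsCoprime (Ideal.span {b}) (modul S n) := by
      rw [isCoprime_span_iff] at hc ⊢
      obtain ⟨c, hc⟩ := hc
      refine ⟨c, ?_⟩
      have : c * b - 1 = (c * a - 1) - c * (a - b) := by ring
      rw [this]
      exact Ideal.sub_mem _ hc (Ideal.mul_mem_left _ c hab)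
    have hspan : ∀ {c : 𝓞 K}, c ≠ 0 → Ideal.span {c} ∈ (Ideal (𝓞 K))⁰ := fun {c} hc =>
      mem_nonZeroDivisors_of_ne_zero (by rwa [Ne, Ideal.zero_eq_bot, Ideal.span_singleton_eq_bot])
    have he' : (⟨Ideal.span {a}, hspan ha⟩ : (Ideal (𝓞 K))⁰) * I.1 =
        ⟨Ideal.span {b}, hspan hb⟩ * J.1 := Subtype.ext he
    have hinj := FaithfulSMul.algebraMap_injective (𝓞 K) K
    have ha0 : algebraMap (𝓞 K) K a ≠ 0 := by rwa [Ne, map_eq_zero_iff _ hinj]
    have hb0 : algebraMap (𝓞 K) K b ≠ 0 := by rwa [Ne, map_eq_zero_iff _ hinj]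
    have hv : ∀ {c : 𝓞 K} (hc : c ≠ 0) (hc0 : algebraMap (𝓞 K) K c ≠ 0),
        valI S η ⟨Ideal.span {c}, hspan hc⟩ = rayVal S η (Units.mk0 _ hc0) := by
      intro c hc hc0
      change AddMonoidHom.toMultiplicative (divVal S η) (divI K _) = _
      rw [divI_span (a := c) rfl (x := Units.mk0 _ hc0) rfl]
      rfl
    have h1 := congrArg (valI S η) he'
    rw [map_mul, map_mul, hv ha ha0, hv hb hb0] at h1
    have h2 : rayVal S η (Units.mk0 _ ha0 / Units.mk0 _ hb0) = 1 :=
      hη _ fun v hvS => mem_cong_of_rayEq hcb hab hb (by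
        rw [Units.val_div_eq_div_val, Units.val_mk0, Units.val_mk0]) hvS
    rw [map_div, div_eq_one] at h2
    rw [h2] at h1
    exact mul_left_cancel h1
  let e : Multiplicative (Additive A) →* A :=
    { toFun := fun x => x.toAdd.toMul
      map_one' := rfl
      map_mul' := fun _ _ => rfl }
  refine ⟨modul S n, modul_ne_bot S n, e.comp ((rayCon (modul S n)).lift _ hle), fun v => ?_,
    fun v I hI => ?_⟩
  · rw [← dvd_modul_iff S n v, Ideal.dvd_iff_le]
  · have h1 : (I.1 : (Ideal (𝓞 K))⁰) = pI v := Subtype.ext hI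
    have hvS : v ∉ S := by
      intro hv
      have h2 : IsCoprime (I.1 : Ideal (𝓞 K)) (modul S n) := I.2
      rw [hI, Ideal.isCoprime_iff_sup_eq] at h2
      have h3 : modul S n ≤ v.asIdeal := Ideal.le_of_dvd ((dvd_modul_iff S n v).2 hv)
      rw [sup_eq_left.2 h3] at h2
      exact v.isPrime.ne_top h2
    change (valI S η I.1).toAdd.toMul = _
    rw [h1]
    change (AddMonoidHom.toMultiplicative (divVal S η) (divI K (pI v))).toAdd.toMul = _
    rw [divI_pI]
    change (divVal S η (Finsupp.single v 1)).toMul = _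
    rw [divVal_single S η hvS, one_smul]

end Fermat.Agent.Cor.HCF
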