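import Fermat.Agent.Corollaries.HCF.Defs2

set_option autoImplicit false

/-!
# The norm of divisors

* `normDiv K D`: the norm of a divisor `D` of `L`; `normDiv_div`: the norm of the divisor of `β` is
  the divisor of `N β`;
* `divVal_eq_zero`: a function which is constant on the fibres is zero at the divisors of norm zero.
-/

namespace Fermat.Agent.Cor.HCF

open IsDedekindDomain NumberField
open Fermat.Agent.LT
open Fermat.Agent.CFT.SUnits (ord ord_one ord_mul ord_inv ord_pow ord_div div div_apply)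
open Fermat.Agent.CFT.Global (cong normU above mem_above)
open Fermat.Agent.LT.NV (fdeg edeg_fdeg_eq ord_normU_eq_sum)
open Fermat.Agent.LT.Psi (finite_under)

section Basic

variable {F : Type*} [Field F] [NumberField F] {A : Type*} [AddCommGroup A]

theorem divVal_of_zero {S : Finset (HeightOneSpectrum (𝓞 F))} (η : HeightOneSpectrum (𝓞 F) → A)
    {D : HeightOneSpectrum (𝓞 F) →₀ ℤ} (h : ∀ v, v ∉ S → D v = 0) : divVal S η D = 0 := by
  classical
  rw [divVal_apply, Finsupp.sum]
  refine Finset.sum_eq_zero fun v _ => ?_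
  by_cases hv : v ∈ S
  · rw [if_pos hv]
  · rw [if_neg hv, h v hv, zero_smul]

open Classical in
/-- `D ↦ divVal S η D` with `η v = Φ (v)`. -/
theorem divVal_of_hom (S : Finset (HeightOneSpectrum (𝓞 F)))
    (Φ : (HeightOneSpectrum (𝓞 F) →₀ ℤ) →+ A) (D : HeightOneSpectrum (𝓞 F) →₀ ℤ) :
    divVal S (fun v => Φ (Finsupp.single v 1)) D = Φ (D.filter (· ∉ S)) := by
  let f : (HeightOneSpectrum (𝓞 F) →₀ ℤ) →+ (HeightOneSpectrum (𝓞 F) →₀ ℤ) :=
    Finsupp.filterAddHom (· ∉ S)
  have h : divVal S (fun v => Φ (Finsupp.single v 1)) = Φ.comp f := by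
    refine Finsupp.addHom_ext fun v m => ?_
    have hf : f (Finsupp.single v m) = (Finsupp.single v m).filter (· ∉ S) := rfl
    rw [AddMonoidHom.comp_apply, hf]
    by_cases hv : v ∈ S
    · rw [divVal_single_of_mem S _ hv, Finsupp.filter_single_of_neg (p := fun x => x ∉ S) (not_not.mpr hv), map_zero]
    · rw [divVal_single S _ hv, Finsupp.filter_single_of_pos (p := fun x => x ∉ S) hv, ← map_zsmul,
        Finsupp.smul_single, smul_eq_mul, mul_one]
  rw [h]
  rfl

end Basic

variable {K L : Type*} [Field K] [NumberField K] [Field L] [NumberField L] [Algebra K L]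

/-- the norm of a divisor -/
noncomputable def normDiv (K : Type*) {L : Type*} [Field K] [NumberField K] [Field L]
    [NumberField L] [Algebra K L] :
    (HeightOneSpectrum (𝓞 L) →₀ ℤ) →+ (HeightOneSpectrum (𝓞 K) →₀ ℤ) :=
  Finsupp.liftAddHom fun w =>
    (Finsupp.singleAddHom (w.under (𝓞 K))).comp (AddMonoidHom.mulLeft (fdeg K w : ℤ))

theorem normDiv_single (w : HeightOneSpectrum (𝓞 L)) (m : ℤ) :
    normDiv K (Finsupp.single w m) = Finsupp.single (w.under (𝓞 K)) (fdeg K w * m) := by
  rw [normDiv, Finsupp.liftAddHom_apply_single]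
  rfl

theorem normDiv_apply (D : HeightOneSpectrum (𝓞 L) →₀ ℤ) (v : HeightOneSpectrum (𝓞 K)) :
    normDiv K D v = ∑ w ∈ (finite_under (L := L) v).toFinset, (fdeg K w : ℤ) * D w := by
  classical
  induction D using Finsupp.induction_linear with
  | zero =>
    rw [map_zero, Finsupp.zero_apply, Finset.sum_eq_zero]
    intro w _
    rw [Finsupp.zero_apply, mul_zero]
  | add f g hf hg =>
    rw [map_add, Finsupp.add_apply, hf, hg, ← Finset.sum_add_distrib]
    refine Finset.sum_congr rfl fun w _ => ?_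
    rw [Finsupp.add_apply, mul_add]
  | single w m =>
    rw [normDiv_single]
    by_cases hw : w.under (𝓞 K) = v
    · subst hw
      rw [Finsupp.single_eq_same, Finset.sum_eq_single w]
      · rw [Finsupp.single_eq_same]
      · intro w' _ hw'
        rw [Finsupp.single_eq_of_ne hw', mul_zero]
      · intro h
        exact absurd (by rw [Set.Finite.mem_toFinset, Set.mem_ofPred_eq]) h
    · rw [Finsupp.single_eq_of_ne (Ne.symm hw), Finset.sum_eq_zero]
      intro w' hw'
      rw [Set.Finite.mem_toFinset, Set.mem_ofPred_eq] at hw'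
      rw [Finsupp.single_eq_of_ne, mul_zero]
      rintro rfl
      exact hw hw'

theorem normDiv_div [IsGalois K L] (β : Lˣ) :
    normDiv K (div β : HeightOneSpectrum (𝓞 L) →₀ ℤ) = div (normU (K := K) L β) := by
  ext v
  rw [normDiv_apply, div_apply, ord_normU_eq_sum]
  rfl

/-- The fibre lemma. -/
theorem divVal_eq_zero [IsGalois K L] {A : Type*} [AddCommGroup A]
    {S : Finset (HeightOneSpectrum (𝓞 K))} {η' : HeightOneSpectrum (𝓞 L) → A}
    (hinv : ∀ w w' : HeightOneSpectrum (𝓞 L), w.under (𝓞 K) = w'.under (𝓞 K) →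
      w.under (𝓞 K) ∉ S → η' w = η' w') {D : HeightOneSpectrum (𝓞 L) →₀ ℤ}
    (hD : ∀ v, v ∉ S → normDiv K D v = 0) : divVal (above L S) η' D = 0 := by
  classical
  choose W hW using fun v : HeightOneSpectrum (𝓞 K) =>
    Fermat.Agent.CFT.Places.exists_below_eq L v
  let f : (HeightOneSpectrum (𝓞 L) →₀ ℤ) →+ (HeightOneSpectrum (𝓞 K) →₀ ℤ) :=
    Finsupp.mapDomain.addMonoidHom (fun w => w.under (𝓞 K))
  have hf : ∀ w m, f (Finsupp.single w m) = Finsupp.single (w.under (𝓞 K)) m := fun w m =>
    Finsupp.mapDomain_single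
  have h1 : divVal (above L S) η' = (divVal S fun v => η' (W v)).comp f := by
    refine Finsupp.addHom_ext fun w m => ?_
    rw [AddMonoidHom.comp_apply, hf]
    by_cases hw : w.under (𝓞 K) ∈ S
    · rw [divVal_single_of_mem _ _ hw, divVal_single_of_mem _ _ ((mem_above L).mpr hw)]
    · rw [divVal_single _ _ hw, divVal_single _ _ (fun h => hw ((mem_above L).mp h)),
        hinv w (W (w.under (𝓞 K))) (hW _).symm hw]
  have h2 : ∀ (D : HeightOneSpectrum (𝓞 L) →₀ ℤ) v,
      (fdeg K (W v) : ℤ) * f D v = normDiv K D v := by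
    intro D v
    induction D using Finsupp.induction_linear with
    | zero => rw [map_zero, map_zero, Finsupp.zero_apply, mul_zero]
    | add a b ha hb => rw [map_add, map_add, Finsupp.add_apply, Finsupp.add_apply, mul_add, ha, hb]
    | single w m =>
      rw [hf, normDiv_single]
      by_cases hw : w.under (𝓞 K) = v
      · subst hw
        rw [Finsupp.single_eq_same, Finsupp.single_eq_same, (edeg_fdeg_eq (hW _)).2]
      · rw [Finsupp.single_eq_of_ne (Ne.symm hw), Finsupp.single_eq_of_ne (Ne.symm hw), mul_zero]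
  rw [h1, AddMonoidHom.comp_apply]
  apply divVal_of_zero
  intro v hv
  have h3 := h2 D v
  rw [hD v hv] at h3
  have h4 : (fdeg K (W v) : ℤ) ≠ 0 := by
    have h5 : fdeg K (W v) ≠ 0 := by
      intro h0
      have h6 := Fermat.Agent.Cor.CFTP.absNorm_eq_pow_fdeg (K := K) (W v)
      rw [h0, pow_zero] at h6
      exact (NumberField.HeightOneSpectrum.one_lt_absNorm (W v)).ne' h6
    exact_mod_cast h5
  exact (mul_eq_zero.mp h3).resolve_left h4

end Fermat.Agent.Cor.HCF
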