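import Fermat.Agent.Corollaries.HCF.All2
import Fermat.Agent.Corollaries.HCF.Final

set_option autoImplicit false

/-!
# Class field theory of totally complex fields, values in a finite abelian group

`K` totally complex, `A` a finite abelian group.

* `exists_hom`: every ray class character `η` with values in `A` and modulus on `S` is given by a
  continuous `Ψ : G_K → A`, unramified outside `S`, `Ψ (Frob_v) = η v` for all `v ∉ S`;
* `exists_isRay`: the converse;
* `exists_classField`: **the existence theorem**: if the `η v` generate `A` there is a Galois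
  extension `L/K` with group `A`, unramified outside `S`, with Frobenius elements `η v`;
* `artin_reciprocity_field`: **Artin's reciprocity law** for an abelian extension `L/K`, unramified
  outside `S`: the Artin map is trivial on the principal divisors of `x ≡ 1 mod v^(n+1)`, `v ∈ S`.
-/

namespace Fermat.Agent.Cor.HCF

open IsDedekindDomain NumberField
open Fermat.Agent.Frob Fermat.Agent.FrobDensity Fermat.Agent.Minkowski
open Fermat.Agent.LT Fermat.Agent.LT.Tower.Fr
open Fermat.Agent.Cor.Diff (GK FrobAt exists_nat_mem)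
open Fermat.Agent.Cor.CFTP (C Lev restrHom restrHom_apply restrHom_eq_one_iff lev_restrHom
  restrHom_inertia exists_frob exists_frobAt_all exists_frobAt_over isFrobeniusAt_inertia_mul
  exists_field_of_surjective edeg_eq_one_of_inertia fdeg_eq_one_iff eq_of_isArithFrobAt)
open Fermat.Agent.LT.NV (edeg fdeg)

variable {A : Type} [CommGroup A]

/-- A function of the Frobenius elements is unramified. -/
theorem unr_of_frob {K : Type*} [Field K] [NumberField K] {i : K →+* AlgebraicClosure ℚ}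
    {Ψ : GK i →* A} {v : HeightOneSpectrum (𝓞 K)} {a : A} (h : ∀ g : GK i, FrobAt g v → Ψ g = a)
    {B : ValuationSubring (AlgebraicClosure ℚ)} (hB : Over i B v) {g : GK i}
    (hg : g.1 ∈ B.inertiaSubgroupIn ℚ) : Ψ g = 1 := by
  obtain ⟨φ, hφ⟩ := exists_frobAt_over hB
  have h1 := h φ ⟨B, hB, hφ⟩
  have h2 := h (g * φ) ⟨B, hB, isFrobeniusAt_inertia_mul hg hφ⟩
  rw [map_mul, h1] at h2
  exact mul_eq_right.mp h2

variable [Finite A] {K : Type} [Field K] [NumberField K] [IsTotallyComplex K]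
  {S : Finset (HeightOneSpectrum (𝓞 K))} {n : ℕ}

/-- **Existence**, values in `A`. -/
theorem exists_hom (i : K →+* AlgebraicClosure ℚ) {η : HeightOneSpectrum (𝓞 K) → Additive A}
    (hη : IsRay S n η) : ∃ Ψ : GK i →* A, Lev Ψ ∧
      (∀ v, v ∉ S → ∀ B : ValuationSubring (AlgebraicClosure ℚ), Over i B v → ∀ g : GK i,
        g.1 ∈ B.inertiaSubgroupIn ℚ → Ψ g = 1) ∧
      ∀ v, v ∉ S → ∀ g : GK i, FrobAt g v → Ψ g = (η v).toMul := by
  have hex : ∀ χ : A →* U, ∃ ψ : GK i →* U, Art i S (fun v => MonoidHom.toAdditive χ (η v)) ψ := by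
    intro χ
    obtain ⟨ψ, lψ, -, h⟩ := artin_existence_all i (hη.comp (MonoidHom.toAdditive χ))
      (m := Nat.card A) Nat.card_pos.ne' (fun v _ => by
        rw [← map_nsmul]
        have h1 : Nat.card A • η v = 0 := by
          apply Additive.toMul.injective
          rw [toMul_nsmul, pow_card_eq_one', toMul_zero]
        rw [h1, map_zero])
    exact ⟨ψ, lψ, h⟩
  choose ψ hψ using hex
  have hmul : ∀ χ χ', ψ (χ * χ') = ψ χ * ψ χ' := fun χ χ' =>
    (hψ (χ * χ')).unique ((hψ χ).mul (hψ χ'))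
  have hone : ψ 1 = 1 := by
    have h := hmul 1 1
    have h0 : (1 * 1 : A →* U) = 1 := MonoidHom.ext fun c => one_mul _
    rw [h0] at h
    ext1 g
    have h1 : ψ 1 g = ψ 1 g * ψ 1 g := DFunLike.congr_fun h g
    exact mul_eq_left.mp h1.symm
  let Φ : GK i →* ((A →* U) →* U) :=
    { toFun := fun g =>
        { toFun := fun χ => ψ χ g
          map_one' := by rw [hone]; rfl
          map_mul' := fun χ χ' => by rw [hmul]; rfl }
      map_one' := by
        ext1 χ
        exact map_one (ψ χ)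
      map_mul' := fun g h => by
        ext1 χ
        exact map_mul (ψ χ) g h }
  let Ψ : GK i →* A :=
    (CommGroup.monoidHomMonoidHomEquiv A (AlgebraicClosure ℚ)).toMonoidHom.comp Φ
  have hΨ : ∀ g χ, χ (Ψ g) = ψ χ g := fun g χ =>
    CommGroup.apply_monoidHomMonoidHomEquiv (AlgebraicClosure ℚ) χ (Φ g)
  have hfrob : ∀ v, v ∉ S → ∀ g : GK i, FrobAt g v → Ψ g = (η v).toMul := by
    intro v hv g hg
    rw [← CommGroup.forall_apply_eq_apply_iff (G := A) (M := AlgebraicClosure ℚ)]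
    intro χ
    rw [hΨ, (hψ χ).2 v hv g hg]
    rfl
  refine ⟨Ψ, ?_, fun v hv B hB g hg => unr_of_frob (hfrob v hv) hB hg, hfrob⟩
  choose L hL h using fun χ => (hψ χ).1
  have hc : Nat.card (A →* U) = Nat.card A :=
    CommGroup.card_monoidHom_of_hasEnoughRootsOfUnity _ (AlgebraicClosure ℚ)
  have hfin : Finite (A →* U) := Nat.finite_of_card_ne_zero (by
    rw [hc]
    exact Nat.card_pos.ne')
  refine ⟨⨆ χ, L χ, IntermediateField.finiteDimensional_iSup_of_finite, fun g hg => ?_⟩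
  rw [← CommGroup.forall_apply_eq_apply_iff (G := A) (M := AlgebraicClosure ℚ)]
  intro χ
  rw [hΨ, map_one]
  exact h χ g fun x hx => hg x ((le_iSup L χ : L χ ≤ ⨆ χ, L χ) hx)

/-- **Reciprocity**, values in `A`. -/
theorem exists_isRay {i : K →+* AlgebraicClosure ℚ} {Ψ : GK i →* A} (lΨ : Lev Ψ)
    (hu : ∀ v, v ∉ S → ∀ B : ValuationSubring (AlgebraicClosure ℚ), Over i B v → ∀ g : GK i,
      g.1 ∈ B.inertiaSubgroupIn ℚ → Ψ g = 1) :
    ∃ (n : ℕ) (η : HeightOneSpectrum (𝓞 K) → Additive A), IsRay S n η ∧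
      ∀ v, v ∉ S → ∀ g : GK i, FrobAt g v → Ψ g = (η v).toMul := by
  classical
  have hc : Nat.card (A →* U) = Nat.card A :=
    CommGroup.card_monoidHom_of_hasEnoughRootsOfUnity _ (AlgebraicClosure ℚ)
  have hfin : Finite (A →* U) := Nat.finite_of_card_ne_zero (by
    rw [hc]
    exact Nat.card_pos.ne')
  have := Fintype.ofFinite (A →* U)
  have hex : ∀ χ : A →* U, ∃ (n : ℕ) (η : HeightOneSpectrum (𝓞 K) → Additive U), IsRay S n η ∧
      ∀ v, v ∉ S → ∀ g : GK i, FrobAt g v → (χ.comp Ψ) g = (η v).toMul := by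
    intro χ
    refine artin_reciprocity_all (ψ := χ.comp Ψ) ?_ fun v hv B hB g hg => ?_
    · obtain ⟨M, hM, h⟩ := lΨ
      exact ⟨M, hM, fun g hg => by rw [MonoidHom.comp_apply, h g hg, map_one]⟩
    · rw [MonoidHom.comp_apply, hu v hv B hB g hg, map_one]
  choose n η hη hηΨ using hex
  choose φ hφ using fun v => exists_frobAt_all i v
  have hcomp : ∀ (χ : A →* U) v, v ∉ S →
      η χ v = MonoidHom.toAdditive χ (Additive.ofMul (Ψ (φ v))) := by
    intro χ v hv
    have h1 := hηΨ χ v hv (φ v) (hφ v)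
    apply Additive.toMul.injective
    rw [← h1]
    rfl
  refine ⟨∑ χ, n χ, fun v => Additive.ofMul (Ψ (φ v)), fun x hx => ?_, fun v hv g hg => ?_⟩
  · have key : ∀ χ : A →* U, χ ((rayVal S (fun v => Additive.ofMul (Ψ (φ v))) x).toAdd).toMul =
        χ 1 := by
      intro χ
      have h1 : IsRay S (n χ) (fun v => MonoidHom.toAdditive χ (Additive.ofMul (Ψ (φ v)))) :=
        isRay_congr (hcomp χ) (hη χ)
      have h2 := h1 x fun v hv => Fermat.Agent.CFT.Global.cong_anti v
        (Finset.single_le_sum (f := n) (fun _ _ => Nat.zero_le _) (Finset.mem_univ χ)) (hx v hv)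
      have h3 := rayVal_comp (MonoidHom.toAdditive χ) S (fun v => Additive.ofMul (Ψ (φ v))) x
      rw [h2, toAdd_one] at h3
      rw [map_one]
      exact (congrArg Additive.toMul h3).symm
    have h4 := (CommGroup.forall_apply_eq_apply_iff (G := A) (M := AlgebraicClosure ℚ)).mp key
    exact toAdd_eq_zero.mp (toMul_eq_one.mp h4)
  · -- all Frobenius elements have the same value
    rw [toMul_ofMul]
    rw [← CommGroup.forall_apply_eq_apply_iff (G := A) (M := AlgebraicClosure ℚ)]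
    intro χ
    have h1 := hηΨ χ v hv g hg
    have h2 := hηΨ χ v hv (φ v) (hφ v)
    exact h1.trans h2.symm

/-- **The existence theorem**: the class field of a ray class character with values in `A`. -/
theorem exists_classField {η : HeightOneSpectrum (𝓞 K) → Additive A} (hη : IsRay S n η)
    (hgen : ∀ H : Subgroup A, (∀ v, v ∉ S → (η v).toMul ∈ H) → ∀ a, a ∈ H) :
    ∃ (L : Type) (_ : Field L) (_ : NumberField L) (_ : Algebra K L) (_ : IsGalois K L)
      (e : (L ≃ₐ[K] L) ≃* A), ∀ w : HeightOneSpectrum (𝓞 L), w.under (𝓞 K) ∉ S →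
        (w.under (𝓞 K)).asIdeal.ramificationIdx' w.asIdeal = 1 ∧
        (∀ σ : L ≃ₐ[K] L, IsArithFrobAt (𝓞 K) σ w.asIdeal → e σ = (η (w.under (𝓞 K))).toMul) ∧
        ((w.under (𝓞 K)).asIdeal.inertiaDeg' w.asIdeal = 1 ↔ η (w.under (𝓞 K)) = 0) := by
  have i₀ : K →ₐ[ℚ] AlgebraicClosure ℚ := IsAlgClosed.lift
  obtain ⟨Ψ, lΨ, uΨ, hΨ⟩ := exists_hom (i₀ : K →+* AlgebraicClosure ℚ) hη
  have sΨ : Function.Surjective Ψ := by
    rw [← MonoidHom.range_eq_top, eq_top_iff]
    intro a _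
    refine hgen _ (fun v hv => ?_) a
    obtain ⟨g, hg⟩ := exists_frobAt_all (i₀ : K →+* AlgebraicClosure ℚ) v
    exact ⟨g, hΨ v hv g hg⟩
  obtain ⟨L, fL, nL, aL, gL, j, e, hj, he⟩ :=
    exists_field_of_surjective (i₀ : K →+* AlgebraicClosure ℚ) Ψ lΨ sΨ
  generalize (i₀ : K →+* AlgebraicClosure ℚ) = i at Ψ lΨ uΨ hΨ sΨ hj he
  subst hj
  have hres : ∀ g : GK (j.comp (algebraMap K L)), e (restrHom j g) = Ψ g := by
    intro g
    have h1 : e.symm (Ψ g) = restrHom j g := by
      ext x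
      apply j.injective
      rw [he, restrHom_apply]
    rw [← h1, MulEquiv.apply_symm_apply]
  have hfix : ∀ g : GK (j.comp (algebraMap K L)), g.1 ∈ GK j ↔ Ψ g = 1 := by
    intro g
    rw [← restrHom_eq_one_iff, ← e.map_eq_one_iff, hres]
  have hin : ∀ (w : HeightOneSpectrum (𝓞 L)) (B : ValuationSubring (AlgebraicClosure ℚ)),
      Over j B w → w.under (𝓞 K) ∉ S → ∀ τ ∈ B.inertiaSubgroupIn ℚ,
        (∀ x : K, τ (j (algebraMap K L x)) = j (algebraMap K L x)) →
          ∀ x : L, τ (j x) = j x := by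
    intro w B hB hw τ hτ hτK
    exact (hfix ⟨τ, hτK⟩).mpr (uΨ _ hw B hB.under ⟨τ, hτK⟩ hτ)
  refine ⟨L, fL, nL, aL, gL, e, fun w hw => ?_⟩
  obtain ⟨q, B, hq, hBq, hB⟩ := exists_over j w
  obtain ⟨g, hg⟩ := exists_frobAt_over (hB.under (F := K))
  have hunr : edeg K w = 1 := edeg_eq_one_of_inertia hB (hin w B hB hw)
  refine ⟨hunr, fun σ hσ => ?_, ?_⟩
  · rw [← eq_of_isArithFrobAt hB hunr hσ hg, hres]
    exact hΨ _ hw g ⟨B, hB.under, hg⟩
  · have h1 := fdeg_eq_one_iff hB (hin w B hB hw) (g := g.1) g.2 hg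
    change fdeg K w = 1 ↔ _
    rw [h1]
    change g.1 ∈ GK j ↔ _
    rw [hfix, hΨ _ hw g ⟨B, hB.under, hg⟩, toMul_eq_one]

/-- **Artin's reciprocity law for abelian extensions of a totally complex field**: `L/K` Galois with
abelian group `A`, unramified outside `S`; for some `n` the Artin map is trivial on the (divisors
of the) elements `≡ 1 mod v^(n+1)`, `v ∈ S`. -/
theorem artin_reciprocity_field {L : Type} [Field L] [NumberField L] [Algebra K L] [IsGalois K L]
    (e : (L ≃ₐ[K] L) ≃* A) (hS : ∀ w : HeightOneSpectrum (𝓞 L), w.under (𝓞 K) ∉ S →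
      (w.under (𝓞 K)).asIdeal.ramificationIdx' w.asIdeal = 1) :
    ∃ (n : ℕ) (η : HeightOneSpectrum (𝓞 K) → Additive A), IsRay S n η ∧
      ∀ w : HeightOneSpectrum (𝓞 L), w.under (𝓞 K) ∉ S →
        (∀ σ : L ≃ₐ[K] L, IsArithFrobAt (𝓞 K) σ w.asIdeal → e σ = (η (w.under (𝓞 K))).toMul) ∧
        ((w.under (𝓞 K)).asIdeal.inertiaDeg' w.asIdeal = 1 ↔ η (w.under (𝓞 K)) = 0) := by
  have j₀ : L →ₐ[ℚ] AlgebraicClosure ℚ := IsAlgClosed.lift
  set j : L →+* AlgebraicClosure ℚ := (j₀ : L →+* AlgebraicClosure ℚ) with hj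
  clear_value j
  have lΨ : Lev (e.toMonoidHom.comp (restrHom (K := K) j)) := by
    obtain ⟨N, hN, h⟩ := lev_restrHom (K := K) j
    exact ⟨N, hN, fun g hg => by rw [MonoidHom.comp_apply, h g hg, map_one]⟩
  have uΨ : ∀ v, v ∉ S → ∀ B : ValuationSubring (AlgebraicClosure ℚ),
      Over (j.comp (algebraMap K L)) B v → ∀ g : GK (j.comp (algebraMap K L)),
        g.1 ∈ B.inertiaSubgroupIn ℚ → (e.toMonoidHom.comp (restrHom (K := K) j)) g = 1 := by
    intro v hv B hB g hg
    obtain ⟨q, hq, hqv⟩ := exists_prime_mem v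
    have hBq : B.LiesOverPrime q := hB.natCast_mem_iff.mp hqv
    obtain ⟨w, hw⟩ := exists_over_of_liesOver j hq hBq
    have hwv : w.under (𝓞 K) = v := hw.under.unique hB
    rw [MonoidHom.comp_apply, restrHom_inertia j hw (hS w (by rwa [hwv])) hg, map_one]
  obtain ⟨n, η, hη, h⟩ := exists_isRay lΨ uΨ
  refine ⟨n, η, hη, fun w hw => ?_⟩
  obtain ⟨q, B, hq, hBq, hB⟩ := exists_over j w
  obtain ⟨g, hg⟩ := exists_frobAt_over (hB.under (F := K))
  have hval := h _ hw g ⟨B, hB.under, hg⟩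
  refine ⟨fun σ hσ => ?_, ?_⟩
  · rw [← eq_of_isArithFrobAt hB (hS w hw) hσ hg, ← hval]
    rfl
  · have hin : ∀ τ ∈ B.inertiaSubgroupIn ℚ,
        (∀ x : K, τ (j (algebraMap K L x)) = j (algebraMap K L x)) →
          ∀ x : L, τ (j x) = j x := by
      intro τ hτ hτK
      exact (restrHom_eq_one_iff j ⟨τ, hτK⟩).mp (restrHom_inertia j hB (hS w hw) hτ)
    have h1 := fdeg_eq_one_iff hB hin (g := g.1) g.2 hg
    change fdeg K w = 1 ↔ _
    rw [h1]
    change g.1 ∈ GK j ↔ _
    rw [← restrHom_eq_one_iff, ← toMul_eq_one, ← hval, MonoidHom.comp_apply]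
    exact e.map_eq_one_iff.symm

end Fermat.Agent.Cor.HCF
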