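import Fermat.Agent.Corollaries.HCF.Defs2

set_option autoImplicit false

/-!
# Elements which are norms from the field of a character of order `p`

`exists_norm`: `K ∋ ζ_p` totally complex, `χ : G_K → ℤ/p` unramified outside `S`, `L` its field:
`a` which is close to one at `v ∈ S` and has order divisible by `p` at all `v ∉ S` which are not
split in `L` is the norm of an element of `L`.
-/

namespace Fermat.Agent.Cor.HCF

open IsDedekindDomain NumberField Polynomial
open Fermat.Agent.Frob Fermat.Agent.LT Fermat.Agent.LT.Tower.Fr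
open Fermat.Agent.Cor.Diff (GK FrobAt)
open Fermat.Agent.Minkowski Fermat.Agent.FrobDensity
open Fermat.Agent.Cor.CFTP (Lev ConvKum.exists_kummer ConvKum.mem_range_of_fixed
  sym_unit_of_inertia frob_fix_iff_mem_locPow exists_frobAt_over)
open Fermat.Agent.CFT.SUnits (ord ord_one ord_mul ord_inv ord_pow ord_div div div_apply)
open Fermat.Agent.CFT.Global (cong normU above locPow LocalSymbols cong_anti
  exists_cong_le_locPow)

variable {p : ℕ} [hp : Fact p.Prime]

/-- **Norms from the field of a character of order `p`.** -/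
theorem exists_norm {K : Type} [Field K] [NumberField K] [IsTotallyComplex K] {ζ : K}
    (hζ : IsPrimitiveRoot ζ p) {L : Type} [Field L] [NumberField L] [Algebra K L]
    {j : L →+* AlgebraicClosure ℚ}
    {χ : GK (j.comp (algebraMap K L)) →* Fermat.Agent.Cor.CFTP.C p} (lχ : Lev χ)
    (hχ : ∃ g, χ g ≠ 1) (hiff : ∀ g : GK (j.comp (algebraMap K L)), g.1 ∈ GK j ↔ χ g = 1)
    (hd : Module.finrank K L = p) {S : Finset (HeightOneSpectrum (𝓞 K))}
    (hu : ∀ v, v ∉ S → ∀ A : ValuationSubring (AlgebraicClosure ℚ),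
      Over (j.comp (algebraMap K L)) A v → ∀ g : GK (j.comp (algebraMap K L)),
        g.1 ∈ A.inertiaSubgroupIn ℚ → χ g = 1) :
    ∃ N : ℕ, ∀ a : Kˣ, (∀ v ∈ S, a ∈ cong v N) →
      (∀ v, v ∉ S → (∀ g : GK (j.comp (algebraMap K L)), FrobAt g v → χ g = 1) ∨
        (p : ℤ) ∣ ord v a) → ∃ β : Lˣ, normU (K := K) L β = a := by
  classical
  obtain ⟨b, α, hα, hψ⟩ := ConvKum.exists_kummer hζ _ χ lχ
  obtain ⟨LS, -, -, -⟩ := Fermat.Agent.CFT.Global2.exists_productFormula (p := p) K hζ
  choose n hn using fun v : HeightOneSpectrum (𝓞 K) => exists_cong_le_locPow p hp.out.ne_zero v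
  -- the Kummer generator
  obtain ⟨α', rfl⟩ := ConvKum.mem_range_of_fixed j (x := α) (fun g => by
    have h1 : g.1 ∈ GK (j.comp (algebraMap K L)) := fun x => g.2 _
    exact (hψ ⟨g.1, h1⟩).mp ((hiff ⟨g.1, h1⟩).mp g.2))
  have hα' : α' ^ p = algebraMap K L b := j.injective (by rw [map_pow, hα]; rfl)
  have hnb : ∀ c : Kˣ, c ^ p ≠ b := by
    rintro c rfl
    obtain ⟨g, hg⟩ := hχ
    apply hg
    rw [hψ]
    have hz : IsPrimitiveRoot (algebraMap K L ζ) p := hζ.map_of_injective (algebraMap K L).injective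
    have hc0 : algebraMap K L c ≠ 0 := by
      rw [Ne, map_eq_zero]
      exact c.ne_zero
    have h1 : (α' / algebraMap K L c) ^ p = 1 := by
      rw [div_pow, hα', Units.val_pow_eq_pow_val, map_pow, div_self (pow_ne_zero _ hc0)]
    obtain ⟨s, -, hs⟩ := hz.eq_pow_of_pow_eq_one h1
    have h2 : α' = algebraMap K L (ζ ^ s * c) := by
      rw [map_mul, map_pow, hs, div_mul_cancel₀ _ hc0]
    rw [h2]
    exact g.2 _
  have hirr : Irreducible (X ^ p - C (b : K)) := by
    apply X_pow_sub_C_irreducible_of_prime hp.out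
    intro c hc
    have hc0 : c ≠ 0 := by
      rintro rfl
      rw [zero_pow hp.out.ne_zero] at hc
      exact b.ne_zero hc.symm
    exact hnb (Units.mk0 c hc0) (Units.ext (by rw [Units.val_pow_eq_pow_val]; exact hc))
  have hirrF : Fact (Irreducible (X ^ p - C (b : K))) := ⟨hirr⟩
  let φ : AdjoinRoot (X ^ p - C (b : K)) →ₐ[K] L :=
    AdjoinRoot.liftAlgHom _ (Algebra.ofId K L) α' (by
      rw [eval₂_sub, eval₂_X_pow, eval₂_C, hα']
      exact sub_self _)
  have hf : (X ^ p - C (b : K) : K[X]) ≠ 0 := X_pow_sub_C_ne_zero hp.out.pos _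
  have : FiniteDimensional K (AdjoinRoot (X ^ p - C (b : K))) := (AdjoinRoot.powerBasis hf).finite
  have hfd : FiniteDimensional K L := Module.finite_of_finrank_pos (by rw [hd]; exact hp.out.pos)
  have hdim : Module.finrank K (AdjoinRoot (X ^ p - C (b : K))) = Module.finrank K L := by
    rw [(AdjoinRoot.powerBasis hf).finrank, AdjoinRoot.powerBasis_dim, natDegree_X_pow_sub_C, hd]
  have hinj : Function.Injective φ := φ.toRingHom.injective
  have hsurj : Function.Surjective φ :=
    (LinearMap.injective_iff_surjective_of_finrank_eq_finrank hdim (f := φ.toLinearMap)).mp hinj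
  let e : AdjoinRoot (X ^ p - C (b : K)) ≃ₐ[K] L := AlgEquiv.ofBijective φ ⟨hinj, hsurj⟩
  refine ⟨∑ v ∈ S, n v, fun a haS ha => ?_⟩
  obtain ⟨z, hz⟩ := Fermat.Agent.CFT.Global2.hasse_norm_all hζ LS (a := b) hnb a (fun v => by
    by_cases hv : v ∈ S
    · have h1 : a ∈ locPow p v := hn v (cong_anti v (Finset.single_le_sum (f := n)
        (fun _ _ => Nat.zero_le _) hv) (haS v hv))
      have h2 := LS.skew v b a
      rwa [(LS.mem_locPow_iff v a).mp h1 b, mul_one] at h2
    · obtain ⟨q, A, hq, hAq, hA⟩ := exists_over (j.comp (algebraMap K L)) v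
      have hfix : ∀ g : GK (j.comp (algebraMap K L)), g.1 ∈ A.inertiaSubgroupIn ℚ →
          g.1 (j α') = j α' := fun g hg => (hψ g).mp (hu v hv A hA g hg)
      rcases ha v hv with h | ⟨c, hc⟩
      · obtain ⟨g, hg⟩ := exists_frobAt_over hA
        have h1 : b ∈ locPow p v := (frob_fix_iff_mem_locPow hζ hα hA hfix hg).mp
          ((hψ g).mp (h g ⟨A, hA, hg⟩))
        exact (LS.mem_locPow_iff v b).mp h1 a
      · obtain ⟨π, hπ⟩ := Fermat.Agent.CFT.Global.exists_ord_eq_one (K := K) v
        have hord : ∀ m : ℤ, ord v (π ^ m) = m := by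
          intro m
          rcases m.eq_nat_or_neg with ⟨m, rfl | rfl⟩
          · rw [zpow_natCast, ord_pow, hπ, mul_one]
          · rw [zpow_neg, zpow_natCast, ord_inv, ord_pow, hπ, mul_one]
        have h1 : ord v (a / (π ^ c) ^ p) = 0 := by
          rw [ord_div, ord_pow, hord, hc, sub_self]
        have h2 := sym_unit_of_inertia hζ LS hα hA hfix h1
        rw [_root_.map_div, map_pow, div_eq_one] at h2
        rw [h2]
        apply Multiplicative.toAdd.injective
        rw [toAdd_pow, toAdd_one, nsmul_eq_mul, CharP.cast_eq_zero, zero_mul])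
  have h1 : Algebra.norm K (e z) = a := by
    rw [Algebra.norm_eq_of_algEquiv e z, hz]
  have h0 : e z ≠ 0 := by
    intro h
    rw [h, Algebra.norm_zero] at h1
    exact a.ne_zero h1.symm
  exact ⟨Units.mk0 (e z) h0, Units.ext h1⟩

end Fermat.Agent.Cor.HCF
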