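import Fermat.Agent.Corollaries.HCF.Defs3

set_option autoImplicit false
set_option linter.unusedSectionVars false

/-!
# The tautological ray class character
-/

noncomputable section

namespace Fermat.Agent.Cor.HCF

open NumberField IsDedekindDomain WithZero
open Fermat.Agent.LT (IsRay rayVal divVal divVal_single divVal_apply rayVal_apply)
open Fermat.Agent.Cor.Ray (RayClass rayCl Cop rayClassCommGroup RayEq rayCl_eq_iff
  rayCl_surjective isCoprime_span_iff)
open Fermat.Agent.CFT.SUnits (ord div idealOf idealOf_add idealOf_zero idealOf_div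
  idealOf_injective idealOf_surjective)
open Fermat.Agent.CFT.Global (cong mem_cong)
open scoped nonZeroDivisors Classical

variable {K : Type} [Field K] [NumberField K]

variable (K) in
/-- divisors and fractional ideals -/
def dvEquiv : Multiplicative (HeightOneSpectrum (𝓞 K) →₀ ℤ) ≃* (FractionalIdeal (𝓞 K)⁰ K)ˣ :=
  MulEquiv.ofBijective
    ({ toFun := fun D => idealOf K D.toAdd
       map_one' := idealOf_zero K
       map_mul' := fun _ _ => idealOf_add K _ _ } :
      Multiplicative (HeightOneSpectrum (𝓞 K) →₀ ℤ) →* (FractionalIdeal (𝓞 K)⁰ K)ˣ)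
    ⟨fun _ _ h => Multiplicative.toAdd.injective (idealOf_injective K h), fun I => by
      obtain ⟨D, hD⟩ := idealOf_surjective (R := 𝓞 K) (K := K) I
      exact ⟨Multiplicative.ofAdd D, hD⟩⟩

theorem dvEquiv_apply (D : HeightOneSpectrum (𝓞 K) →₀ ℤ) :
    dvEquiv K (Multiplicative.ofAdd D) = idealOf K D := rfl

variable (K) in
/-- the divisor of an ideal -/
def dvI : (Ideal (𝓞 K))⁰ →* Multiplicative (HeightOneSpectrum (𝓞 K) →₀ ℤ) :=
  (dvEquiv K).symm.toMonoidHom.comp (FractionalIdeal.mk0 K)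

theorem dvI_eq_iff (I : (Ideal (𝓞 K))⁰) (D : HeightOneSpectrum (𝓞 K) →₀ ℤ) :
    dvI K I = Multiplicative.ofAdd D ↔ FractionalIdeal.mk0 K I = idealOf K D := by
  rw [← dvEquiv_apply]
  exact (dvEquiv K).symm_apply_eq

theorem dvI_asIdeal (v : HeightOneSpectrum (𝓞 K)) {I : (Ideal (𝓞 K))⁰}
    (hI : (I : Ideal (𝓞 K)) = v.asIdeal) :
    dvI K I = Multiplicative.ofAdd (Finsupp.single v 1) := by
  rw [dvI_eq_iff, idealOf, Finsupp.prod_single_index (zpow_zero _), zpow_one]
  refine Units.ext ?_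
  rw [FractionalIdeal.coe_mk0, hI]
  rfl

theorem dvI_span {I : (Ideal (𝓞 K))⁰} {a : 𝓞 K} (hI : (I : Ideal (𝓞 K)) = Ideal.span {a})
    {x : Kˣ} (hx : (x : K) = algebraMap (𝓞 K) K a) : dvI K I = Multiplicative.ofAdd (div x) := by
  rw [dvI_eq_iff, idealOf_div]
  apply Units.ext
  rw [coe_toPrincipalIdeal, FractionalIdeal.coe_mk0, hI, hx, FractionalIdeal.coeIdeal_span_singleton]

theorem dv_mul (x y : Kˣ) :
    (div (x * y) : HeightOneSpectrum (𝓞 K) →₀ ℤ) = div x + div y := by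
  have h := map_mul (Fermat.Agent.LT.divHom (F := K)) x y
  exact Multiplicative.ofAdd.injective h

theorem not_le_of_isCoprime_place {m : Ideal (𝓞 K)} {v : HeightOneSpectrum (𝓞 K)}
    (h : IsCoprime v.asIdeal m) : ¬ m ≤ v.asIdeal := by
  intro hle
  rw [Ideal.isCoprime_iff_sup_eq, sup_eq_left.mpr hle] at h
  exact v.isPrime.ne_top h

/-- a homomorphism on the ideals prime to `m` is given by its values at the places -/
theorem divVal_dvI {m : Ideal (𝓞 K)} {S : Finset (HeightOneSpectrum (𝓞 K))}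
    (hS : ∀ v, v ∈ S ↔ m ≤ v.asIdeal) {A : Type} [AddCommGroup A]
    (f : Cop m →* Multiplicative A) (η : HeightOneSpectrum (𝓞 K) → A)
    (hη : ∀ (v : HeightOneSpectrum (𝓞 K)) (I : Cop m), (I.1 : Ideal (𝓞 K)) = v.asIdeal →
      η v = (f I).toAdd) (I : Cop m) :
    divVal S η (dvI K I.1).toAdd = (f I).toAdd := by
  have key : ∀ I : Ideal (𝓞 K), ∀ (hI : I ∈ (Ideal (𝓞 K))⁰)
      (hc : (⟨I, hI⟩ : (Ideal (𝓞 K))⁰) ∈ Cop m),
      divVal S η (dvI K ⟨I, hI⟩).toAdd = (f ⟨⟨I, hI⟩, hc⟩).toAdd := by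
    intro I
    induction I using UniqueFactorizationMonoid.induction_on_prime with
    | h₁ => intro hI; exact absurd rfl (nonZeroDivisors.ne_zero hI)
    | h₂ I hu =>
      intro hI hc
      have h1 : I = 1 := by rwa [isUnit_iff_eq_one] at hu
      subst h1
      have h2 : (⟨1, hI⟩ : (Ideal (𝓞 K))⁰) = 1 := rfl
      have h3 : (⟨⟨1, hI⟩, hc⟩ : Cop m) = 1 := rfl
      rw [h3, h2, map_one (dvI K), map_one f, toAdd_one, toAdd_one, map_zero]
    | h₃ a p ha hp ih =>
      intro hI hc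
      have hc' : IsCoprime (p * a) m := hc
      have hp0 : p ∈ (Ideal (𝓞 K))⁰ := mem_nonZeroDivisors_of_ne_zero hp.ne_zero
      have ha0 : a ∈ (Ideal (𝓞 K))⁰ := mem_nonZeroDivisors_of_ne_zero ha
      have hpm : IsCoprime p m := hc'.of_mul_left_left
      have ham : IsCoprime a m := hc'.of_mul_left_right
      let v : HeightOneSpectrum (𝓞 K) := ⟨p, Ideal.isPrime_of_prime hp, hp.ne_zero⟩
      have hv : v ∉ S := fun h => not_le_of_isCoprime_place (v := v) hpm ((hS v).1 h)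
      have h1 : (⟨p * a, hI⟩ : (Ideal (𝓞 K))⁰) = ⟨p, hp0⟩ * ⟨a, ha0⟩ := rfl
      have h2 : (⟨⟨p * a, hI⟩, hc⟩ : Cop m) = ⟨⟨p, hp0⟩, hpm⟩ * ⟨⟨a, ha0⟩, ham⟩ := rfl
      rw [h2, h1, map_mul (dvI K), map_mul f, toAdd_mul, toAdd_mul, map_add, ih ha0 ham,
        dvI_asIdeal v (I := ⟨p, hp0⟩) rfl, toAdd_ofAdd, divVal_single S η hv, one_smul,
        hη v ⟨⟨p, hp0⟩, hpm⟩ rfl]
  exact key I.1.1 I.1.2 I.2

/-- a number congruent to an integral one at the places of `m` is a quotient of integers with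
denominator prime to `m` -/
theorem exists_frac {m : Ideal (𝓞 K)} (hm : m ≠ ⊥) {x : K}
    (hx : ∀ v : HeightOneSpectrum (𝓞 K), m ≤ v.asIdeal → v.valuation K x ≤ 1) :
    ∃ a b : 𝓞 K, b ≠ 0 ∧ IsCoprime (Ideal.span {b}) m ∧
      x * algebraMap (𝓞 K) K b = algebraMap (𝓞 K) K a := by
  let D : Ideal (𝓞 K) :=
    { carrier := {b | ∃ a : 𝓞 K, x * algebraMap (𝓞 K) K b = algebraMap (𝓞 K) K a}
      add_mem' := by
        rintro b b' ⟨a, ha⟩ ⟨a', ha'⟩
        exact ⟨a + a', by rw [map_add, map_add, mul_add, ha, ha']⟩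
      zero_mem' := ⟨0, by rw [map_zero, mul_zero]⟩
      smul_mem' := by
        rintro c b ⟨a, ha⟩
        exact ⟨c * a, by rw [smul_eq_mul, map_mul, map_mul, mul_left_comm, ha]⟩ }
  have htop : D ⊔ m = ⊤ := by
    by_contra h
    obtain ⟨M, hM, hle⟩ := Ideal.exists_le_maximal _ h
    have hmM : m ≤ M := le_sup_right.trans hle
    let v : HeightOneSpectrum (𝓞 K) := ⟨M, hM.isPrime, fun h0 => hm (by
      rw [h0] at hmM; exact le_bot_iff.mp hmM)⟩
    obtain ⟨c, d, hd⟩ := v.exists_primeCompl_mul_eq_of_integer x (hx v hmM)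
    exact d.2 (hle (Ideal.mem_sup_left (show (d : 𝓞 K) ∈ D from ⟨c, hd⟩)))
  obtain ⟨b, hb, m', hm', h1⟩ := Submodule.mem_sup.1 (show (1 : 𝓞 K) ∈ D ⊔ m by
    rw [htop]; exact Submodule.mem_top)
  by_cases hb0 : b = 0
  · subst hb0
    have hm1 : m = ⊤ := by
      rw [Ideal.eq_top_iff_one, ← h1, zero_add]
      exact hm'
    obtain ⟨r, s, hs, hrs⟩ := IsFractionRing.div_surjective (A := 𝓞 K) x
    have hs0 : s ≠ 0 := nonZeroDivisors.ne_zero hs
    have hs1 : algebraMap (𝓞 K) K s ≠ 0 := by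
      rw [Ne, map_eq_zero_iff _ (FaithfulSMul.algebraMap_injective (𝓞 K) K)]
      exact hs0
    refine ⟨r, s, hs0, ?_, ?_⟩
    · rw [hm1, Ideal.isCoprime_iff_sup_eq, sup_top_eq]
    · rw [← hrs, div_mul_cancel₀ _ hs1]
  · obtain ⟨a, ha⟩ := hb
    refine ⟨a, b, hb0, isCoprime_span_iff.2 ⟨1, ?_⟩, ha⟩
    have h2 : 1 * b - 1 = -m' := by linear_combination h1
    rw [h2]
    exact m.neg_mem hm'

theorem exists_exponent {m : Ideal (𝓞 K)} (hm : m ≠ ⊥) {S : Finset (HeightOneSpectrum (𝓞 K))}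
    (hS : ∀ v, v ∈ S ↔ m ≤ v.asIdeal) :
    ∃ n : ℕ, ∏ v ∈ S, v.asIdeal ^ (n + 1) ≤ m := by
  obtain ⟨n, hn⟩ := Ideal.exists_radical_pow_le_of_fg m (IsNoetherian.noetherian _)
  refine ⟨n, le_trans ?_ hn⟩
  rw [Finset.prod_pow]
  have h1 : ∏ v ∈ S, v.asIdeal ≤ m.radical := by
    rw [Ideal.radical_eq_sInf]
    refine le_sInf ?_
    rintro P ⟨hmP, hP⟩
    have hP0 : P ≠ ⊥ := fun h0 => hm (by rw [h0] at hmP; exact le_bot_iff.mp hmP)
    obtain ⟨w, hw⟩ : ∃ w : HeightOneSpectrum (𝓞 K), w.asIdeal = P := ⟨⟨P, hP, hP0⟩, rfl⟩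
    have hwS : w ∈ S := (hS w).2 (by rw [hw]; exact hmP)
    have h3 : w.asIdeal ∣ ∏ v ∈ S, v.asIdeal :=
      Finset.dvd_prod_of_mem (fun v : HeightOneSpectrum (𝓞 K) => v.asIdeal) hwS
    rw [← hw]
    exact Ideal.le_of_dvd h3
  exact (Ideal.pow_le_pow_right (Nat.le_succ n)).trans (Ideal.pow_right_mono h1 n)

theorem finite_places {m : Ideal (𝓞 K)} (hm : m ≠ ⊥) :
    {v : HeightOneSpectrum (𝓞 K) | m ≤ v.asIdeal}.Finite := by
  have h := Ideal.finite_factors hm
  refine h.subset fun v hv => ?_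
  exact Ideal.dvd_iff_le.2 hv

/-- **(N) The tautological ray class character.** -/
theorem rayClStmt : RayClStmt := by
  intro K _ _ m hm
  let _ := rayClassCommGroup m hm
  let S : Finset (HeightOneSpectrum (𝓞 K)) := (finite_places hm).toFinset
  have hS : ∀ v, v ∈ S ↔ m ≤ v.asIdeal := fun v => by
    rw [Set.Finite.mem_toFinset]; rfl
  obtain ⟨n, hn⟩ := exists_exponent hm hS
  let f : Cop m →* Multiplicative (Additive (RayClass m)) :=
    { toFun := fun I => Multiplicative.ofAdd (Additive.ofMul (rayCl m I))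
      map_one' := by rw [map_one]; rfl
      map_mul' := fun I J => by rw [map_mul]; rfl }
  let η : HeightOneSpectrum (𝓞 K) → Additive (RayClass m) := fun v =>
    if h : IsCoprime v.asIdeal m then
      Additive.ofMul (rayCl m ⟨⟨v.asIdeal, mem_nonZeroDivisors_of_ne_zero v.ne_bot⟩, h⟩) else 0
  have hη : ∀ (v : HeightOneSpectrum (𝓞 K)) (I : Cop m), (I.1 : Ideal (𝓞 K)) = v.asIdeal →
      η v = Additive.ofMul (rayCl m I) := by
    intro v I hI
    have h1 : IsCoprime v.asIdeal m := by rw [← hI]; exact I.2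
    have h2 : (⟨⟨v.asIdeal, mem_nonZeroDivisors_of_ne_zero v.ne_bot⟩, h1⟩ : Cop m) = I :=
      Subtype.ext (Subtype.ext hI.symm)
    simp only [η]
    rw [dif_pos h1, h2]
  have key : ∀ I : Cop m, divVal S η (dvI K I.1).toAdd = Additive.ofMul (rayCl m I) :=
    fun I => divVal_dvI hS f η hη I
  refine ⟨S, n, η, hS, ?_, hη, ?_⟩
  · intro x hx
    have hcong : ∀ v ∈ S, v.valuation K ((x : K) - 1) ≤ exp (-((n : ℤ) + 1)) := fun v hv =>
      mem_cong.1 (hx v hv)
    obtain ⟨a, b, hb0, hbm, hab⟩ := exists_frac hm (x := (x : K)) fun v hv => by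
      have h1 := hcong v ((hS v).2 hv)
      have h2 : v.valuation K ((x : K) - 1) ≤ 1 := h1.trans (by
        rw [← exp_zero, exp_le_exp]; omega)
      have h3 : (x : K) = ((x : K) - 1) + 1 := by ring
      rw [h3]
      exact (Valuation.map_add _ _ _).trans (max_le h2 (by rw [map_one]))
    have hinj := FaithfulSMul.algebraMap_injective (𝓞 K) K
    have hb1 : algebraMap (𝓞 K) K b ≠ 0 := by rwa [Ne, map_eq_zero_iff _ hinj]
    have ha1 : algebraMap (𝓞 K) K a ≠ 0 := by rw [← hab]; exact mul_ne_zero x.ne_zero hb1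
    have ha0 : a ≠ 0 := by
      rintro rfl
      exact ha1 (map_zero _)
    have hmem : a - b ∈ m := by
      refine hn ?_
      rw [← Ideal.span_singleton_le_iff_mem, ← Ideal.dvd_iff_le]
      refine Finset.prod_dvd_of_coprime ?_ fun v hv => ?_
      · intro v _ w _ hvw
        refine IsCoprime.pow ?_
        rw [Ideal.isCoprime_iff_sup_eq]
        exact v.isMaximal.coprime_of_ne w.isMaximal fun h => hvw (HeightOneSpectrum.ext h)
      · rw [Ideal.dvd_iff_le, Ideal.span_singleton_le_iff_mem,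
          ← v.intValuation_le_pow_iff_mem]
        have h1 : v.valuation K (algebraMap (𝓞 K) K (a - b)) ≤ exp (-((n : ℤ) + 1)) := by
          have h2 : algebraMap (𝓞 K) K (a - b) = ((x : K) - 1) * algebraMap (𝓞 K) K b := by
            rw [map_sub, ← hab]; ring
          rw [h2, map_mul]
          calc v.valuation K ((x : K) - 1) * v.valuation K (algebraMap (𝓞 K) K b)
              ≤ exp (-((n : ℤ) + 1)) * 1 :=
                mul_le_mul' (hcong v hv) (v.valuation_le_one b)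
            _ = _ := mul_one _
        rw [HeightOneSpectrum.valuation_of_algebraMap] at h1
        exact_mod_cast h1
    obtain ⟨c, hc⟩ := isCoprime_span_iff.1 hbm
    have ham : IsCoprime (Ideal.span {a}) m := by
      refine isCoprime_span_iff.2 ⟨c, ?_⟩
      have h1 : c * a - 1 = (c * b - 1) + c * (a - b) := by ring
      rw [h1]
      exact m.add_mem hc (m.mul_mem_left c hmem)
    have hspa : Ideal.span {a} ∈ (Ideal (𝓞 K))⁰ :=
      mem_nonZeroDivisors_of_ne_zero (by rwa [Ne, Ideal.zero_eq_bot, Ideal.span_singleton_eq_bot])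
    have hspb : Ideal.span {b} ∈ (Ideal (𝓞 K))⁰ :=
      mem_nonZeroDivisors_of_ne_zero (by rwa [Ne, Ideal.zero_eq_bot, Ideal.span_singleton_eq_bot])
    let Ia : Cop m := ⟨⟨Ideal.span {a}, hspa⟩, ham⟩
    let Ib : Cop m := ⟨⟨Ideal.span {b}, hspb⟩, hbm⟩
    have heq : rayCl m Ia = rayCl m Ib := by
      refine rayCl_eq_iff.2 ⟨b, a, hb0, ha0, hbm, ?_, ?_⟩
      · rw [← neg_sub]; exact m.neg_mem hmem
      · exact mul_comm _ _
    have hka := key Ia
    have hkb := key Ib
    rw [dvI_span (I := Ia.1) (a := a) rfl (x := x * Units.mk0 _ hb1) (by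
      rw [Units.val_mul, Units.val_mk0, hab]), toAdd_ofAdd, dv_mul, map_add, heq, ← hkb,
      dvI_span (I := Ib.1) (a := b) rfl (x := Units.mk0 _ hb1) rfl, toAdd_ofAdd,
      add_eq_right] at hka
    rw [rayVal_apply, hka]
    rfl
  · intro H hH x
    obtain ⟨I, rfl⟩ := rayCl_surjective x
    have h1 : divVal S η (dvI K I.1).toAdd ∈ Subgroup.toAddSubgroup H := by
      rw [divVal_apply]
      refine AddSubgroup.sum_mem _ fun v _ => ?_
      change (if v ∈ S then (0 : Additive (RayClass m)) else (dvI K I.1).toAdd v • η v) ∈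
        Subgroup.toAddSubgroup H
      by_cases hv : v ∈ S
      · rw [if_pos hv]
        exact zero_mem _
      · rw [if_neg hv]
        exact AddSubgroup.zsmul_mem (Subgroup.toAddSubgroup H)
          (show η v ∈ Subgroup.toAddSubgroup H from hH v hv) _
    rw [key I] at h1
    exact h1

end Fermat.Agent.Cor.HCF

end
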