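import Fermat.Agent.Corollaries.HCF.Groups
import Fermat.Agent.Corollaries.HCF.Defs3
import Fermat.Agent.Corollaries.ChebK.Bauer

set_option autoImplicit false

/-!
# Ray class fields of a totally complex number field

* `IsRayClassField K 𝔪 L`: `L / K` is Galois, unramified outside `𝔪`, with an isomorphism
  `Gal(L/K) ≃ RayClass 𝔪` which maps the Frobenius elements to the classes of the places;
* `exists_rayClassField_of`: it exists for every `𝔪 ≠ 0`;
* `IsRayClassField.nonempty_algEquiv`: it is unique;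
* `exists_algHom_rayClassField_of`: every abelian extension of `K` embeds in a ray class field.
-/

namespace Fermat.Agent.Cor.HCF

open IsDedekindDomain NumberField
open Fermat.Agent.LT Fermat.Agent.LT.Tower.Fr
open Fermat.Agent.Cor.CFTP (absNorm_eq_pow_fdeg)
open Fermat.Agent.LT.NV (edeg fdeg)
open Fermat.Agent.Cor.ChebK (HasDegOne SplitsCompletely Unr nonempty_algHom_of_density
  hasDensity_of_finite finite_not_unr splitsCompletely_iff)
open Fermat.Agent.Cor.Ray (RayClass rayCl Cop rayClassCommGroup RayEq isCoprime_span_iff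
  rayCl_eq_iff finite_rayClass)
open scoped nonZeroDivisors

section Bauer

variable {K L M : Type*} [Field K] [NumberField K] [Field L] [NumberField L] [Field M]
  [NumberField M] [Algebra K L] [Algebra K M] [IsGalois K L]

/-- Bauer's theorem in terms of residue degrees. -/
theorem nonempty_algHom_of_fdeg (S : Finset (HeightOneSpectrum (𝓞 K)))
    (h : ∀ u : HeightOneSpectrum (𝓞 M), u.under (𝓞 K) ∉ S → fdeg K u = 1 →
      ∀ w : HeightOneSpectrum (𝓞 L), w.under (𝓞 K) = u.under (𝓞 K) → fdeg K w = 1) :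
    Nonempty (L →ₐ[K] M) := by
  refine nonempty_algHom_of_density
    (Q := (S : Set (HeightOneSpectrum (𝓞 K))) ∪ {v | ¬ Unr L v})
    (hasDensity_of_finite (S.finite_toSet.union (finite_not_unr K L))) fun v hv hdeg => ?_
  rw [Set.mem_union, not_or] at hv
  obtain ⟨hvS, hvU⟩ := hv
  have hU : Unr L v := by
    by_contra h1
    exact hvU h1
  obtain ⟨u, rfl, hu⟩ := hdeg
  rw [absNorm_eq_pow_fdeg (K := K) u] at hu
  have h1 : 1 < Ideal.absNorm (u.under (𝓞 K)).asIdeal :=
    NumberField.HeightOneSpectrum.one_lt_absNorm _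
  have hf : fdeg K u = 1 := by
    have h2 : Ideal.absNorm (u.under (𝓞 K)).asIdeal ^ fdeg K u =
        Ideal.absNorm (u.under (𝓞 K)).asIdeal ^ 1 := by rw [hu, pow_one]
    exact Nat.pow_right_injective h1 h2
  rw [splitsCompletely_iff]
  refine ⟨hU, fun w hw => ?_⟩
  rw [absNorm_eq_pow_fdeg (K := K) w, h u hvS hf w hw, pow_one, hw]

end Bauer

section RayEq

variable {K : Type*} [Field K] [NumberField K] {m : Ideal (𝓞 K)}

theorem exists_of_mul_eq {a b : 𝓞 K} {J : Ideal (𝓞 K)} (ha : a ≠ 0)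
    (hc : IsCoprime (Ideal.span {a}) m) (hab : a - b ∈ m)
    (he : Ideal.span {a} * J = Ideal.span {b}) : ∃ c : 𝓞 K, c - 1 ∈ m ∧ J = Ideal.span {c} := by
  have h2 : b ∈ Ideal.span {a} * J := by
    rw [he]
    exact Ideal.mem_span_singleton_self b
  obtain ⟨c, -, rfl⟩ := Ideal.mem_span_singleton_mul.mp h2
  refine ⟨c, ?_, ?_⟩
  · obtain ⟨d, hd⟩ := isCoprime_span_iff.mp hc
    have h3 : c - 1 = -(d * (a - a * c)) - (c - 1) * (d * a - 1) := by ring
    rw [h3]
    exact m.sub_mem (m.neg_mem (m.mul_mem_left _ hab)) (m.mul_mem_left _ hd)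
  · rw [← Ideal.span_singleton_mul_span_singleton] at he
    exact (Ideal.span_singleton_mul_right_inj ha).mp he

theorem rayEq_one_iff {I : (Ideal (𝓞 K))⁰} :
    RayEq m I 1 ↔ ∃ c : 𝓞 K, c - 1 ∈ m ∧ (I : Ideal (𝓞 K)) = Ideal.span {c} := by
  constructor
  · rintro ⟨a, b, ha, hb, hc, hab, he⟩
    have he' : Ideal.span {a} * (I : Ideal (𝓞 K)) = Ideal.span {b} :=
      he.trans (mul_one (Ideal.span {b}))
    exact exists_of_mul_eq ha hc hab he'
  · rintro ⟨c, hc, hI⟩
    have hc0 : c ≠ 0 := by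
      intro h0
      have h1 : (I : Ideal (𝓞 K)) = ⊥ := by rw [hI, h0, Ideal.span_singleton_eq_bot]
      exact nonZeroDivisors.coe_ne_zero I h1
    have h2 : (1 : 𝓞 K) - c ∈ m := by
      rw [← neg_sub]
      exact m.neg_mem hc
    have h3 : IsCoprime (Ideal.span {(1 : 𝓞 K)}) m := isCoprime_span_iff.mpr ⟨1, by simp⟩
    have h4 : Ideal.span {(1 : 𝓞 K)} * (I : Ideal (𝓞 K)) = Ideal.span {c} := by
      rw [Ideal.span_singleton_one, Ideal.top_mul, hI]
    exact ⟨1, c, one_ne_zero, hc0, h3, h2, h4.trans (mul_one (Ideal.span {c})).symm⟩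

theorem isCoprime_place_of_not_le {v : HeightOneSpectrum (𝓞 K)} (h : ¬ m ≤ v.asIdeal) :
    IsCoprime v.asIdeal m := by
  rw [Ideal.isCoprime_iff_sup_eq]
  exact (Ideal.isMaximal_def.mp v.isMaximal).2 _ (left_lt_sup.mpr h)

end RayEq

/-- the place `v` as an element of `Cop 𝔪` -/
noncomputable def placeCop {K : Type*} [Field K] [NumberField K] {m : Ideal (𝓞 K)}
    (v : HeightOneSpectrum (𝓞 K)) (h : ¬ m ≤ v.asIdeal) : Cop m :=
  ⟨⟨v.asIdeal, mem_nonZeroDivisors_of_ne_zero v.ne_bot⟩, isCoprime_place_of_not_le h⟩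

/-- `L` is a ray class field of `K` modulo `𝔪`: unramified outside `𝔪`, with Galois group the ray
class group modulo `𝔪`; the Frobenius elements correspond to the classes of the places; a place
which does not divide `𝔪` splits completely if and only if it is generated by some
`a ≡ 1 mod 𝔪`. -/
def IsRayClassField (K : Type*) [Field K] [NumberField K] (m : Ideal (𝓞 K)) (L : Type*) [Field L]
    [NumberField L] [Algebra K L] [IsGalois K L] : Prop :=
  ∃ e : (L ≃ₐ[K] L) ≃* RayClass m, ∀ (w : HeightOneSpectrum (𝓞 L))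
    (h : ¬ m ≤ (w.under (𝓞 K)).asIdeal),
      (w.under (𝓞 K)).asIdeal.ramificationIdx' w.asIdeal = 1 ∧
      (∀ σ : L ≃ₐ[K] L, IsArithFrobAt (𝓞 K) σ w.asIdeal → e σ = rayCl m (placeCop _ h)) ∧
      ((w.under (𝓞 K)).asIdeal.inertiaDeg' w.asIdeal = 1 ↔
        ∃ a : 𝓞 K, a - 1 ∈ m ∧ (w.under (𝓞 K)).asIdeal = Ideal.span {a})

theorem finite_le {K : Type*} [Field K] [NumberField K] {m : Ideal (𝓞 K)} (hm : m ≠ ⊥) :
    {v : HeightOneSpectrum (𝓞 K) | m ≤ v.asIdeal}.Finite := by
  refine (Ideal.finite_factors hm).subset fun v hv => ?_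
  exact Ideal.dvd_iff_le.mpr hv

/-- Two ray class fields modulo `𝔪` embed in each other. -/
theorem IsRayClassField.nonempty_algHom {K L L' : Type*} [Field K] [NumberField K] [Field L]
    [NumberField L] [Algebra K L] [IsGalois K L] [Field L'] [NumberField L'] [Algebra K L']
    [IsGalois K L'] {m : Ideal (𝓞 K)} (hm : m ≠ ⊥) (h : IsRayClassField K m L)
    (h' : IsRayClassField K m L') : Nonempty (L →ₐ[K] L') := by
  obtain ⟨e, he⟩ := h
  obtain ⟨e', he'⟩ := h'
  refine nonempty_algHom_of_fdeg (finite_le hm).toFinset fun u hu hf w hw => ?_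
  rw [Set.Finite.mem_toFinset, Set.mem_ofPred_eq] at hu
  have h1 := (he' u hu).2.2.mp hf
  have h2 := (he w (by rwa [hw])).2.2
  rw [hw] at h2
  change (w.under (𝓞 K)).asIdeal.inertiaDeg' w.asIdeal = 1
  rw [hw]
  exact h2.mpr h1

/-- `[L : K]` is the order of the ray class group. -/
theorem IsRayClassField.finrank_eq {K L : Type*} [Field K] [NumberField K] [Field L]
    [NumberField L] [Algebra K L] [IsGalois K L] {m : Ideal (𝓞 K)} (h : IsRayClassField K m L) :
    Module.finrank K L = Nat.card (RayClass m) := by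
  obtain ⟨e, -⟩ := h
  rw [← IsGalois.card_aut_eq_finrank, Nat.card_congr e.toEquiv]

/-- **The ray class field is unique.** -/
theorem IsRayClassField.nonempty_algEquiv {K L L' : Type*} [Field K] [NumberField K] [Field L]
    [NumberField L] [Algebra K L] [IsGalois K L] [Field L'] [NumberField L'] [Algebra K L']
    [IsGalois K L'] {m : Ideal (𝓞 K)} (hm : m ≠ ⊥) (h : IsRayClassField K m L)
    (h' : IsRayClassField K m L') : Nonempty (L ≃ₐ[K] L') := by
  obtain ⟨f⟩ := h.nonempty_algHom hm h'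
  have h1 : Module.finrank K L = Module.finrank K L' := h.finrank_eq.trans h'.finrank_eq.symm
  have h2 : Function.Surjective f :=
    (LinearMap.injective_iff_surjective_of_finrank_eq_finrank (f := f.toLinearMap) h1).mp
      f.injective
  exact ⟨AlgEquiv.ofBijective f ⟨f.injective, h2⟩⟩

/-- **The ray class field exists**, for every `𝔪 ≠ 0`. -/
theorem exists_rayClassField_of (hN : RayClStmt) {K : Type} [Field K] [NumberField K]
    [IsTotallyComplex K] {m : Ideal (𝓞 K)} (hm : m ≠ ⊥) :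
    ∃ (L : Type) (_ : Field L) (_ : NumberField L) (_ : Algebra K L) (_ : IsGalois K L),
      IsRayClassField K m L := by
  let _ := rayClassCommGroup m hm
  have hfin : Finite (RayClass m) := finite_rayClass hm
  obtain ⟨S, n, η, hS, hη, hcl, hgen⟩ := hN K m hm
  obtain ⟨L, _, _, _, _, e, he⟩ := exists_classField hη hgen
  refine ⟨L, inferInstance, inferInstance, inferInstance, inferInstance, e, fun w h => ?_⟩
  have hw : w.under (𝓞 K) ∉ S := fun h1 => h ((hS _).mp h1)
  obtain ⟨h1, h2, h3⟩ := he w hw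
  have h4 := hcl (w.under (𝓞 K)) (placeCop _ h) rfl
  refine ⟨h1, fun σ hσ => ?_, ?_⟩
  · rw [h2 σ hσ, h4]
    rfl
  · rw [h3, h4]
    have h5 : rayCl m (placeCop _ h) = 1 ↔
        ∃ c : 𝓞 K, c - 1 ∈ m ∧ (w.under (𝓞 K)).asIdeal = Ideal.span {c} := by
      rw [← map_one (rayCl m), rayCl_eq_iff]
      exact rayEq_one_iff
    rw [← h5]
    exact ofMul_eq_zero

/-- **Every abelian extension embeds in a ray class field.** -/
theorem exists_algHom_rayClassField_of (hO : FactorStmt) {K L : Type} [Field K] [NumberField K]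
    [IsTotallyComplex K] [Field L] [NumberField L] [Algebra K L] [IsGalois K L] {A : Type}
    [CommGroup A] [Finite A] (e : (L ≃ₐ[K] L) ≃* A) {S : Finset (HeightOneSpectrum (𝓞 K))}
    (hS : ∀ w : HeightOneSpectrum (𝓞 L), w.under (𝓞 K) ∉ S →
      (w.under (𝓞 K)).asIdeal.ramificationIdx' w.asIdeal = 1) :
    ∃ m : Ideal (𝓞 K), m ≠ ⊥ ∧ (∀ v : HeightOneSpectrum (𝓞 K), v ∈ S ↔ m ≤ v.asIdeal) ∧
      ∀ (M : Type) [Field M] [NumberField M] [Algebra K M] [IsGalois K M],
        IsRayClassField K m M → Nonempty (L →ₐ[K] M) := by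
  obtain ⟨n, η, hη, h⟩ := artin_reciprocity_field e hS
  obtain ⟨m, hm, f, hSm, hf⟩ := hO K A S n η hη
  refine ⟨m, hm, hSm, ?_⟩
  intro M _ _ _ _ hM
  obtain ⟨e', he'⟩ := hM
  refine nonempty_algHom_of_fdeg S fun u hu hdeg w hw => ?_
  have hum : ¬ m ≤ (u.under (𝓞 K)).asIdeal := fun h1 => hu ((hSm _).mpr h1)
  have h1 := (he' u hum).2.2.mp hdeg
  have h5 : rayCl m (placeCop _ hum) = 1 := by
    rw [← map_one (rayCl m), rayCl_eq_iff]
    exact rayEq_one_iff.mpr h1
  have h6 := hf (u.under (𝓞 K)) (placeCop _ hum) rfl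
  rw [h5, map_one] at h6
  refine (h w (by rwa [hw])).2.mpr ?_
  rw [hw]
  exact (toMul_eq_one.mp h6.symm)

end Fermat.Agent.Cor.HCF
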