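import Fermat.Agent.Corollaries.HCF.RayField
import Fermat.Agent.Corollaries.HCF.RayCl
import Fermat.Agent.Corollaries.HCF.Factor

set_option autoImplicit false

/-!
# Ray class fields of a totally complex number field: the theorems

`K` any totally complex number field.

* `exists_rayClassField`: for every ideal `𝔪 ≠ 0` there is a ray class field modulo `𝔪`
  (`IsRayClassField`): Galois group = ray class group modulo `𝔪`, unramified outside `𝔪`,
  Frobenius elements = classes of the places; it is unique (`IsRayClassField.nonempty_algEquiv`);
* `exists_algHom_rayClassField`: every abelian extension `L/K`, unramified outside `S`, embeds in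
  the ray class field modulo some `𝔪` with support `S`.
-/

namespace Fermat.Agent.Cor.HCF

open IsDedekindDomain NumberField

/-- **The ray class field exists** for every ideal `𝔪 ≠ 0` of a totally complex number field. -/
theorem exists_rayClassField (K : Type) [Field K] [NumberField K] [IsTotallyComplex K]
    {m : Ideal (𝓞 K)} (hm : m ≠ ⊥) :
    ∃ (L : Type) (_ : Field L) (_ : NumberField L) (_ : Algebra K L) (_ : IsGalois K L),
      IsRayClassField K m L :=
  exists_rayClassField_of rayClStmt hm

/-- **Every abelian extension of a totally complex number field is contained in a ray class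
field.** -/
theorem exists_algHom_rayClassField {K L : Type} [Field K] [NumberField K]
    [IsTotallyComplex K] [Field L] [NumberField L] [Algebra K L] [IsGalois K L] {A : Type}
    [CommGroup A] (e : (L ≃ₐ[K] L) ≃* A) {S : Finset (HeightOneSpectrum (𝓞 K))}
    (hS : ∀ w : HeightOneSpectrum (𝓞 L), w.under (𝓞 K) ∉ S →
      (w.under (𝓞 K)).asIdeal.ramificationIdx' w.asIdeal = 1) :
    ∃ m : Ideal (𝓞 K), m ≠ ⊥ ∧ (∀ v : HeightOneSpectrum (𝓞 K), v ∈ S ↔ m ≤ v.asIdeal) ∧
      ∀ (M : Type) [Field M] [NumberField M] [Algebra K M] [IsGalois K M],
        IsRayClassField K m M → Nonempty (L →ₐ[K] M) := by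
  have : Finite A := Finite.of_equiv _ e.toEquiv
  exact exists_algHom_rayClassField_of factorStmt e hS

end Fermat.Agent.Cor.HCF
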