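import Fermat.Agent.Corollaries.HCF.Norm
import Fermat.Agent.Corollaries.HCF.Fibre
import Fermat.Agent.Corollaries.HCF.Div

set_option autoImplicit false

/-!
# The descent of a ray character along a cyclic extension

* `exists_factor`: homomorphisms to `U` which are trivial on the kernel of `π` factor through `π`;
* `key`: an invariant ray character of `L` is trivial at the divisors whose norm is principal,
  generated by a norm `≡ 1`;
* `exists_ray_pull`: it is the pullback of a ray character of `K`.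
-/

namespace Fermat.Agent.Cor.HCF

open IsDedekindDomain NumberField
open Fermat.Agent.LT
open Fermat.Agent.CFT.SUnits (ord ord_one ord_mul ord_inv ord_pow ord_div div div_apply)
open Fermat.Agent.CFT.Global (cong normU above mem_above)
open Fermat.Agent.LT.NV (fdeg edeg_fdeg_eq ord_normU_eq_sum pull)

theorem exists_factor {M A : Type} [AddCommGroup M] [AddCommGroup A] (π : M →+ A)
    (φ : M →+ Additive U) (h : ∀ x, π x = 0 → φ x = 0) :
    ∃ F : A →+ Additive U, ∀ x, F (π x) = φ x := by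
  let f : π.range →+ Additive U :=
    (QuotientAddGroup.lift π.ker φ h).comp
      (QuotientAddGroup.quotientKerEquivRange π).symm.toAddMonoidHom
  obtain ⟨F, hF⟩ := divStmt A π.range f
  refine ⟨F, fun x => ?_⟩
  have h1 := hF ⟨π x, x, rfl⟩
  have h2 : (QuotientAddGroup.quotientKerEquivRange π).symm ⟨π x, x, rfl⟩ =
      QuotientAddGroup.mk x := by
    rw [AddEquiv.symm_apply_eq]
    rfl
  change F (π x) = QuotientAddGroup.lift π.ker φ h
    ((QuotientAddGroup.quotientKerEquivRange π).symm ⟨π x, x, rfl⟩) at h1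
  rw [h1, h2]
  rfl

variable {K L : Type} [Field K] [NumberField K] [Field L] [NumberField L] [Algebra K L]
  [IsGalois K L] {S : Finset (HeightOneSpectrum (𝓞 K))}
  {η' : HeightOneSpectrum (𝓞 L) → Additive U} {N n' : ℕ}

/-- **The key claim.** -/
theorem key (hinv : ∀ w w' : HeightOneSpectrum (𝓞 L), w.under (𝓞 K) = w'.under (𝓞 K) →
      w.under (𝓞 K) ∉ S → η' w = η' w') (hη' : IsRay (above L S) n' η') (σ : L ≃ₐ[K] L)
    (h90 : ∀ β : Lˣ, (∀ v ∈ S, normU (K := K) L β ∈ cong v N) →
      ∃ γ : Lˣ, ∀ w ∈ above L S, β * Units.map (σ : L →* L) γ / γ ∈ cong w n')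
    (hnorm : ∀ a : Kˣ, (∀ v ∈ S, a ∈ cong v N) → ∀ D : HeightOneSpectrum (𝓞 L) →₀ ℤ,
      (∀ v, v ∉ S → normDiv K D v = ord v a) → ∃ β : Lˣ, normU (K := K) L β = a)
    {a : Kˣ} (haS : ∀ v ∈ S, a ∈ cong v N) {D : HeightOneSpectrum (𝓞 L) →₀ ℤ}
    (hD : ∀ v, v ∉ S → normDiv K D v = ord v a) : divVal (above L S) η' D = 0 := by
  obtain ⟨β, rfl⟩ := hnorm a haS D hD
  obtain ⟨γ, hγ⟩ := h90 β haS
  have h0 : normU (K := K) L (Units.map (σ : L →* L) γ) = normU (K := K) L γ :=
    Units.ext (Algebra.norm_eq_of_algEquiv σ (γ : L))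
  have h1 : normU (K := K) L (β * Units.map (σ : L →* L) γ / γ) = normU (K := K) L β := by
    rw [map_div, map_mul, h0, mul_div_cancel_right]
  have h2 := hη' _ hγ
  have h3 : divVal (above L S) η' (D - div (β * Units.map (σ : L →* L) γ / γ)) = 0 :=
    divVal_eq_zero hinv fun v hv => by
      rw [map_sub, Finsupp.sub_apply, normDiv_div, h1, hD v hv, div_apply, sub_self]
  rw [map_sub, sub_eq_zero] at h3
  rw [h3]
  rw [rayVal_apply] at h2
  exact ofAdd_eq_one.mp h2

/-- **Descent of a ray character.** -/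
theorem exists_ray_pull (hkey : ∀ (D : HeightOneSpectrum (𝓞 L) →₀ ℤ) (a : Kˣ),
      (∀ v ∈ S, a ∈ cong v N) → (∀ v, v ∉ S → normDiv K D v = ord v a) →
        divVal (above L S) η' D = 0) :
    ∃ η : HeightOneSpectrum (𝓞 K) → Additive U, IsRay S N η ∧
      ∀ w, w ∉ above L S → η' w = pull L η w := by
  classical
  let H : Subgroup Kˣ := ⨅ v ∈ S, cong v N
  have hH : ∀ x, x ∈ H ↔ ∀ v ∈ S, x ∈ cong v N := by
    intro x
    simp only [H, Subgroup.mem_iInf]
  let r : (HeightOneSpectrum (𝓞 K) →₀ ℤ) →+ (HeightOneSpectrum (𝓞 K) →₀ ℤ) :=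
    Finsupp.filterAddHom (· ∉ S)
  let dH : Additive H →+ (HeightOneSpectrum (𝓞 K) →₀ ℤ) :=
    { toFun := fun a => div (a.toMul : Kˣ)
      map_zero' := by
        ext v
        simp
      map_add' := fun a b => by
        ext v
        simp }
  let π : (HeightOneSpectrum (𝓞 L) →₀ ℤ) × Additive H →+ (HeightOneSpectrum (𝓞 K) →₀ ℤ) :=
    r.comp ((normDiv K).coprod dH)
  let φ : (HeightOneSpectrum (𝓞 L) →₀ ℤ) × Additive H →+ Additive U :=
    (divVal (above L S) η').comp (AddMonoidHom.fst _ _)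
  have hπ : ∀ D a, π (D, a) = (normDiv K D + dH a).filter (· ∉ S) := fun _ _ => rfl
  obtain ⟨F, hF⟩ := exists_factor π φ (by
    rintro ⟨D, a⟩ h
    change divVal (above L S) η' D = 0
    apply hkey D (a.toMul : Kˣ)⁻¹
    · intro v hv
      exact inv_mem ((hH _).mp a.toMul.2 v hv)
    · intro v hv
      have h1 := DFunLike.congr_fun h v
      rw [hπ, Finsupp.filter_apply_pos (fun x => x ∉ S) _ hv, Finsupp.add_apply, Finsupp.zero_apply] at h1
      rw [ord_inv]
      exact eq_neg_of_add_eq_zero_left h1)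
  refine ⟨fun v => F (Finsupp.single v 1), fun x hx => ?_, fun w hw => ?_⟩
  · rw [rayVal_apply, divVal_of_hom S F, ofAdd_eq_one]
    have h1 := hF (0, Additive.ofMul ⟨x, (hH x).mpr hx⟩)
    rw [hπ, map_zero, zero_add] at h1
    exact h1.trans (map_zero (divVal (above L S) η'))
  · have h1 := hF (Finsupp.single w 1, 0)
    have h2 : w.under (𝓞 K) ∉ S := fun h => hw ((mem_above L).mpr h)
    rw [hπ, map_zero, add_zero, normDiv_single, mul_one,
      Finsupp.filter_single_of_pos (p := fun x => x ∉ S) h2] at h1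
    have h3 : φ (Finsupp.single w 1, 0) = η' w := by
      change divVal (above L S) η' (Finsupp.single w 1) = _
      rw [divVal_single _ _ hw, one_smul]
    rw [h3] at h1
    rw [← h1, pull, ← map_nsmul, Finsupp.smul_single, nsmul_eq_mul, mul_one]

end Fermat.Agent.Cor.HCF
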