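import Fermat.Agent.Corollaries.HCF.Main
import Fermat.Agent.Corollaries.HCF.RecipKey

set_option autoImplicit false

/-!
# Reciprocity: the induction step

`re_succ`: `Re p k → Re p (k + 1)`.
-/

namespace Fermat.Agent.Cor.HCF

open IsDedekindDomain NumberField
open Fermat.Agent.Frob Fermat.Agent.FrobDensity Fermat.Agent.Minkowski
open Fermat.Agent.LT Fermat.Agent.LT.Tower.Fr
open Fermat.Agent.Cor.Diff (GK FrobAt finite_natCast_mem exists_nat_mem)
open Fermat.Agent.Cor.CFTP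
open Fermat.Agent.CFT.SUnits (ord ord_one ord_mul ord_inv ord_pow ord_div div div_apply)
open Fermat.Agent.CFT.Global (above mem_above cong normU cong_anti)
open Fermat.Agent.LT.NV (fdeg edeg edeg_fdeg_eq pull card_conj_eq)
open Fermat.Agent.LT.Psi (finite_under)
open scoped Pointwise

/-- Characters of order `p` with values in `U` as characters with values in `ZMod p`. -/
theorem exists_char {p : ℕ} {e : ZMod p →+ Additive U} (he : Function.Injective e)
    (he' : ∀ u : Additive U, p • u = 0 → ∃ z, e z = u) {G : Type*} [Group G] (X : G →* U)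
    (hX : ∀ g, X g ^ p = 1) : ∃ χ : G →* C p, ∀ g, (e (χ g).toAdd).toMul = X g := by
  have h1 : ∀ g, ∃ z, e z = Additive.ofMul (X g) := fun g => he' _ (by
    rw [← ofMul_pow, hX, ofMul_one])
  choose z hz using h1
  refine ⟨⟨⟨fun g => Multiplicative.ofAdd (z g), ?_⟩, fun a b => ?_⟩, fun g => ?_⟩
  · apply Multiplicative.toAdd.injective
    apply he
    rw [toAdd_ofAdd, hz, map_one, ofMul_one, toAdd_one, map_zero]
  · apply Multiplicative.toAdd.injective
    apply he
    rw [toAdd_mul, toAdd_ofAdd, toAdd_ofAdd, toAdd_ofAdd, map_add, hz, hz, hz, map_mul, ofMul_mul]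
  · change (e (z g)).toMul = X g
    rw [hz, toMul_ofMul]

/-- **The induction step.** -/
theorem re_succ (h90 : H90Stmt) {p : ℕ} [hp : Fact p.Prime] {k : ℕ} (hR : Re p k) :
    Re p (k + 1) := by
  intro K _ _ _ ζ hζ i S ψ lψ hψ hu
  classical
  obtain ⟨e, he, he'⟩ := torStmt p
  obtain ⟨χ, hχe⟩ := exists_char he he' ((powMonoidHom (p ^ k)).comp ψ) (fun g => by
    change (ψ g ^ p ^ k) ^ p = 1
    rw [← pow_mul, ← pow_succ, hψ])
  have hχe' : ∀ g, (e (χ g).toAdd).toMul = ψ g ^ p ^ k := hχe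
  have hχ1 : ∀ g, χ g = 1 ↔ ψ g ^ p ^ k = 1 := by
    intro g
    rw [← hχe' g]
    constructor
    · intro h
      rw [h, toAdd_one, map_zero, toMul_zero]
    · intro h
      have h1 : e (χ g).toAdd = e 0 := by
        rw [map_zero]
        exact toMul_eq_one.mp h
      exact toAdd_eq_zero.mp (he h1)
  have lχ : Lev χ := by
    obtain ⟨M, hM, h⟩ := lψ
    exact ⟨M, hM, fun g hg => (hχ1 g).mpr (by rw [h g hg, one_pow])⟩
  have huχ : ∀ v, v ∉ S → ∀ A : ValuationSubring (AlgebraicClosure ℚ), Over i A v → ∀ g : GK i,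
      g.1 ∈ A.inertiaSubgroupIn ℚ → χ g = 1 := fun v hv A hA g hg =>
    (hχ1 g).mpr (by rw [hu v hv A hA g hg, one_pow])
  by_cases hne : ∃ g, χ g ≠ 1
  swap
  · refine hR K ζ hζ i S ψ lψ (fun g => ?_) hu
    by_contra h
    exact hne ⟨g, fun h1 => h ((hχ1 g).mp h1)⟩
  obtain ⟨L, _, _, _, _, j, hj, hL, hiff, -⟩ := exists_field lχ hne
  subst hj
  have hTC : IsTotallyComplex L := isTotallyComplex_of_algebra K L
  have hψL : ∀ g : GK j, (ψ.comp (res K j)) g ^ p ^ k = 1 := fun g =>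
    (hχ1 _).mp ((hiff (res K j g)).mp g.2)
  obtain ⟨n', η', hη', aη'⟩ := hR L (algebraMap K L ζ)
    (hζ.map_of_injective (algebraMap K L).injective) j (above L S) (ψ.comp (res K j)) lψ.res hψL
    (fun w hw A hA g hg => hu _ (by rwa [mem_above] at hw) A hA.under (res K j g) hg)
  -- invariance
  have hinv : ∀ w w' : HeightOneSpectrum (𝓞 L), w.under (𝓞 K) = w'.under (𝓞 K) →
      w.under (𝓞 K) ∉ S → η' w = η' w' := by
    intro w w' hww hw
    obtain ⟨q, A, hq, hAq, hA⟩ := exists_over j w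
    obtain ⟨φ, hφ⟩ := exists_frobAt_over hA
    obtain ⟨τ, hτ⟩ := Fermat.Agent.LT.Psi.exists_conj_eq hww
    obtain ⟨σ, hσ⟩ := Fermat.Agent.LT.Tower.Fr.exists_extend j (j.comp (τ : L →+* L))
    have hσ' : ∀ x, σ (j x) = j (τ x) := fun x => RingHom.congr_fun hσ x
    have hσK : σ ∈ GK (j.comp (algebraMap K L)) := by
      intro x
      change σ (j (algebraMap K L x)) = _
      rw [hσ', τ.commutes]
      rfl
    have h1 : FrobAt (conjHom j hσK φ) w' := by
      refine ⟨σ • A, ?_, ?_⟩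
      · rw [← hτ]
        exact Fermat.Agent.LT.Tower.Fr.Over.conj hA τ hσ'
      · rw [absNorm_eq_of_under_eq hww.symm]
        exact isFrobeniusAt_conj hφ
    have h2 := aη'.2 w' (by rwa [mem_above, ← hww]) _ h1
    have h3 := aη'.2 w (by rwa [mem_above]) φ ⟨A, hA, hφ⟩
    have h4 : (ψ.comp (res K j)) (conjHom j hσK φ) = (ψ.comp (res K j)) φ := by
      have h4 : res K j (conjHom j hσK φ) = ⟨σ, hσK⟩ * res K j φ * ⟨σ, hσK⟩⁻¹ := rfl
      rw [MonoidHom.comp_apply, h4, map_mul, map_mul, map_inv, mul_comm (ψ ⟨σ, hσK⟩),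
        mul_inv_cancel_right]
      rfl
    apply Additive.toMul.injective
    rw [← h2, ← h3, h4]
  -- residue degrees
  have hfd : ∀ w : HeightOneSpectrum (𝓞 L), fdeg K w = 1 ∨ fdeg K w = p := by
    intro w
    have h2 : fdeg K w ∣ p := by
      have h3 := sum_edeg_mul_fdeg (K := K) w
      rw [IsGalois.card_aut_eq_finrank, hL] at h3
      rw [← h3]
      refine Finset.dvd_sum fun V hV => ?_
      rw [Set.Finite.mem_toFinset, Set.mem_ofPred_eq] at hV
      rw [(edeg_fdeg_eq hV).2]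
      exact dvd_mul_left _ _
    exact (Nat.dvd_prime hp.out).mp h2
  have hsplit : ∀ (w : HeightOneSpectrum (𝓞 L)) (A : ValuationSubring (AlgebraicClosure ℚ)),
      Over j A w → w.under (𝓞 K) ∉ S → ∀ g : GK (j.comp (algebraMap K L)),
        A.IsFrobeniusAt g.1 (Ideal.absNorm (w.under (𝓞 K)).asIdeal) →
          (fdeg K w = 1 ↔ χ g = 1) := by
    intro w A hA hw g hg
    have hin : ∀ τ ∈ A.inertiaSubgroupIn ℚ,
        (∀ x : K, τ (j (algebraMap K L x)) = j (algebraMap K L x)) →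
          ∀ x : L, τ (j x) = j x := by
      intro τ hτ hτK
      exact (hiff ⟨τ, hτK⟩).mpr (huχ _ hw A hA.under ⟨τ, hτK⟩ hτ)
    rw [fdeg_eq_one_iff hA hin (g := g.1) g.2 hg, ← hiff]
    rfl
  -- the constants
  have hcyc : IsCyclic (L ≃ₐ[K] L) := by
    apply isCyclic_of_prime_card (p := p)
    rw [IsGalois.card_aut_eq_finrank, hL]
  obtain ⟨σ, hσ⟩ := hcyc.exists_generator
  obtain ⟨N₁, hN₁⟩ := h90 K L σ hσ S n'
  obtain ⟨N₂, hN₂⟩ := exists_norm hζ lχ hne hiff hL huχ
  have hnorm : ∀ a : Kˣ, (∀ v ∈ S, a ∈ cong v (max N₁ N₂)) →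
      ∀ D : HeightOneSpectrum (𝓞 L) →₀ ℤ, (∀ v, v ∉ S → normDiv K D v = ord v a) →
        ∃ β : Lˣ, normU (K := K) L β = a := by
    intro a ha D hD
    refine hN₂ a (fun v hv => cong_anti v (le_max_right _ _) (ha v hv)) fun v hv => ?_
    obtain ⟨W, rfl⟩ := Fermat.Agent.CFT.Places.exists_below_eq L v
    rcases hfd W with hW | hW
    · left
      intro g hg
      obtain ⟨A, hA, hF⟩ := hg
      obtain ⟨q, hq, hqv⟩ := exists_prime_mem (W.under (𝓞 K))
      have hAq : A.LiesOverPrime q := hA.natCast_mem_iff.mp hqv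
      obtain ⟨w, hw⟩ := exists_over_of_liesOver j hq hAq
      have hwv : w.under (𝓞 K) = W.under (𝓞 K) := hw.under.unique hA
      refine (hsplit w A hw (by rwa [hwv]) g (by rwa [hwv])).mp ?_
      rw [(edeg_fdeg_eq hwv).2, hW]
    · right
      rw [← hD _ hv, normDiv_apply]
      refine Finset.dvd_sum fun w hw => ?_
      rw [Set.Finite.mem_toFinset, Set.mem_ofPred_eq] at hw
      rw [(edeg_fdeg_eq hw).2, hW]
      exact dvd_mul_right _ _
  obtain ⟨η, hη, hpull⟩ := exists_ray_pull (K := K) (L := L) (η' := η') (N := max N₁ N₂) (S := S)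
    (fun D a ha hD => key hinv hη' σ (fun β hβ => hN₁ β fun v hv =>
      cong_anti v (le_max_left _ _) (hβ v hv)) hnorm ha hD)
  -- the order of `η`
  have hord : ∀ v, v ∉ S → p ^ (k + 1) • η v = 0 := by
    intro v hv
    obtain ⟨w, rfl⟩ := Fermat.Agent.CFT.Places.exists_below_eq L v
    have hw : w ∉ above L S := fun h => hv ((mem_above L).mp h)
    obtain ⟨q, A, hq, hAq, hA⟩ := exists_over j w
    obtain ⟨φ, hφ⟩ := exists_frobAt_over hA
    have h1 := aη'.2 w hw φ ⟨A, hA, hφ⟩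
    have h2 : p ^ k • η' w = 0 := by
      apply Additive.toMul.injective
      rw [toMul_nsmul, ← h1, hψL, toMul_zero]
    rw [hpull w hw, NV.pull] at h2
    rcases hfd w with h | h
    · rw [h, one_smul] at h2
      rw [pow_succ', mul_smul, h2, smul_zero]
    · rw [h] at h2
      rw [pow_succ, mul_smul, h2]
  -- the character of `η`
  obtain ⟨G, lG, uG, eG⟩ := artin_existence_all (j.comp (algebraMap K L)) hη
    (pow_ne_zero (k + 1) hp.out.ne_zero) hord
  have aG : Art (j.comp (algebraMap K L)) S η G := ⟨lG, eG⟩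
  have hGψ : ∀ g : GK j, (G.comp (res K j)) g = (ψ.comp (res K j)) g :=
    eq_of_frob (T := above L S) lG.res lψ.res fun w hw φ hφ => by
      rw [aG.res.2 w hw φ hφ, ← hpull w hw, aη'.2 w hw φ hφ]
  let ω : GK (j.comp (algebraMap K L)) →* U := ψ * G⁻¹
  have hω' : ∀ g, ω g = ψ g * (G g)⁻¹ := fun _ => rfl
  have hω : ∀ g, χ g = 1 → ω g = 1 := by
    intro g hg
    have h1 := hGψ ⟨g.1, (hiff g).mpr hg⟩
    change G g = ψ g at h1
    rw [hω', h1, mul_inv_cancel]
  have hωp : ∀ g, ω g ^ p = 1 := by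
    intro g
    rw [← map_pow]
    apply hω
    rw [map_pow]
    apply Multiplicative.toAdd.injective
    rw [toAdd_pow, toAdd_one, nsmul_eq_mul, CharP.cast_eq_zero, zero_mul]
  obtain ⟨ω₁, hω₁⟩ := exists_char he he' ω hωp
  have hone : ∀ g, ω g = 1 → ω₁ g = 1 := by
    intro g hg
    have h1 := hω₁ g
    rw [hg] at h1
    have h2 : e (ω₁ g).toAdd = e 0 := by
      rw [map_zero]
      exact toMul_eq_one.mp h1
    exact toAdd_eq_zero.mp (he h2)
  have lω : Lev ω₁ := by
    obtain ⟨M₁, hM₁, h₁⟩ := lψ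
    obtain ⟨M₂, hM₂, h₂⟩ := lG
    refine ⟨M₁ ⊔ M₂, IntermediateField.finiteDimensional_sup _ _, fun g hg => hone g ?_⟩
    rw [hω', h₁ g fun x hx => hg x ((le_sup_left : M₁ ≤ M₁ ⊔ M₂) hx),
      h₂ g fun x hx => hg x ((le_sup_right : M₂ ≤ M₁ ⊔ M₂) hx), inv_one, one_mul]
  obtain ⟨n₃, θ, hθ, eθ⟩ := artin_reciprocity_outside (Or.inr inferInstance) lω (S := S)
    (fun v hv A hA g hg => hone g (by rw [hω', hu v hv A hA g hg, uG v hv A hA g hg, inv_one,
      one_mul]))
  refine ⟨max (max N₁ N₂) n₃, fun v => η v + e (θ v), (hη.mono (le_max_left _ _)).add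
    ((hθ.comp e).mono (le_max_right _ _)), lψ, fun v hv g hg => ?_⟩
  have h1 := hω₁ g
  rw [eθ v hv g hg, toAdd_ofAdd] at h1
  rw [toMul_add, h1, ← eG v hv g hg, hω', mul_comm (G g), inv_mul_cancel_right]

end Fermat.Agent.Cor.HCF
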