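import Fermat.Agent.Corollaries.HCF.Step

set_option autoImplicit false

/-!
# The scalar

`K` totally complex, `η` a ray character of order `p ^ (k + 1)`, `X` the character of order `p` of
`p ^ k η`, `F` the extension of `Step` (exact at the places killed by `X`). Crossing with fresh
cyclotomic characters shows that, after multiplication of `F` by a power of `X`, `F` is exact at all
places where some fresh cyclotomic character does not vanish.
-/

namespace Fermat.Agent.Cor.HCF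

open IsDedekindDomain NumberField
open Fermat.Agent.Frob Fermat.Agent.FrobDensity Fermat.Agent.Minkowski
open Fermat.Agent.LT Fermat.Agent.LT.Tower.Fr
open Fermat.Agent.Cor.Diff (GK FrobAt finite_natCast_mem exists_nat_mem)
open Fermat.Agent.Cor.CFTP
open Fermat.Agent.CFT.Global (above mem_above)
open Fermat.Agent.LT.NV (fdeg edeg edeg_fdeg_eq pull card_conj_eq)

section Alg

variable {p : ℕ} [hp : Fact p.Prime]

lemma exists_pow_eq_U {x y : U} (hx : x ≠ 1) (hxp : x ^ p = 1) (hyp : y ^ p = 1) :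
    ∃ a : ℕ, y = x ^ a := by
  have : NeZero p := ⟨hp.out.ne_zero⟩
  have h1 : orderOf x = p := orderOf_eq_prime hxp hx
  have h2 : IsPrimitiveRoot x p := by
    rw [← h1]
    exact IsPrimitiveRoot.orderOf x
  have h3 : IsPrimitiveRoot (x : AlgebraicClosure ℚ) p :=
    IsPrimitiveRoot.coe_units_iff.mpr h2
  obtain ⟨a, -, ha⟩ := h3.eq_pow_of_pow_eq_one (ξ := (y : AlgebraicClosure ℚ)) (by
    rw [← Units.val_pow_eq_pow_val, hyp, Units.val_one])
  exact ⟨a, Units.ext (by rw [← ha, Units.val_pow_eq_pow_val])⟩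

lemma pow_eq_pow_of {x y : U} (hx : x ≠ 1) (hxp : x ^ p = 1) (hyp : y ^ p = 1) {c c' : ℕ}
    (h : x ^ c = x ^ c') : y ^ c = y ^ c' := by
  obtain ⟨a, rfl⟩ := exists_pow_eq_U hx hxp hyp
  rw [← pow_mul, ← pow_mul, mul_comm a c, mul_comm a c', pow_mul, pow_mul, h]

end Alg

/-- The data of `Step`. -/
structure Dat (p k : ℕ) {K : Type*} [Field K] [NumberField K] (i : K →+* AlgebraicClosure ℚ)
    (S : Finset (HeightOneSpectrum (𝓞 K))) (η : HeightOneSpectrum (𝓞 K) → Additive U)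
    (X F : GK i →* U) : Prop where
  ray : ∃ n, IsRay S n η
  tors : ∀ v, v ∉ S → p ^ (k + 1) • η v = 0
  lX : Lev X
  lF : Lev F
  ne : ∃ g, X g ≠ 1
  Xp : ∀ g, X g ^ p = 1
  exX : ∀ v, v ∉ S → ∀ g : GK i, FrobAt g v → X g = (η v).toMul ^ p ^ k
  exF : ∀ v, v ∉ S → ∀ g : GK i, FrobAt g v → X g = 1 → F g = (η v).toMul
  unr : ∀ v, v ∉ S → ∀ A : ValuationSubring (AlgebraicClosure ℚ), Over i A v → ∀ g : GK i,
    g.1 ∈ A.inertiaSubgroupIn ℚ → X g = 1 ∧ F g = 1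

theorem exists_dat (hExt : ExtStmt) (hTor : TorStmt) {p : ℕ} [hp : Fact p.Prime] {k : ℕ}
    (hE : Ex p k) {K : Type} [Field K] [NumberField K] [IsTotallyComplex K]
    (i : K →+* AlgebraicClosure ℚ) {S : Finset (HeightOneSpectrum (𝓞 K))} {n : ℕ}
    {η : HeightOneSpectrum (𝓞 K) → Additive U} (hη : IsRay S n η)
    (hpη : ∀ v, v ∉ S → p ^ (k + 1) • η v = 0) (hne : ∃ v, v ∉ S ∧ p ^ k • η v ≠ 0) :
    ∃ X F : GK i →* U, Dat p k i S η X F := by
  obtain ⟨e, he, he'⟩ := hTor p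
  obtain ⟨χ, F, lχ, lF, ⟨g₀, hg₀⟩, h1, h2, h3⟩ := step hExt he he' hE i hη hpη hne
  let eU : C p →* U :=
    { toFun := fun x => (e x.toAdd).toMul
      map_one' := by rw [toAdd_one, map_zero, toMul_zero]
      map_mul' := fun x y => by rw [toAdd_mul, map_add, toMul_add] }
  have heU : ∀ x, eU x = 1 ↔ x = 1 := by
    intro x
    constructor
    · intro h
      have h4 : e x.toAdd = 0 := h
      exact toAdd_eq_zero.mp (he (by rw [h4, map_zero]))
    · rintro rfl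
      exact map_one eU
  refine ⟨eU.comp χ, F, ⟨n, hη⟩, hpη, ?_, lF, ⟨g₀, fun h => hg₀ ((heU _).mp h)⟩, fun g => ?_,
    fun v hv g hg => ?_, fun v hv g hg hX => h2 v hv g hg ((heU _).mp hX),
    fun v hv A hA g hg => ?_⟩
  · obtain ⟨L, hL, h⟩ := lχ
    exact ⟨L, hL, fun g hg => by rw [MonoidHom.comp_apply, h g hg, map_one]⟩
  · rw [← map_pow, MonoidHom.comp_apply, map_pow, CFTP.C.pow_p, map_one]
  · change (e (χ g).toAdd).toMul = _
    rw [h1 v hv g hg, toMul_nsmul]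
  · obtain ⟨h4, h5⟩ := h3 v hv A hA g hg
    refine ⟨?_, h5⟩
    rw [MonoidHom.comp_apply, h4, map_one]

/-- Auxiliary exact pairs. -/
structure Pair (p k : ℕ) {K : Type*} [Field K] [NumberField K] (i : K →+* AlgebraicClosure ℚ)
    (T : Finset (HeightOneSpectrum (𝓞 K))) (θ : HeightOneSpectrum (𝓞 K) → Additive U)
    (κ : GK i →* U) : Prop where
  ray : ∃ n, IsRay T n θ
  art : Art i T θ κ
  tors : ∀ g, κ g ^ p ^ (k + 1) = 1

section

variable {p k : ℕ} {K : Type*} [Field K] [NumberField K] {i : K →+* AlgebraicClosure ℚ}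
  {T : Finset (HeightOneSpectrum (𝓞 K))} {θ : HeightOneSpectrum (𝓞 K) → Additive U}
  {κ : GK i →* U}

lemma Pair.tors' (P : Pair p k i T θ κ) {v : HeightOneSpectrum (𝓞 K)} (hv : v ∉ T) :
    p ^ (k + 1) • θ v = 0 := by
  obtain ⟨q, A, hq, hAq, hA⟩ := exists_over i v
  obtain ⟨g, hg⟩ := exists_frobAt_over hA
  have h1 := P.tors g
  rw [P.art.2 v hv g ⟨A, hA, hg⟩] at h1
  exact h1

lemma Pair.pow (P : Pair p k i T θ κ) (m : ℕ) : Pair p k i T (fun v => m • θ v) (κ ^ m) := by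
  obtain ⟨n, hn⟩ := P.ray
  let f : Additive U →+ Additive U :=
    { toFun := fun x => m • x
      map_zero' := nsmul_zero _
      map_add' := fun x y => nsmul_add x y _ }
  refine ⟨⟨n, ?_⟩, ⟨P.art.1.pow m, fun v hv g hg => ?_⟩, fun g => ?_⟩
  · have h1 : IsRay T n (fun v => f (θ v)) := hn.comp f
    exact h1
  · rw [MonoidHom.pow_apply, P.art.2 v hv g hg, toMul_nsmul]
  · rw [MonoidHom.pow_apply, ← pow_mul, mul_comm, pow_mul, P.tors, one_pow]

end

/-- **The scalar of an auxiliary pair.** -/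
theorem scalar (hExt : ExtStmt) (hTor : TorStmt) {p : ℕ} [hp : Fact p.Prime] {k : ℕ}
    (hE : Ex p k) {K : Type} [Field K] [NumberField K] [IsTotallyComplex K]
    {i : K →+* AlgebraicClosure ℚ} {S : Finset (HeightOneSpectrum (𝓞 K))}
    {η : HeightOneSpectrum (𝓞 K) → Additive U} {X F : GK i →* U} (d : Dat p k i S η X F)
    {T : Finset (HeightOneSpectrum (𝓞 K))} {θ : HeightOneSpectrum (𝓞 K) → Additive U}
    {κ : GK i →* U} (P : Pair p k i T θ κ) (hu : ∃ u, X u = 1 ∧ κ u ^ p ^ k ≠ 1) :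
    ∃ c : ℕ, ∀ v, v ∉ S → v ∉ T → ∀ φ : GK i, FrobAt φ v → X φ * κ φ ^ p ^ k = 1 →
      (η v).toMul = F φ * X φ ^ c := by
  classical
  obtain ⟨n, hn⟩ := d.ray
  obtain ⟨m, hm⟩ := P.ray
  obtain ⟨u, hXu, hκu⟩ := hu
  obtain ⟨g₀, hg₀⟩ := d.ne
  have lκ : Lev (κ ^ p ^ k) := P.art.1.pow _
  have hκp : ∀ g, (κ g ^ p ^ k) ^ p = 1 := fun g => by
    rw [← pow_mul, ← pow_succ]
    exact P.tors g
  -- the sum
  have hsum : IsRay (S ∪ T) (max n m) (fun v => η v + θ v) :=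
    ((hn.mono (le_max_left n m)).mono_set Finset.subset_union_left).add
      ((hm.mono (le_max_right n m)).mono_set Finset.subset_union_right)
  have htors : ∀ v, v ∉ S ∪ T → p ^ (k + 1) • (η v + θ v) = 0 := by
    intro v hv
    rw [Finset.mem_union, not_or] at hv
    rw [nsmul_add, d.tors v hv.1, P.tors' hv.2, add_zero]
  have hne : ∃ v, v ∉ S ∪ T ∧ p ^ k • (η v + θ v) ≠ 0 := by
    by_contra hcon
    push Not at hcon
    apply hκu
    have h1 := dens (T := S ∪ T) d.lX lκ (fun v hv _ φ hφ hX => by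
      have h2 := congrArg Additive.toMul (hcon v hv)
      rw [Finset.mem_union, not_or] at hv
      rw [toMul_nsmul, toMul_add, mul_pow, ← d.exX v hv.1 φ hφ, hX, one_mul, toMul_zero] at h2
      rw [MonoidHom.pow_apply, P.art.2 v hv.2 φ hφ, h2]) u hXu
    exact h1
  obtain ⟨X', F', d'⟩ := exists_dat hExt hTor hE i hsum htors hne
  -- `X' = X κ₁`
  have hX' : ∀ g, X' g = X g * κ g ^ p ^ k := by
    intro g
    refine eq_of_frob (ψ' := X * κ ^ p ^ k) (T := S ∪ T) d'.lX (d.lX.mul lκ)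
      (fun v hv φ hφ => ?_) g
    have hv' := hv
    rw [Finset.mem_union, not_or] at hv'
    rw [d'.exX v hv φ hφ, MonoidHom.mul_apply, MonoidHom.pow_apply, d.exX v hv'.1 φ hφ,
      P.art.2 v hv'.2 φ hφ, toMul_add, mul_pow]
  let ω : GK i →* U := F' * (F * κ)⁻¹
  have hω : ∀ g, ω g = F' g * (F g * κ g)⁻¹ := fun g => rfl
  have lω : Lev ω := by
    refine d'.lF.mul ?_
    obtain ⟨L, hL, h⟩ := d.lF.mul P.art.1
    exact ⟨L, hL, fun g hg => by rw [MonoidHom.inv_apply, h g hg, inv_one]⟩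
  -- `ω` is trivial on `ker X ∩ ker κ₁`
  have hker : ∀ g, X g = 1 → κ g ^ p ^ k = 1 → ω g = 1 := by
    intro g h1 h2
    refine dens (T := S ∪ T) (χ := X.prod (κ ^ p ^ k)) (ω := ω) ?_ lω
      (fun v hv _ φ hφ hX => ?_) g (Prod.ext h1 h2)
    · obtain ⟨L₁, hL₁, h₁⟩ := d.lX
      obtain ⟨L₂, hL₂, h₂⟩ := lκ
      exact ⟨L₁ ⊔ L₂, IntermediateField.finiteDimensional_sup _ _, fun g hg => Prod.ext
        (h₁ g fun x hx => hg x ((le_sup_left : L₁ ≤ L₁ ⊔ L₂) hx))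
        (h₂ g fun x hx => hg x ((le_sup_right : L₂ ≤ L₁ ⊔ L₂) hx))⟩
    · have hX1 : X φ = 1 := congrArg Prod.fst hX
      have hX2 : κ φ ^ p ^ k = 1 := congrArg Prod.snd hX
      have hv' := hv
      rw [Finset.mem_union, not_or] at hv'
      rw [hω, d'.exF v hv φ hφ (by rw [hX', hX1, hX2, one_mul]), d.exF v hv'.1 φ hφ hX1,
        P.art.2 v hv'.2 φ hφ, toMul_add, mul_inv_cancel]
  -- an element of `ker X'` which is not killed by `X`
  obtain ⟨a, ha⟩ := exists_pow_eq_U hκu (hκp u) (y := (X g₀ * κ g₀ ^ p ^ k)⁻¹) (by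
    rw [inv_pow, mul_pow, d.Xp, hκp, one_mul, inv_one])
  set h₀ : GK i := g₀ * u ^ a with hh₀
  have hXh₀ : X h₀ = X g₀ := by rw [hh₀, map_mul, map_pow, hXu, one_pow, mul_one]
  have hκh₀ : X h₀ * κ h₀ ^ p ^ k = 1 := by
    rw [hXh₀, hh₀, map_mul, map_pow, mul_pow, ← pow_mul, mul_comm a, pow_mul, ← ha, ← mul_assoc,
      mul_inv_cancel]
  have hXh₀1 : X h₀ ≠ 1 := by rwa [hXh₀]
  have hωp : ω h₀ ^ p = 1 := by
    rw [← map_pow]
    apply hker
    · rw [map_pow, d.Xp]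
    · rw [map_pow, ← pow_mul, mul_comm, pow_mul, hκp]
  obtain ⟨c, hc⟩ := exists_pow_eq_U hXh₀1 (d.Xp h₀) hωp
  have hmain : ∀ g, X g * κ g ^ p ^ k = 1 → ω g = X g ^ c := by
    intro g hg
    obtain ⟨b, hb⟩ := exists_pow_eq_U hXh₀1 (d.Xp h₀) (d.Xp g)
    have h1 : ω (g * (h₀ ^ b)⁻¹) = 1 := by
      apply hker
      · rw [map_mul, map_inv, map_pow, hb, mul_inv_cancel]
      · have h2 : κ g ^ p ^ k = (X g)⁻¹ := eq_inv_of_mul_eq_one_right hg
        have h3 : κ h₀ ^ p ^ k = (X h₀)⁻¹ := eq_inv_of_mul_eq_one_right hκh₀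
        rw [map_mul, map_inv, map_pow, mul_pow, inv_pow, ← pow_mul, mul_comm b, pow_mul, h2, h3,
          hb, inv_pow, inv_inv, inv_mul_cancel]
    rw [map_mul, map_inv, map_pow, mul_inv_eq_one] at h1
    rw [h1, hc, hb, ← pow_mul, ← pow_mul, mul_comm]
  refine ⟨c, fun v hvS hvT φ hφ hφ1 => ?_⟩
  have hv : v ∉ S ∪ T := by
    rw [Finset.mem_union, not_or]
    exact ⟨hvS, hvT⟩
  have h1 := d'.exF v hv φ hφ (by rw [hX', hφ1])
  have h2 : ∀ x y z : U, x = z * (x * y * (z * y)⁻¹) := by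
    intro x y z
    rw [mul_inv_rev, mul_assoc x, mul_inv_cancel_left, mul_left_comm, mul_inv_cancel, mul_one]
  rw [← hmain φ hφ1, hω, h1, P.art.2 v hvT φ hφ, toMul_add]
  exact h2 _ _ _

end Fermat.Agent.Cor.HCF
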