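import Fermat.Agent.Corollaries.HCF.Defs

set_option autoImplicit false

/-!
# The induction step: the character on the first layer and its extension
-/

namespace Fermat.Agent.Cor.HCF

open IsDedekindDomain NumberField
open Fermat.Agent.Frob Fermat.Agent.FrobDensity Fermat.Agent.Minkowski
open Fermat.Agent.LT Fermat.Agent.LT.Tower.Fr
open Fermat.Agent.Cor.Diff (GK FrobAt finite_natCast_mem exists_nat_mem)
open Fermat.Agent.Cor.CFTP
open Fermat.Agent.CFT.Global (above mem_above)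
open Fermat.Agent.LT.NV (fdeg edeg edeg_fdeg_eq pull card_conj_eq)
open Fermat.Agent.LT.Psi (finite_under)
open scoped Pointwise

section Dens

variable {K : Type*} [Field K] [NumberField K] {i : K →+* AlgebraicClosure ℚ}

/-- **Density**, zero version: a homomorphism `ω` which is trivial at the Frobenius elements killed
by `χ` is trivial on `ker χ`. -/
theorem dens {M N : Type} [Group M] [Group N] {χ : GK i →* N} {ω : GK i →* M} (lχ : Lev χ)
    (lω : Lev ω) {T : Finset (HeightOneSpectrum (𝓞 K))}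
    (h : ∀ v, v ∉ T → (Ideal.absNorm v.asIdeal).Prime → ∀ φ : GK i, FrobAt φ v → χ φ = 1 →
      ω φ = 1) : ∀ g, χ g = 1 → ω g = 1 := by
  obtain ⟨L, hL, hLχ⟩ := lχ
  obtain ⟨L', hL', hLω⟩ := lω
  have hLL : FiniteDimensional ℚ (L ⊔ L' : IntermediateField ℚ (AlgebraicClosure ℚ)) :=
    IntermediateField.finiteDimensional_sup _ _
  intro g hg
  obtain ⟨D, hD, hDv⟩ := exists_nat_mem (T : Set (HeightOneSpectrum (𝓞 K)))
    (Finset.finite_toSet _)
  obtain ⟨v, φ, k, k', hv, hφ, hprime, hpow⟩ := exists_frob g (L ⊔ L') hD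
  have hvT : v ∉ T := fun h => hv (hDv v h)
  have h1 := hpow χ fun h hh => hLχ _ fun x hx => hh x ((le_sup_left : L ≤ L ⊔ L') hx)
  have h2 := hpow ω fun h hh => hLω _ fun x hx => hh x ((le_sup_right : L' ≤ L ⊔ L') hx)
  rw [h2.2, h v hvT hprime φ hφ (by rw [h1.1, hg, one_pow]), one_pow]

/-- **Density**, complement version. -/
theorem dens' {M N : Type} [Group M] [Group N] {χ : GK i →* N} {ω : GK i →* M} (lχ : Lev χ)
    (lω : Lev ω) {T : Finset (HeightOneSpectrum (𝓞 K))}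
    (h : ∀ v, v ∉ T → (Ideal.absNorm v.asIdeal).Prime → ∀ φ : GK i, FrobAt φ v → χ φ ≠ 1 →
      ω φ = 1) : ∀ g, χ g ≠ 1 → ω g = 1 := by
  obtain ⟨L, hL, hLχ⟩ := lχ
  obtain ⟨L', hL', hLω⟩ := lω
  have hLL : FiniteDimensional ℚ (L ⊔ L' : IntermediateField ℚ (AlgebraicClosure ℚ)) :=
    IntermediateField.finiteDimensional_sup _ _
  intro g hg
  obtain ⟨D, hD, hDv⟩ := exists_nat_mem (T : Set (HeightOneSpectrum (𝓞 K)))
    (Finset.finite_toSet _)
  obtain ⟨v, φ, k, k', hv, hφ, hprime, hpow⟩ := exists_frob g (L ⊔ L') hD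
  have hvT : v ∉ T := fun h => hv (hDv v h)
  have h1 := hpow χ fun h hh => hLχ _ fun x hx => hh x ((le_sup_left : L ≤ L ⊔ L') hx)
  have h2 := hpow ω fun h hh => hLω _ fun x hx => hh x ((le_sup_right : L' ≤ L ⊔ L') hx)
  rw [h2.2, h v hvT hprime φ hφ (fun h3 => hg (by rw [h1.2, h3, one_pow])), one_pow]

/-- A homomorphism trivial off the kernel of `χ ≠ 1` is trivial. -/
theorem eq_one_of_off {M N G : Type*} [Group M] [Group N] [Group G] {χ : G →* N} {ω : G →* M}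
    (h : ∀ g, χ g ≠ 1 → ω g = 1) (hχ : ∃ g, χ g ≠ 1) (g : G) : ω g = 1 := by
  by_cases hg : χ g = 1
  · obtain ⟨g₀, hg₀⟩ := hχ
    have h1 := h (g * g₀) (by rwa [map_mul, hg, one_mul])
    rw [map_mul, h g₀ hg₀, mul_one] at h1
    exact h1
  · exact h g hg

/-- Exact characters are equal if they have the same values. -/
theorem eq_of_frob {M : Type} [Group M] {ψ ψ' : GK i →* M} (lψ : Lev ψ) (lψ' : Lev ψ')
    {T : Finset (HeightOneSpectrum (𝓞 K))} (h : ∀ v, v ∉ T → ∀ φ : GK i, FrobAt φ v →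
      ψ φ = ψ' φ) (g : GK i) : ψ g = ψ' g := by
  obtain ⟨L, hL, hLψ⟩ := lψ
  obtain ⟨L', hL', hLψ'⟩ := lψ'
  have hLL : FiniteDimensional ℚ (L ⊔ L' : IntermediateField ℚ (AlgebraicClosure ℚ)) :=
    IntermediateField.finiteDimensional_sup _ _
  obtain ⟨D, hD, hDv⟩ := exists_nat_mem (T : Set (HeightOneSpectrum (𝓞 K)))
    (Finset.finite_toSet _)
  obtain ⟨v, φ, k, k', hv, hφ, hprime, hpow⟩ := exists_frob g (L ⊔ L') hD
  have hvT : v ∉ T := fun h => hv (hDv v h)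
  rw [(hpow ψ fun h hh => hLψ _ fun x hx => hh x ((le_sup_left : L ≤ L ⊔ L') hx)).2,
    (hpow ψ' fun h hh => hLψ' _ fun x hx => hh x ((le_sup_right : L' ≤ L ⊔ L') hx)).2,
    h v hvT φ hφ]

/-- Exact characters are unramified. -/
theorem Art.unr {S : Finset (HeightOneSpectrum (𝓞 K))} {η : HeightOneSpectrum (𝓞 K) → Additive U}
    {ψ : GK i →* U} (h : Art i S η ψ) {v : HeightOneSpectrum (𝓞 K)} (hv : v ∉ S)
    {A : ValuationSubring (AlgebraicClosure ℚ)} (hA : Over i A v) {g : GK i}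
    (hg : g.1 ∈ A.inertiaSubgroupIn ℚ) : ψ g = 1 := by
  obtain ⟨φ, hφ⟩ := exists_frobAt_over hA
  have h1 := h.2 v hv φ ⟨A, hA, hφ⟩
  have h2 := h.2 v hv (g * φ) ⟨A, hA, isFrobeniusAt_inertia_mul hg hφ⟩
  rw [map_mul, h1] at h2
  exact mul_eq_right.mp h2

end Dens

/-- The ray property depends only on the places outside `S`. -/
theorem isRay_congr {F : Type*} [Field F] [NumberField F] {A : Type*} [AddCommGroup A]
    {S : Finset (HeightOneSpectrum (𝓞 F))} {n : ℕ} {η η' : HeightOneSpectrum (𝓞 F) → A}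
    (h : ∀ v, v ∉ S → η v = η' v) (hη : IsRay S n η) : IsRay S n η' := by
  intro x hx
  have h1 : divVal S η' = divVal S η := by
    unfold divVal
    congr 1
    funext v
    by_cases hv : v ∈ S
    · rw [if_pos hv, if_pos hv]
    · rw [if_neg hv, if_neg hv, h v hv]
  have h2 := hη x hx
  rw [rayVal_apply] at h2 ⊢
  rw [h1]
  exact h2

/-- **The induction step, first part.** -/
theorem step (hExt : ExtStmt) {p : ℕ} [hp : Fact p.Prime] {e : ZMod p →+ Additive U}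
    (he : Function.Injective e) (he' : ∀ u : Additive U, p • u = 0 → ∃ z, e z = u) {k : ℕ}
    (hE : Ex p k) {K : Type} [Field K] [NumberField K] [IsTotallyComplex K]
    (i : K →+* AlgebraicClosure ℚ) {S : Finset (HeightOneSpectrum (𝓞 K))} {n : ℕ}
    {η : HeightOneSpectrum (𝓞 K) → Additive U} (hη : IsRay S n η)
    (hpη : ∀ v, v ∉ S → p ^ (k + 1) • η v = 0) (hne : ∃ v, v ∉ S ∧ p ^ k • η v ≠ 0) :
    ∃ (χ : GK i →* C p) (F : GK i →* U), Lev χ ∧ Lev F ∧ (∃ g, χ g ≠ 1) ∧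
      (∀ v, v ∉ S → ∀ g : GK i, FrobAt g v → e (χ g).toAdd = p ^ k • η v) ∧
      (∀ v, v ∉ S → ∀ g : GK i, FrobAt g v → χ g = 1 → F g = (η v).toMul) ∧
      ∀ v, v ∉ S → ∀ A : ValuationSubring (AlgebraicClosure ℚ), Over i A v → ∀ g : GK i,
        g.1 ∈ A.inertiaSubgroupIn ℚ → χ g = 1 ∧ F g = 1 := by
  classical
  -- the character of order `p`
  have h1 : ∀ v, ∃ z : ZMod p, v ∉ S → e z = p ^ k • η v := by
    intro v
    by_cases hv : v ∈ S
    · exact ⟨0, fun h => absurd hv h⟩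
    · obtain ⟨z, hz⟩ := he' (p ^ k • η v) (by
        rw [← mul_smul, ← pow_succ']
        exact hpη v hv)
      exact ⟨z, fun _ => hz⟩
  choose ηb hηb using h1
  have hray : IsRay S n ηb := by
    apply Split.isRay_of_comp he
    let m : Additive U →+ Additive U :=
      { toFun := fun x => p ^ k • x
        map_zero' := nsmul_zero _
        map_add' := fun x y => nsmul_add x y _ }
    have hm : ∀ x, m x = p ^ k • x := fun _ => rfl
    have h2 : IsRay S n (fun v => m (η v)) := hη.comp m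
    exact isRay_congr (fun v hv => by rw [hm, hηb v hv]) h2
  obtain ⟨χ, lχ, uχ, eχ⟩ := artin_existence (Or.inr inferInstance) i hray
  have hχ : ∃ g, χ g ≠ 1 := by
    obtain ⟨v, hv, hv0⟩ := hne
    obtain ⟨q, A, hq, hAq, hA⟩ := exists_over i v
    obtain ⟨g, hg⟩ := exists_frobAt_over hA
    refine ⟨g, fun h => hv0 ?_⟩
    rw [eχ v hv g ⟨A, hA, hg⟩, ofAdd_eq_one] at h
    rw [← hηb v hv, h, map_zero]
  obtain ⟨L, _, _, _, _, j, hj, hL, hiff, -⟩ := exists_field lχ hχ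
  subst hj
  have hTC : IsTotallyComplex L := isTotallyComplex_of_algebra K L
  obtain ⟨n', hη'⟩ := hη.pull (L := L)
  -- residue degrees
  have hfd : ∀ w : HeightOneSpectrum (𝓞 L), fdeg K w = 1 ∨ fdeg K w = p := by
    intro w
    have h2 : fdeg K w ∣ p := by
      have h3 := sum_edeg_mul_fdeg (K := K) w
      rw [IsGalois.card_aut_eq_finrank, hL] at h3
      rw [← h3]
      refine Finset.dvd_sum fun V hV => ?_
      rw [Set.Finite.mem_toFinset, Set.mem_ofPred_eq] at hV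
      rw [(edeg_fdeg_eq hV).2]
      exact dvd_mul_left _ _
    exact (Nat.dvd_prime hp.out).mp h2
  have hsplit : ∀ (w : HeightOneSpectrum (𝓞 L)) (A : ValuationSubring (AlgebraicClosure ℚ)),
      Over j A w → w.under (𝓞 K) ∉ S → ∀ g : GK (j.comp (algebraMap K L)),
        A.IsFrobeniusAt g.1 (Ideal.absNorm (w.under (𝓞 K)).asIdeal) →
          (fdeg K w = 1 ↔ χ g = 1) := by
    intro w A hA hw g hg
    have hin : ∀ τ ∈ A.inertiaSubgroupIn ℚ,
        (∀ x : K, τ (j (algebraMap K L x)) = j (algebraMap K L x)) →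
          ∀ x : L, τ (j x) = j x := by
      intro τ hτ hτK
      exact (hiff ⟨τ, hτK⟩).mpr (uχ _ hw A hA.under ⟨τ, hτK⟩ hτ)
    rw [fdeg_eq_one_iff hA hin (g := g.1) g.2 hg, ← hiff]
    rfl
  have hp' : ∀ w, w ∉ above L S → p ^ k • pull L η w = 0 := by
    intro w hw
    rw [mem_above] at hw
    rw [pull, smul_comm]
    rcases hfd w with h | h
    · obtain ⟨q, A, hq, hAq, hA⟩ := exists_over j w
      obtain ⟨g, hg⟩ := exists_frobAt_over (hA.under (F := K))
      have h2 := (hsplit w A hA hw g hg).mp h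
      rw [eχ _ hw g ⟨A, hA.under, hg⟩, ofAdd_eq_one] at h2
      rw [h, one_smul, ← hηb _ hw, h2, map_zero]
    · rw [h, ← mul_smul, ← pow_succ']
      exact hpη _ hw
  obtain ⟨ψ', hψ'⟩ := hE L j (above L S) n' (pull L η) hη' hp'
  -- invariance
  have hinv : ∀ (σ : GQ) (hσ : σ ∈ GK (j.comp (algebraMap K L))) (h : GK j),
      ψ' (conjHom j hσ h) = ψ' h := by
    intro σ hσ
    refine eq_of_frob (ψ := ψ'.comp (conjHom j hσ)) (T := above L S) (hψ'.1.conj hσ) hψ'.1 ?_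
    intro w hw h hh
    obtain ⟨A, hA, hF⟩ := hh
    obtain ⟨τ, hτ⟩ := exists_gal j hσ
    have hu : (Fermat.Agent.CFT.Places.conj τ w).under (𝓞 K) = w.under (𝓞 K) :=
      Fermat.Agent.CFT.Places.below_conj τ w
    have h2 := hψ'.2 (Fermat.Agent.CFT.Places.conj τ w) (by
      rw [mem_above, hu]
      rwa [mem_above] at hw) (conjHom j hσ h)
      ⟨σ • A, Fermat.Agent.LT.Tower.Fr.Over.conj hA τ hτ, by
        rw [absNorm_eq_of_under_eq hu]
        exact isFrobeniusAt_conj hF⟩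
    rw [MonoidHom.comp_apply, h2, hψ'.2 w hw h ⟨A, hA, hF⟩, pull, pull, hu,
      (edeg_fdeg_eq hu).2]
  -- extension
  let f : χ.ker →* U :=
    { toFun := fun g => ψ' ⟨g.1.1, (hiff g.1).mpr g.2⟩
      map_one' := map_one ψ'
      map_mul' := fun a b => map_mul ψ' ⟨a.1.1, (hiff a.1).mpr a.2⟩ ⟨b.1.1, (hiff b.1).mpr b.2⟩ }
  obtain ⟨F, hF⟩ := hExt p (GK (j.comp (algebraMap K L))) χ hχ f (by
    intro σ n h
    exact hinv σ.1 σ.2 ⟨n.1.1, (hiff n.1).mpr n.2⟩)
  have hFψ : ∀ (g : GK (j.comp (algebraMap K L))) (hg : g.1 ∈ GK j), F g = ψ' ⟨g.1, hg⟩ := by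
    intro g hg
    exact hF ⟨g, (hiff g).mp hg⟩
  refine ⟨χ, F, lχ, ?_, hχ, ?_, ?_, ?_⟩
  · obtain ⟨L₁, hL₁, h₁⟩ := lχ
    obtain ⟨L₂, hL₂, h₂⟩ := hψ'.1
    refine ⟨L₁ ⊔ L₂, IntermediateField.finiteDimensional_sup _ _, fun g hg => ?_⟩
    have h3 : g.1 ∈ GK j := (hiff g).mpr
      (h₁ g fun x hx => hg x ((le_sup_left : L₁ ≤ L₁ ⊔ L₂) hx))
    rw [hFψ g h3]
    exact h₂ _ fun x hx => hg x ((le_sup_right : L₂ ≤ L₁ ⊔ L₂) hx)
  · intro v hv g hg
    rw [eχ v hv g hg, toAdd_ofAdd, hηb v hv]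
  · intro v hv g hg hχg
    obtain ⟨A, hA, hgF⟩ := hg
    obtain ⟨q, hq, hqv⟩ := exists_prime_mem v
    have hAq : A.LiesOverPrime q := hA.natCast_mem_iff.mp hqv
    obtain ⟨w, hw⟩ := exists_over_of_liesOver j hq hAq
    have hwv : w.under (𝓞 K) = v := hw.under.unique hA
    subst hwv
    have h3 := (hsplit w A hw hv g hgF).mpr hχg
    have h4 : g.1 ∈ GK j := (hiff g).mpr hχg
    rw [hFψ g h4, hψ'.2 w (by rwa [mem_above]) ⟨g.1, h4⟩ ⟨A, hw, by
      rw [absNorm_eq_pow_fdeg (K := K) w, h3, pow_one]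
      exact hgF⟩, pull, h3, one_smul]
  · intro v hv A hA g hg
    have h3 := uχ v hv A hA g hg
    refine ⟨h3, ?_⟩
    obtain ⟨q, hq, hqv⟩ := exists_prime_mem v
    have hAq : A.LiesOverPrime q := hA.natCast_mem_iff.mp hqv
    obtain ⟨w, hw⟩ := exists_over_of_liesOver j hq hAq
    have hwv : w.under (𝓞 K) = v := hw.under.unique hA
    have h4 : g.1 ∈ GK j := (hiff g).mpr h3
    rw [hFψ g h4]
    exact hψ'.unr (by rwa [mem_above, hwv]) hw hg

end Fermat.Agent.Cor.HCF
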